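import Mathlib
import Fermat.Prelude.Def_GroupCohomology_ContinuousUnramified
import Fermat.Agent.S05.H63.Inertia
import Fermat.Agent.S29.H81.CycloFrob

/-!
# S55 (Program C), package C0: levels unramified outside `S`

* `mem_inertiaSubgroupIn_iff`: elementwise description of the inertia subgroup;
  `conj_mem_inertiaSubgroupIn_smul`: conjugation of inertia subgroups;
* `isUnramifiedOutside_normalClosure`, `exists_normal_level`: every level unramified outside `S`
  is contained in a Galois level unramified outside `S`;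
* `exists_level_fixingSubgroup_eq`: the fixed field of a subgroup containing an open subgroup and
  all inertia subgroups outside `S` is a level unramified outside `S`, with that fixing subgroup;
* `exists_level_trivial`: for the module `M` of the frozen S55, a Galois level unramified outside
  `S` whose fixing subgroup is exactly the kernel of the action;
* `dualTwist_smooth`, `dualTwist_unramified`: the hypotheses of the frozen S55 pass to
  `M.dualTwist (cycloChar p)`;
* `exists_level_trivial_both`: one Galois level unramified outside `S` trivialising `M`, the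
  cyclotomic character and `M.dualTwist (cycloChar p)`.
-/

set_option autoImplicit false

open CategoryTheory Module groupCohomology ExtCitation
open scoped Pointwise

namespace Fermat.Agent.S55.H43

local instance isAlgebraicQbar_h43 : Algebra.IsAlgebraic ℚ (AlgebraicClosure ℚ) :=
  AlgebraicClosure.isAlgebraic ℚ
local instance isAlgClosureQbar_h43 : IsAlgClosure ℚ (AlgebraicClosure ℚ) :=
  ⟨inferInstance, inferInstance⟩
local instance isGaloisQbar_h43 : IsGalois ℚ (AlgebraicClosure ℚ) :=
  IsAlgClosure.isGalois ℚ (AlgebraicClosure ℚ)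
local instance normalQbar_h43 : Normal ℚ (AlgebraicClosure ℚ) :=
  IsAlgClosure.normal ℚ (AlgebraicClosure ℚ)

/-! ### Inertia subgroups -/

section Inertia

variable {K L : Type*} [Field K] [Field L] [Algebra K L]

/-- Elementwise description of the inertia subgroup of a valuation subring. -/
theorem mem_inertiaSubgroupIn_iff (A : ValuationSubring L) (σ : L ≃ₐ[K] L) :
    σ ∈ A.inertiaSubgroupIn K ↔ ∀ x ∈ A, σ x - x ∈ A.nonunits := by
  constructor
  · intro hσ x hx
    exact Fermat.Agent.S05.H63.apply_sub_mem_nonunits_of_mem_inertiaSubgroupIn hσ hx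
  · intro h
    have hmem : ∀ x ∈ A, σ x ∈ A := fun x hx => by
      have h1 : σ x - x ∈ A := ValuationSubring.nonunits_subset (h x hx)
      have h2 := A.add_mem _ _ h1 hx
      rwa [sub_add_cancel] at h2
    have hnon : ∀ x ∈ A.nonunits, σ x ∈ A.nonunits := fun x hx => by
      have h1 := h x (ValuationSubring.nonunits_subset hx)
      have h2 := A.nonunits.add_mem h1 hx
      rwa [sub_add_cancel] at h2
    have hinv : ∀ x ∈ A, σ.symm x ∈ A := fun x hx => by
      by_contra hy
      have h1 : (σ.symm x)⁻¹ ∈ A.nonunits := by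
        rw [ValuationSubring.inv_mem_nonunits_iff]
        exact Or.inr hy
      have h2 := hnon _ h1
      rw [map_inv₀, σ.apply_symm_apply, ValuationSubring.inv_mem_nonunits_iff] at h2
      rcases h2 with rfl | h2
      · exact hy (by rw [map_zero]; exact A.zero_mem)
      · exact h2 hx
    have hσA : σ ∈ A.decompositionSubgroup K := by
      rw [MulAction.mem_stabilizer_iff]
      ext x
      rw [ValuationSubring.mem_pointwise_smul_iff_inv_smul_mem]
      constructor
      · intro hx
        have h2 := hmem _ hx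
        have h3 : σ (σ⁻¹ • x) = x := σ.apply_symm_apply x
        rwa [h3] at h2
      · intro hx
        exact hinv x hx
    refine Subgroup.mem_map.mpr ⟨⟨σ, hσA⟩, ?_, rfl⟩
    show (⟨σ, hσA⟩ : A.decompositionSubgroup K) ∈ MonoidHom.ker
      (MulSemiringAction.toRingAut (A.decompositionSubgroup K) (IsLocalRing.ResidueField A))
    rw [MonoidHom.mem_ker]
    ext x
    obtain ⟨a, rfl⟩ := IsLocalRing.residue_surjective x
    show (⟨σ, hσA⟩ : A.decompositionSubgroup K) • IsLocalRing.residue A a =
      IsLocalRing.residue A a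
    rw [← IsLocalRing.ResidueField.residue_smul]
    have h1 : (⟨σ, hσA⟩ : A.decompositionSubgroup K) • a - a ∈ IsLocalRing.maximalIdeal A := by
      rw [← ValuationSubring.coe_mem_nonunits_iff]
      exact h a a.2
    rw [← IsLocalRing.residue_eq_zero_iff, map_sub, sub_eq_zero] at h1
    exact h1

/-- Translating a nonunit of `A` gives a nonunit of the translated valuation subring. -/
theorem apply_mem_nonunits_smul (A : ValuationSubring L) (τ : L ≃ₐ[K] L) {y : L}
    (hy : y ∈ A.nonunits) : τ y ∈ (τ • A).nonunits := by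
  rw [ValuationSubring.mem_nonunits_iff_or] at hy ⊢
  rcases hy with rfl | hy
  · left
    exact map_zero τ
  · right
    rw [ValuationSubring.mem_pointwise_smul_iff_inv_smul_mem, ← map_inv₀]
    intro h
    apply hy
    have e : τ⁻¹ • τ y⁻¹ = y⁻¹ := τ.symm_apply_apply _
    rwa [e] at h

/-- Conjugating an inertia element of `A` by `τ` gives an inertia element of `τ • A`. -/
theorem conj_mem_inertiaSubgroupIn_smul (A : ValuationSubring L) (τ : L ≃ₐ[K] L)
    {σ : L ≃ₐ[K] L} (hσ : σ ∈ A.inertiaSubgroupIn K) :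
    τ * σ * τ⁻¹ ∈ (τ • A).inertiaSubgroupIn K := by
  rw [mem_inertiaSubgroupIn_iff] at hσ ⊢
  intro x hx
  rw [ValuationSubring.mem_pointwise_smul_iff_inv_smul_mem] at hx
  have h := apply_mem_nonunits_smul A τ (hσ _ hx)
  have e : (τ * σ * τ⁻¹) x - x = τ (σ (τ⁻¹ • x) - τ⁻¹ • x) := by
    rw [map_sub]
    have e1 : τ (τ⁻¹ • x) = x := τ.apply_symm_apply x
    rw [e1]
    rfl
  rw [e]
  exact h

/-- The translate of a valuation subring over `q` lies over `q`. -/
theorem liesOverPrime_smul {L : Type} [Field L] [Algebra K L] (A : ValuationSubring L)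
    (τ : L ≃ₐ[K] L) {q : ℕ} (h : A.LiesOverPrime q) : (τ • A).LiesOverPrime q := by
  have h1 := apply_mem_nonunits_smul A τ h
  rwa [map_natCast] at h1

end Inertia

/-! ### Levels -/

section Levels

local notation "Qbar" => AlgebraicClosure ℚ
local notation "Γ" => (AlgebraicClosure ℚ ≃ₐ[ℚ] AlgebraicClosure ℚ)

/-- The fixing subgroup of a translate of an intermediate field. -/
theorem mem_fixingSubgroup_map_of_conj (F : IntermediateField ℚ Qbar) (τ σ : Γ)
    (h : τ⁻¹ * σ * τ ∈ F.fixingSubgroup) :
    σ ∈ (F.map (τ : Qbar →ₐ[ℚ] Qbar)).fixingSubgroup := by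
  rw [IntermediateField.mem_fixingSubgroup_iff] at h ⊢
  rintro x ⟨y, hy, rfl⟩
  have h1 := h y hy
  have h2 : τ ((τ⁻¹ * σ * τ) y) = σ (τ y) := τ.apply_symm_apply _
  rw [h1] at h2
  exact h2.symm

variable {S : Finset Nat.Primes}

/-- A translate of a level unramified outside `S` is unramified outside `S`. -/
theorem isUnramifiedOutside_map {F : IntermediateField ℚ Qbar} (hF : F.IsUnramifiedOutside S)
    (τ : Γ) : (F.map (τ : Qbar →ₐ[ℚ] Qbar)).IsUnramifiedOutside S := by
  haveI := hF.1
  refine ⟨?_, fun q hq A hA σ hσ => ?_⟩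
  · exact LinearEquiv.finiteDimensional
      (IntermediateField.equivMap F (τ : Qbar →ₐ[ℚ] Qbar)).toLinearEquiv
  · apply mem_fixingSubgroup_map_of_conj
    have h1 := conj_mem_inertiaSubgroupIn_smul A τ⁻¹ hσ
    rw [inv_inv] at h1
    exact hF.2 q hq (τ⁻¹ • A) (liesOverPrime_smul A τ⁻¹ hA) h1

/-- The normal closure of a level unramified outside `S` is unramified outside `S`. -/
theorem isUnramifiedOutside_normalClosure {F : IntermediateField ℚ Qbar}
    (hF : F.IsUnramifiedOutside S) :
    (IntermediateField.normalClosure ℚ F Qbar).IsUnramifiedOutside S := by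
  haveI := hF.1
  refine ⟨inferInstance, fun q hq A hA σ hσ => ?_⟩
  have h1 : Subgroup.zpowers σ ≤ (IntermediateField.normalClosure ℚ F Qbar).fixingSubgroup := by
    rw [← IntermediateField.le_iff_le]
    refine (IntermediateField.normalClosure_def'' F).le.trans (iSup_le fun τ => ?_)
    rw [IntermediateField.le_iff_le, Subgroup.zpowers_le]
    exact (isUnramifiedOutside_map hF τ).2 q hq A hA hσ
  exact h1 (Subgroup.mem_zpowers σ)

/-- **Normal levels (global)**: every level unramified outside `S` is contained in a Galois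
level unramified outside `S`. -/
theorem exists_normal_level {F : IntermediateField ℚ Qbar} (hF : F.IsUnramifiedOutside S) :
    ∃ F' : IntermediateField ℚ Qbar, F'.IsUnramifiedOutside S ∧ F ≤ F' ∧
      (F'.fixingSubgroup).Normal ∧ IsGalois ℚ F' := by
  haveI := hF.1
  haveI : IsGalois ℚ (IntermediateField.normalClosure ℚ F Qbar) :=
    IsGalois.normalClosure ℚ F Qbar
  exact ⟨IntermediateField.normalClosure ℚ F Qbar, isUnramifiedOutside_normalClosure hF,
    IntermediateField.le_normalClosure F, inferInstance, inferInstance⟩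

/-- **Normal levels (local)**: every finite level is contained in a finite Galois level. -/
theorem exists_normal_finiteDimensional (F : IntermediateField ℚ Qbar) [FiniteDimensional ℚ F] :
    ∃ F' : IntermediateField ℚ Qbar, FiniteDimensional ℚ F' ∧ F ≤ F' ∧
      (F'.fixingSubgroup).Normal ∧ IsGalois ℚ F' := by
  haveI : IsGalois ℚ (IntermediateField.normalClosure ℚ F Qbar) :=
    IsGalois.normalClosure ℚ F Qbar
  exact ⟨IntermediateField.normalClosure ℚ F Qbar, inferInstance,
    IntermediateField.le_normalClosure F, inferInstance, inferInstance⟩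

/-- **Kernel fields**: a subgroup of the absolute Galois group containing the fixing subgroup of
a finite level and all inertia subgroups at the primes outside `S` is the fixing subgroup of a
level unramified outside `S`. -/
theorem exists_level_fixingSubgroup_eq (S : Finset Nat.Primes) (N : Subgroup Γ)
    (F₀ : IntermediateField ℚ Qbar) [FiniteDimensional ℚ F₀] (h0 : F₀.fixingSubgroup ≤ N)
    (hur : ∀ q : Nat.Primes, q ∉ S → ∀ A : ValuationSubring Qbar,
      A.LiesOverPrime (q : ℕ) → A.inertiaSubgroupIn ℚ ≤ N) :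
    ∃ L : IntermediateField ℚ Qbar, L.IsUnramifiedOutside S ∧ L.fixingSubgroup = N ∧ L ≤ F₀ := by
  have hopen : IsOpen (N : Set Γ) :=
    Subgroup.isOpen_mono h0 (IntermediateField.fixingSubgroup_isOpen F₀)
  have hclosed : IsClosed (N : Set Γ) := Subgroup.isClosed_of_isOpen N hopen
  have hfix : (IntermediateField.fixedField N).fixingSubgroup = N :=
    InfiniteGalois.fixingSubgroup_fixedField ⟨N, hclosed⟩
  have hle : IntermediateField.fixedField N ≤ F₀ := by
    have h1 := IntermediateField.fixedField_antitone h0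
    rwa [InfiniteGalois.fixedField_fixingSubgroup] at h1
  refine ⟨IntermediateField.fixedField N, ⟨?_, fun q hq A hA => ?_⟩, hfix, hle⟩
  · exact FiniteDimensional.of_injective (IntermediateField.inclusion hle).toLinearMap
      (IntermediateField.inclusion_injective hle)
  · rw [hfix]
    exact hur q hq A hA

end Levels

/-! ### The modules of the frozen S55 -/

section Modules

local notation "Qbar" => AlgebraicClosure ℚ
local notation "Γ" => (AlgebraicClosure ℚ ≃ₐ[ℚ] AlgebraicClosure ℚ)

/-- A finite-dimensional representation on which every vector is fixed by the fixing subgroup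
of some finite level is trivial on the fixing subgroup of one finite level. -/
theorem exists_finiteDimensional_level_trivial {k : Type} [Field k] (M : Rep k Γ)
    [FiniteDimensional k M]
    (hsm : ∀ m : M, ∃ F : IntermediateField ℚ Qbar, FiniteDimensional ℚ F ∧
      ∀ s ∈ F.fixingSubgroup, M.ρ s m = m) :
    ∃ F : IntermediateField ℚ Qbar, FiniteDimensional ℚ F ∧
      ∀ s ∈ F.fixingSubgroup, M.ρ s = 1 := by
  classical
  choose F hF hfix using hsm
  let b := Module.finBasis k M
  haveI : ∀ i, FiniteDimensional ℚ (F (b i)) := fun i => hF (b i)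
  refine ⟨⨆ i, F (b i), inferInstance, fun s hs => ?_⟩
  refine b.ext fun i => ?_
  exact hfix (b i) s (IntermediateField.fixingSubgroup_antitone (le_iSup (fun i => F (b i)) i) hs)

/-- **The kernel field of `M`**: for the module of the frozen S55 there is a Galois level
unramified outside `S` whose fixing subgroup is exactly the kernel of the action on `M`. -/
theorem exists_level_trivial (S : Finset Nat.Primes) {k : Type} [Field k] (M : Rep k Γ)
    [FiniteDimensional k M]
    (hsm : ∀ m : M, ∃ F : IntermediateField ℚ Qbar, FiniteDimensional ℚ F ∧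
      ∀ s ∈ F.fixingSubgroup, M.ρ s m = m)
    (hMur : ∀ q : Nat.Primes, q ∉ S → ∀ A : ValuationSubring Qbar,
      A.LiesOverPrime (q : ℕ) → ∀ g ∈ A.inertiaSubgroupIn ℚ, M.ρ g = 1) :
    ∃ L : IntermediateField ℚ Qbar, L.IsUnramifiedOutside S ∧ (L.fixingSubgroup).Normal ∧
      ∀ s : Γ, s ∈ L.fixingSubgroup ↔ M.ρ s = 1 := by
  obtain ⟨F₀, hF₀, h0⟩ := exists_finiteDimensional_level_trivial M hsm
  obtain ⟨L, hL, hfix, -⟩ := exists_level_fixingSubgroup_eq S (MonoidHom.ker M.ρ) F₀
    (fun s hs => MonoidHom.mem_ker.mpr (h0 s hs))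
    (fun q hq A hA g hg => MonoidHom.mem_ker.mpr (hMur q hq A hA g hg))
  refine ⟨L, hL, ?_, fun s => ?_⟩
  · rw [hfix]
    exact MonoidHom.normal_ker _
  · rw [hfix, MonoidHom.mem_ker]

variable {p : ℕ} [Fact p.Prime]

/-- If `s` acts trivially on `M` and has trivial cyclotomic character, it acts trivially on
`M.dualTwist (cycloChar p)`. -/
theorem dualTwist_ρ_eq_one (M : Rep (ZMod p) Γ) {s : Γ} (h1 : M.ρ s = 1)
    (h2 : cycloChar p s = 1) : (M.dualTwist (cycloChar p)).ρ s = 1 := by
  have h3 : M.ρ s⁻¹ = 1 := by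
    have h4 : s⁻¹ ∈ MonoidHom.ker M.ρ := (MonoidHom.ker M.ρ).inv_mem (MonoidHom.mem_ker.mpr h1)
    exact MonoidHom.mem_ker.mp h4
  refine LinearMap.ext fun f => ?_
  rw [Rep.dualTwist_ρ_apply, h2, h3, Units.val_one, one_smul]
  rfl

instance finiteDimensional_dualTwist (M : Rep (ZMod p) Γ) [FiniteDimensional (ZMod p) M] :
    FiniteDimensional (ZMod p) (M.dualTwist (cycloChar p)) :=
  inferInstanceAs (FiniteDimensional (ZMod p) (Module.Dual (ZMod p) M))

/-- **(P2a)** The smoothness hypothesis of the frozen S55 passes to the dual twist. -/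
theorem dualTwist_smooth (M : Rep (ZMod p) Γ) [FiniteDimensional (ZMod p) M]
    (hsm : ∀ m : M, ∃ F : IntermediateField ℚ Qbar, FiniteDimensional ℚ F ∧
      ∀ s ∈ F.fixingSubgroup, M.ρ s m = m) :
    ∀ f : M.dualTwist (cycloChar p), ∃ F : IntermediateField ℚ Qbar, FiniteDimensional ℚ F ∧
      ∀ s ∈ F.fixingSubgroup, (M.dualTwist (cycloChar p)).ρ s f = f := by
  obtain ⟨F₀, hF₀, h0⟩ := exists_finiteDimensional_level_trivial M hsm
  obtain ⟨F₁, hF₁, h1⟩ := Fermat.Agent.S29.H81.cycloChar_finiteLevel p
  intro f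
  refine ⟨F₀ ⊔ F₁, inferInstance, fun s hs => ?_⟩
  have hs0 : s ∈ F₀.fixingSubgroup := IntermediateField.fixingSubgroup_antitone le_sup_left hs
  have hs1 : s ∈ F₁.fixingSubgroup := IntermediateField.fixingSubgroup_antitone le_sup_right hs
  rw [dualTwist_ρ_eq_one M (h0 s hs0)
    (h1 s ((IntermediateField.mem_fixingSubgroup_iff _ _).mp hs1))]
  rfl

/-- **(P2b)** The unramifiedness hypothesis of the frozen S55 passes to the dual twist
(`p ∈ S`). -/
theorem dualTwist_unramified (S : Finset Nat.Primes) (hpS : pPrime p ∈ S) (M : Rep (ZMod p) Γ)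
    (hMur : ∀ q : Nat.Primes, q ∉ S → ∀ A : ValuationSubring Qbar,
      A.LiesOverPrime (q : ℕ) → ∀ g ∈ A.inertiaSubgroupIn ℚ, M.ρ g = 1) :
    ∀ q : Nat.Primes, q ∉ S → ∀ A : ValuationSubring Qbar,
      A.LiesOverPrime (q : ℕ) → ∀ g ∈ A.inertiaSubgroupIn ℚ,
        (M.dualTwist (cycloChar p)).ρ g = 1 := by
  intro q hq A hA g hg
  have hqp : (q : ℕ) ≠ p := by
    intro h
    apply hq
    have e : q = pPrime p := Subtype.ext h
    rw [e]
    exact hpS
  exact dualTwist_ρ_eq_one M (hMur q hq A hA g hg)
    (Fermat.Agent.S29.H81.cycloChar_of_mem_inertia q.2 hqp A hA hg)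

/-- **One level for everything**: a Galois level unramified outside `S` on whose fixing subgroup
`M`, the cyclotomic character and `M.dualTwist (cycloChar p)` are all trivial. -/
theorem exists_level_trivial_both (S : Finset Nat.Primes) (hpS : pPrime p ∈ S)
    (M : Rep (ZMod p) Γ) [FiniteDimensional (ZMod p) M]
    (hsm : ∀ m : M, ∃ F : IntermediateField ℚ Qbar, FiniteDimensional ℚ F ∧
      ∀ s ∈ F.fixingSubgroup, M.ρ s m = m)
    (hMur : ∀ q : Nat.Primes, q ∉ S → ∀ A : ValuationSubring Qbar,
      A.LiesOverPrime (q : ℕ) → ∀ g ∈ A.inertiaSubgroupIn ℚ, M.ρ g = 1) :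
    ∃ L : IntermediateField ℚ Qbar, L.IsUnramifiedOutside S ∧ (L.fixingSubgroup).Normal ∧
      (∀ s ∈ L.fixingSubgroup, M.ρ s = 1) ∧ (∀ s ∈ L.fixingSubgroup, cycloChar p s = 1) ∧
      ∀ s ∈ L.fixingSubgroup, (M.dualTwist (cycloChar p)).ρ s = 1 := by
  obtain ⟨F₀, hF₀, h0⟩ := exists_finiteDimensional_level_trivial M hsm
  obtain ⟨F₁, hF₁, h1⟩ := Fermat.Agent.S29.H81.cycloChar_finiteLevel p
  haveI := hF₀
  haveI := hF₁
  obtain ⟨L, hL, hfix, -⟩ := exists_level_fixingSubgroup_eq S
    (MonoidHom.ker M.ρ ⊓ MonoidHom.ker (cycloChar p)) (F₀ ⊔ F₁)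
    (fun s hs => ⟨MonoidHom.mem_ker.mpr
        (h0 s (IntermediateField.fixingSubgroup_antitone le_sup_left hs)),
      MonoidHom.mem_ker.mpr (h1 s ((IntermediateField.mem_fixingSubgroup_iff _ _).mp
        (IntermediateField.fixingSubgroup_antitone le_sup_right hs)))⟩)
    (fun q hq A hA g hg => by
      have hqp : (q : ℕ) ≠ p := by
        intro h
        apply hq
        have e : q = pPrime p := Subtype.ext h
        rw [e]
        exact hpS
      exact ⟨MonoidHom.mem_ker.mpr (hMur q hq A hA g hg), MonoidHom.mem_ker.mpr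
        (Fermat.Agent.S29.H81.cycloChar_of_mem_inertia q.2 hqp A hA hg)⟩)
  have hM : ∀ s ∈ L.fixingSubgroup, M.ρ s = 1 := fun s hs => by
    rw [hfix] at hs
    exact MonoidHom.mem_ker.mp hs.1
  have hχ : ∀ s ∈ L.fixingSubgroup, cycloChar p s = 1 := fun s hs => by
    rw [hfix] at hs
    exact MonoidHom.mem_ker.mp hs.2
  refine ⟨L, hL, ?_, hM, hχ, fun s hs => dualTwist_ρ_eq_one M (hM s hs) (hχ s hs)⟩
  rw [hfix]
  haveI : (MonoidHom.ker M.ρ).Normal := MonoidHom.normal_ker _
  haveI : (MonoidHom.ker (cycloChar p)).Normal := MonoidHom.normal_ker _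
  exact Subgroup.normal_inf_normal _ _

end Modules

end Fermat.Agent.S55.H43
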