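import Mathlib
import Fermat.Prelude.Def_GroupCohomology_ContinuousUnramified

/-!
# S55 (Program C), package C0: facts about the frozen Prelude objects

Model-independent facts on the objects of `Def_GroupCohomology_ContinuousUnramified`:

* `cocycles₁_le_coboundaries₁_of_isUnit_card`, `exists_d₁₂_eq_of_isUnit_card`: for a finite group
  whose order is invertible in the coefficient ring, 1-cocycles and 2-cocycles are coboundaries;
* `H1_archimedean_eq_zero`, `subsingleton_continuousH2_archimedean`: for `p` odd the archimedean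
  local group (of order `≤ 2`) has no `H¹` and no continuous `H²`;
* `mem_sha₁_iff`, `continuousH2Sπ_mem_sha₂_iff`: membership in the two Tate–Shafarevich groups in
  terms of cochains;
* `mem_sha₁_iff_of_ne_two`, `continuousH2Sπ_mem_sha₂_iff_of_ne_two`: the same for `p` odd, with
  local conditions at the finite places `q ∈ S` only.
-/

set_option autoImplicit false

open CategoryTheory Module groupCohomology ExtCitation

namespace Fermat.Agent.S55.H43

/-! ### Finite groups of invertible order -/

section Finite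

universe u

variable {k G : Type u} [CommRing k] [Group G] [Fintype G] (A : Rep k G)

/-- For a finite group of invertible order every 1-cocycle is a coboundary. -/
theorem cocycles₁_le_coboundaries₁_of_isUnit_card (h : IsUnit (Fintype.card G : k)) :
    cocycles₁ A ≤ coboundaries₁ A := by
  intro c hc
  rw [mem_cocycles₁_iff] at hc
  obtain ⟨u, hu⟩ := h
  refine ⟨-((↑u⁻¹ : k) • ∑ h : G, c h), ?_⟩
  funext g
  rw [d₀₁_hom_apply]
  have h1 : ∑ h : G, A.ρ g (c h) = ∑ h : G, c h - (Fintype.card G : k) • c g := by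
    have h2 : ∑ h : G, c (g * h) = ∑ h : G, c h :=
      Fintype.sum_equiv (Equiv.mulLeft g) _ _ (fun _ => rfl)
    have h3 : ∑ h : G, c (g * h) = ∑ h : G, A.ρ g (c h) + (Fintype.card G : k) • c g := by
      rw [Finset.sum_congr rfl fun h _ => hc g h, Finset.sum_add_distrib, Finset.sum_const,
        Finset.card_univ, Nat.cast_smul_eq_nsmul]
    rw [← h2, h3, add_sub_cancel_right]
  rw [map_neg, map_smul, map_sum, h1, smul_sub, ← hu, smul_smul, Units.inv_mul, one_smul]
  abel

/-- For a finite group of invertible order every 2-cocycle is the coboundary of an explicit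
1-cochain. -/
theorem exists_d₁₂_eq_of_isUnit_card (h : IsUnit (Fintype.card G : k)) {f : G × G → A}
    (hf : f ∈ cocycles₂ A) : ∃ y : G → A, (d₁₂ A).hom y = f := by
  rw [mem_cocycles₂_iff] at hf
  obtain ⟨u, hu⟩ := h
  refine ⟨fun g => (↑u⁻¹ : k) • ∑ j : G, f (g, j), ?_⟩
  funext ⟨g, h⟩
  rw [d₁₂_hom_apply]
  have h1 : ∑ j : G, f (g * h, j) + (Fintype.card G : k) • f (g, h) =
      A.ρ g (∑ j : G, f (h, j)) + ∑ j : G, f (g, j) := by
    have h2 : ∑ j : G, f (g, h * j) = ∑ j : G, f (g, j) :=
      Fintype.sum_equiv (Equiv.mulLeft h) _ _ (fun _ => rfl)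
    rw [map_sum, ← h2, ← Finset.sum_add_distrib, ← Finset.sum_congr rfl fun j _ => hf g h j,
      Finset.sum_add_distrib, Finset.sum_const, Finset.card_univ, Nat.cast_smul_eq_nsmul]
  have h3 : (Fintype.card G : k) • f (g, h) =
      A.ρ g (∑ j : G, f (h, j)) - ∑ j : G, f (g * h, j) + ∑ j : G, f (g, j) := by
    calc (Fintype.card G : k) • f (g, h)
        = (∑ j : G, f (g * h, j) + (Fintype.card G : k) • f (g, h)) - ∑ j : G, f (g * h, j) := by
          abel
      _ = (A.ρ g (∑ j : G, f (h, j)) + ∑ j : G, f (g, j)) - ∑ j : G, f (g * h, j) := by rw [h1]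
      _ = A.ρ g (∑ j : G, f (h, j)) - ∑ j : G, f (g * h, j) + ∑ j : G, f (g, j) := by abel
  show A.ρ g ((↑u⁻¹ : k) • ∑ j : G, f (h, j)) - (↑u⁻¹ : k) • ∑ j : G, f (g * h, j) +
    (↑u⁻¹ : k) • ∑ j : G, f (g, j) = f (g, h)
  rw [map_smul, ← smul_sub, ← smul_add, ← h3, ← hu, smul_smul, Units.inv_mul, one_smul]

end Finite

/-! ### The archimedean place -/

section Archimedean

/-- The archimedean local group has at most two elements. -/
theorem archimedean_eq_one_or (s : archimedeanDecomposition) : s = 1 ∨ s = archimedeanGen := by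
  obtain ⟨s, hs⟩ := s
  obtain ⟨n, rfl⟩ := Subgroup.mem_zpowers_iff.mp hs
  rcases Int.even_or_odd n with ⟨m, rfl⟩ | ⟨m, rfl⟩
  · left
    apply Subtype.ext
    show complexConjugation ^ (m + m) = 1
    rw [← two_mul, zpow_mul, zpow_two, complexConjugation_mul_self, one_zpow]
  · right
    apply Subtype.ext
    show complexConjugation ^ (2 * m + 1) = complexConjugation
    rw [zpow_add, zpow_mul, zpow_two, complexConjugation_mul_self, one_zpow, one_mul, zpow_one]

instance finite_archimedeanDecomposition : Finite archimedeanDecomposition := by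
  refine Finite.of_surjective (fun b : Bool => if b then archimedeanGen else 1) fun s => ?_
  rcases archimedean_eq_one_or s with rfl | rfl
  · exact ⟨false, rfl⟩
  · exact ⟨true, rfl⟩

theorem card_archimedeanDecomposition_le [Fintype archimedeanDecomposition] :
    Fintype.card archimedeanDecomposition ≤ 2 := by
  have h : Function.Surjective (fun b : Bool => if b then archimedeanGen else 1) := fun s => by
    rcases archimedean_eq_one_or s with rfl | rfl
    · exact ⟨false, rfl⟩
    · exact ⟨true, rfl⟩
  simpa using Fintype.card_le_of_surjective _ h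

/-- For `p` odd, the order of the archimedean local group is invertible in `ZMod p`. -/
theorem isUnit_card_archimedeanDecomposition {p : ℕ} [Fact p.Prime] (hp2 : p ≠ 2)
    [Fintype archimedeanDecomposition] :
    IsUnit (Fintype.card archimedeanDecomposition : ZMod p) := by
  have h1 := card_archimedeanDecomposition_le
  have h0 : 0 < Fintype.card archimedeanDecomposition := Fintype.card_pos
  rw [ZMod.isUnit_iff_coprime]
  have hp : p.Prime := Fact.out
  interval_cases Fintype.card archimedeanDecomposition
  · exact Nat.coprime_one_left p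
  · exact (Nat.coprime_primes Nat.prime_two hp).mpr (Ne.symm hp2)

/-- A finite level which separates the archimedean local group. -/
theorem exists_level_archimedean :
    ∃ F : IntermediateField ℚ (AlgebraicClosure ℚ), FiniteDimensional ℚ F ∧
      ∀ s : archimedeanDecomposition, archimedeanLoc s ∈ F.fixingSubgroup → s = 1 := by
  by_cases h : complexConjugation = 1
  · refine ⟨⊥, inferInstance, fun s _ => ?_⟩
    rcases archimedean_eq_one_or s with rfl | rfl
    · rfl
    · exact Subtype.ext h
  · obtain ⟨x, hx⟩ : ∃ x : AlgebraicClosure ℚ, complexConjugation x ≠ x := by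
      by_contra hcon
      push Not at hcon
      exact h (AlgEquiv.ext hcon)
    refine ⟨IntermediateField.adjoin ℚ {x},
      IntermediateField.adjoin.finiteDimensional
        ((AlgebraicClosure.isAlgebraic ℚ).isAlgebraic x).isIntegral,
      fun s hs => ?_⟩
    rcases archimedean_eq_one_or s with rfl | rfl
    · rfl
    · exfalso
      rw [IntermediateField.mem_fixingSubgroup_iff] at hs
      exact hx (hs x (IntermediateField.mem_adjoin_simple_self ℚ x))

/-- Every function on the archimedean local group is level-constant. -/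
theorem isLevelConstant₁_archimedean {X : Type*} (y : archimedeanDecomposition → X) :
    IsLevelConstant₁ archimedeanLoc y := by
  obtain ⟨F, hF, h⟩ := exists_level_archimedean
  exact ⟨F, hF, fun g s hs => by rw [h s hs, mul_one]⟩

/-- Every function on two copies of the archimedean local group is level-constant. -/
theorem isLevelConstant₂_archimedean {X : Type*}
    (f : archimedeanDecomposition × archimedeanDecomposition → X) :
    IsLevelConstant₂ archimedeanLoc f := by
  obtain ⟨F, hF, h⟩ := exists_level_archimedean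
  exact ⟨F, hF, fun g g' s s' hs hs' => by rw [h s hs, h s' hs', mul_one, mul_one]⟩

variable {p : ℕ} [Fact p.Prime]

/-- For `p` odd, the `H¹` of the archimedean local group vanishes. -/
theorem H1_archimedean_eq_zero (hp2 : p ≠ 2)
    (A : Rep (ZMod p) (AlgebraicClosure ℚ ≃ₐ[ℚ] AlgebraicClosure ℚ))
    (x : H1 (Rep.res archimedeanLoc A)) : x = 0 := by
  classical
  haveI : Fintype archimedeanDecomposition := Fintype.ofFinite _
  induction x using H1_induction_on with
  | h c =>
    rw [H1π_eq_zero_iff]
    exact cocycles₁_le_coboundaries₁_of_isUnit_card _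
      (isUnit_card_archimedeanDecomposition hp2) c.2

/-- For `p` odd, the continuous `H²` of the archimedean local group vanishes. -/
theorem continuousH2_archimedean_eq_zero (hp2 : p ≠ 2)
    (A : Rep (ZMod p) (AlgebraicClosure ℚ ≃ₐ[ℚ] AlgebraicClosure ℚ))
    (a : continuousH2 archimedeanLoc (Rep.res archimedeanLoc A)) : a = 0 := by
  classical
  haveI : Fintype archimedeanDecomposition := Fintype.ofFinite _
  obtain ⟨f, rfl⟩ := Submodule.mkQ_surjective _ a
  show continuousH2π archimedeanLoc (Rep.res archimedeanLoc A) f = 0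
  rw [continuousH2π_eq_zero_iff]
  obtain ⟨y, hy⟩ := exists_d₁₂_eq_of_isUnit_card (Rep.res archimedeanLoc A)
    (isUnit_card_archimedeanDecomposition hp2) f.2.1
  exact (mem_levelCoboundaries₂_iff _ _ _).2 ⟨y, isLevelConstant₁_archimedean y, hy⟩

theorem subsingleton_continuousH2_archimedean (hp2 : p ≠ 2)
    (A : Rep (ZMod p) (AlgebraicClosure ℚ ≃ₐ[ℚ] AlgebraicClosure ℚ)) :
    Subsingleton (continuousH2 archimedeanLoc (Rep.res archimedeanLoc A)) :=
  ⟨fun a b => by
    rw [continuousH2_archimedean_eq_zero hp2 A a, continuousH2_archimedean_eq_zero hp2 A b]⟩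

end Archimedean

/-! ### The Tate–Shafarevich groups in terms of cochains -/

section Sha

variable (S : Finset Nat.Primes)

/-- The localisation of the class of a 1-cocycle vanishes iff the restricted cocycle is a
coboundary. -/
theorem locRes_H1π_eq_zero_iff {k : Type} [Field k]
    (A : Rep k (AlgebraicClosure ℚ ≃ₐ[ℚ] AlgebraicClosure ℚ)) (c : cocycles₁ A)
    (v : extArithIndex S) :
    (locRes (extArithLoc S) A v).hom (H1π A c) = 0 ↔
      ∃ m : A, ∀ g : extArithLocalGroups S v,
        c (extArithLoc S v g) = A.ρ (extArithLoc S v g) m - m := by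
  have e : (locRes (extArithLoc S) A v).hom (H1π A c) =
      H1π (Rep.res (extArithLoc S v) A)
        (mapCocycles₁ (extArithLoc S v) (𝟙 (Rep.res (extArithLoc S v) A)) c) :=
    H1π_comp_map_apply (extArithLoc S v) (𝟙 (Rep.res (extArithLoc S v) A)) c
  rw [e, H1π_eq_zero_iff]
  constructor
  · rintro ⟨m, hm⟩
    exact ⟨m, fun g => (congrFun hm g).symm⟩
  · rintro ⟨m, hm⟩
    exact ⟨m, funext fun g => (hm g).symm⟩

/-- **`sha₁` in terms of cocycles**: a class lies in `sha₁ S A` iff it is represented by a
level-constant cocycle (unramified outside `S`) whose restriction to every local group is a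
coboundary. -/
theorem mem_sha₁_iff {k : Type} [Field k]
    (A : Rep k (AlgebraicClosure ℚ ≃ₐ[ℚ] AlgebraicClosure ℚ)) (x : H1 A) :
    x ∈ sha₁ S A ↔ ∃ c : cocycles₁ A, IsLevelConstantS₁ S c ∧ (H1π A).hom c = x ∧
      ∀ v : extArithIndex S, ∃ m : A, ∀ g : extArithLocalGroups S v,
        c (extArithLoc S v g) = A.ρ (extArithLoc S v g) m - m := by
  rw [sha₁, Submodule.mem_inf, mem_continuousH1S_iff, LinearMap.mem_ker]
  constructor
  · rintro ⟨⟨c, hc, rfl⟩, h0⟩
    refine ⟨c, hc, rfl, fun v => ?_⟩
    exact (locRes_H1π_eq_zero_iff S A c v).1 (congrFun h0 v)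
  · rintro ⟨c, hc, rfl, h⟩
    refine ⟨⟨c, hc, rfl⟩, funext fun v => ?_⟩
    exact (locRes_H1π_eq_zero_iff S A c v).2 (h v)

/-- **`sha₂` in terms of cocycles**: the class of a level-constant 2-cocycle lies in `sha₂ S M`
iff its restriction to every local group is the coboundary of a level-constant 1-cochain. -/
theorem continuousH2Sπ_mem_sha₂_iff {k : Type} [CommRing k]
    (M : Rep k (AlgebraicClosure ℚ ≃ₐ[ℚ] AlgebraicClosure ℚ)) (f : ↥(levelCocyclesS₂ S M)) :
    continuousH2Sπ S M f ∈ sha₂ S M ↔
      ∀ v : extArithIndex S, ∃ y : extArithLocalGroups S v → M,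
        IsLevelConstant₁ (extArithLoc S v) y ∧
        ∀ g h : extArithLocalGroups S v,
          M.ρ (extArithLoc S v g) (y h) - y (g * h) + y g =
            (f : _ × _ → M) (extArithLoc S v g, extArithLoc S v h) := by
  rw [sha₂, LinearMap.mem_ker]
  constructor
  · intro h0 v
    have hv : locRes₂S S M (extArithLoc S v) (continuousH2Sπ S M f) = 0 := congrFun h0 v
    have hv' := (continuousH2π_eq_zero_iff (extArithLoc S v) (Rep.res (extArithLoc S v) M) _).1 hv
    obtain ⟨y, hy, hd⟩ := (mem_levelCoboundaries₂_iff _ _ _).1 hv'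
    exact ⟨y, hy, fun g h => congrFun hd (g, h)⟩
  · intro h
    funext v
    obtain ⟨y, hy, hd⟩ := h v
    show locRes₂S S M (extArithLoc S v) (continuousH2Sπ S M f) = 0
    refine (continuousH2π_eq_zero_iff (extArithLoc S v) (Rep.res (extArithLoc S v) M) _).2 ?_
    exact (mem_levelCoboundaries₂_iff _ _ _).2 ⟨y, hy, funext fun ⟨g, h⟩ => hd g h⟩

/-! ### The case `p` odd: only the finite places matter -/

variable {p : ℕ} [Fact p.Prime]

/-- For `p` odd the localisation at the archimedean place of any `H¹`-class vanishes. -/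
theorem locRes_inl_eq_zero (hp2 : p ≠ 2)
    (A : Rep (ZMod p) (AlgebraicClosure ℚ ≃ₐ[ℚ] AlgebraicClosure ℚ)) (u : Unit) (x : H1 A) :
    (locRes (extArithLoc S) A (Sum.inl u)).hom x = 0 :=
  H1_archimedean_eq_zero hp2 A _

/-- For `p` odd the localisation at the archimedean place of any continuous `H²`-class
vanishes. -/
theorem locRes₂S_inl_eq_zero (hp2 : p ≠ 2)
    (M : Rep (ZMod p) (AlgebraicClosure ℚ ≃ₐ[ℚ] AlgebraicClosure ℚ)) (u : Unit)
    (x : continuousH2S S M) :
    locRes₂S S M (extArithLoc S (Sum.inl u)) x = 0 :=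
  continuousH2_archimedean_eq_zero hp2 M _

/-- **`sha₁` for `p` odd**: a class lies in `sha₁ S A` iff it is represented by a level-constant
cocycle (unramified outside `S`) whose restriction to the local Galois group at every `q ∈ S` is
a coboundary. -/
theorem mem_sha₁_iff_of_ne_two (hp2 : p ≠ 2)
    (A : Rep (ZMod p) (AlgebraicClosure ℚ ≃ₐ[ℚ] AlgebraicClosure ℚ)) (x : H1 A) :
    x ∈ sha₁ S A ↔ ∃ c : cocycles₁ A, IsLevelConstantS₁ S c ∧ (H1π A).hom c = x ∧
      ∀ q : ↥S, ∃ m : A, ∀ g : primeLocalGaloisGroup q.1,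
        c (primeLocalToGlobal q.1 g) = A.ρ (primeLocalToGlobal q.1 g) m - m := by
  rw [mem_sha₁_iff]
  constructor
  · rintro ⟨c, hc, hx, h⟩
    exact ⟨c, hc, hx, fun q => h (Sum.inr q)⟩
  · rintro ⟨c, hc, hx, h⟩
    refine ⟨c, hc, hx, fun v => ?_⟩
    rcases v with u | q
    · exact (locRes_H1π_eq_zero_iff S A c (Sum.inl u)).1 (locRes_inl_eq_zero S hp2 A u _)
    · exact h q

/-- **`sha₂` for `p` odd**: the class of a level-constant 2-cocycle lies in `sha₂ S M` iff its
restriction to the local Galois group at every `q ∈ S` is the coboundary of a level-constant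
1-cochain. -/
theorem continuousH2Sπ_mem_sha₂_iff_of_ne_two (hp2 : p ≠ 2)
    (M : Rep (ZMod p) (AlgebraicClosure ℚ ≃ₐ[ℚ] AlgebraicClosure ℚ))
    (f : ↥(levelCocyclesS₂ S M)) :
    continuousH2Sπ S M f ∈ sha₂ S M ↔
      ∀ q : ↥S, ∃ y : primeLocalGaloisGroup q.1 → M,
        IsLevelConstant₁ (primeLocalToGlobal q.1) y ∧
        ∀ g h : primeLocalGaloisGroup q.1,
          M.ρ (primeLocalToGlobal q.1 g) (y h) - y (g * h) + y g =
            (f : _ × _ → M) (primeLocalToGlobal q.1 g, primeLocalToGlobal q.1 h) := by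
  rw [continuousH2Sπ_mem_sha₂_iff]
  constructor
  · intro h q
    exact h (Sum.inr q)
  · intro h v
    rcases v with u | q
    · have h0 : continuousH2Sπ S M f ∈ sha₂ S M := by
        rw [sha₂, LinearMap.mem_ker]
        funext v
        rcases v with u | q
        · exact locRes₂S_inl_eq_zero S hp2 M u (continuousH2Sπ S M f)
        · obtain ⟨y, hy, hd⟩ := h q
          show locRes₂S S M (extArithLoc S (Sum.inr q)) (continuousH2Sπ S M f) = 0
          refine (continuousH2π_eq_zero_iff (extArithLoc S (Sum.inr q))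
            (Rep.res (extArithLoc S (Sum.inr q)) M) _).2 ?_
          exact (mem_levelCoboundaries₂_iff _ _ _).2 ⟨y, hy, funext fun ⟨g, h⟩ => hd g h⟩
      exact (continuousH2Sπ_mem_sha₂_iff S M f).1 h0 (Sum.inl u)
    · exact h q

/-- For `p` odd, a class of `continuousH2S` lies in `sha₂` iff its localisations at the finite
places `q ∈ S` vanish. -/
theorem mem_sha₂_iff_of_ne_two (hp2 : p ≠ 2)
    (M : Rep (ZMod p) (AlgebraicClosure ℚ ≃ₐ[ℚ] AlgebraicClosure ℚ)) (x : continuousH2S S M) :
    x ∈ sha₂ S M ↔ ∀ q : ↥S, locRes₂S S M (primeLocalToGlobal q.1) x = 0 := by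
  rw [sha₂, LinearMap.mem_ker]
  constructor
  · intro h q
    exact congrFun h (Sum.inr q)
  · intro h
    funext v
    rcases v with u | q
    · exact locRes₂S_inl_eq_zero S hp2 M u x
    · exact h q

/-- For `p` odd, a class of `H¹` lies in `sha₁` iff it is unramified outside `S` and its
localisations at the finite places `q ∈ S` vanish. -/
theorem mem_sha₁_iff_locRes_of_ne_two (hp2 : p ≠ 2)
    (A : Rep (ZMod p) (AlgebraicClosure ℚ ≃ₐ[ℚ] AlgebraicClosure ℚ)) (x : H1 A) :
    x ∈ sha₁ S A ↔ x ∈ continuousH1S S A ∧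
      ∀ q : ↥S, (locRes (extArithLoc S) A (Sum.inr q)).hom x = 0 := by
  rw [sha₁, Submodule.mem_inf, LinearMap.mem_ker]
  constructor
  · rintro ⟨h1, h2⟩
    exact ⟨h1, fun q => congrFun h2 (Sum.inr q)⟩
  · rintro ⟨h1, h2⟩
    refine ⟨h1, funext fun v => ?_⟩
    rcases v with u | q
    · exact locRes_inl_eq_zero S hp2 A u x
    · exact h2 q

end Sha

end Fermat.Agent.S55.H43
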