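import Fermat.Agent.S55.H49.C0Spec
import Fermat.Agent.S55.H43.PreludeFacts
import Fermat.Agent.S55.H43.Levels

/-!
# S55 / C0: the leaves L1, L2, L5, L8 of `H49/C0Spec.lean`

* `smoothOfHyp : H49.SmoothOfHypStatement` (L1);
* `smoothDual : H49.SmoothDualStatement` (L2);
* `archH2All : H49.ArchH2All` (L5);
* `archH1All : H49.ArchH1All` (L8);
* `hasNormalLevels_globalDatum`, `hasNormalLevels_localDatum`: normal levels for the two level
  data of the Prelude.
-/

set_option autoImplicit false

open CategoryTheory Module groupCohomology ExtCitation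

namespace Fermat.Agent.S55.H43

open Fermat.Agent.S55.H49

local notation "Qbar" => AlgebraicClosure ℚ

/-! ### The archimedean place, general coefficients -/

section Archimedean

variable {k : Type} [CommRing k]

/-- If `2` is invertible in `k`, so is the order of the archimedean local group. -/
theorem isUnit_card_archimedeanDecomposition_of_isUnit_two (h2 : IsUnit (2 : k))
    [Fintype archimedeanDecomposition] :
    IsUnit (Fintype.card archimedeanDecomposition : k) := by
  have h1 := card_archimedeanDecomposition_le
  have h0 : 0 < Fintype.card archimedeanDecomposition := Fintype.card_pos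
  interval_cases Fintype.card archimedeanDecomposition
  · rw [Nat.cast_one]
    exact isUnit_one
  · rw [Nat.cast_ofNat]
    exact h2

/-- If `2` is invertible, the `H¹` of the archimedean local group vanishes. -/
theorem H1_archimedean_eq_zero_of_isUnit_two (h2 : IsUnit (2 : k)) (A : Rep.{0} k GQ)
    (x : H1 (Rep.res archimedeanLoc A)) : x = 0 := by
  classical
  haveI : Fintype archimedeanDecomposition := Fintype.ofFinite _
  induction x using H1_induction_on with
  | h c =>
    rw [H1π_eq_zero_iff]
    exact cocycles₁_le_coboundaries₁_of_isUnit_card _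
      (isUnit_card_archimedeanDecomposition_of_isUnit_two h2) c.2

/-- If `2` is invertible, the continuous `H²` of the archimedean local group vanishes. -/
theorem continuousH2_archimedean_eq_zero_of_isUnit_two (h2 : IsUnit (2 : k)) (A : Rep.{0} k GQ)
    (a : continuousH2 archimedeanLoc (Rep.res archimedeanLoc A)) : a = 0 := by
  classical
  haveI : Fintype archimedeanDecomposition := Fintype.ofFinite _
  obtain ⟨f, rfl⟩ := Submodule.mkQ_surjective _ a
  show continuousH2π archimedeanLoc (Rep.res archimedeanLoc A) f = 0
  rw [continuousH2π_eq_zero_iff]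
  obtain ⟨y, hy⟩ := exists_d₁₂_eq_of_isUnit_card (Rep.res archimedeanLoc A)
    (isUnit_card_archimedeanDecomposition_of_isUnit_two h2) f.2.1
  exact (mem_levelCoboundaries₂_iff _ _ _).2 ⟨y, isLevelConstant₁_archimedean y, hy⟩

/-- **L5** of `C0Spec`. -/
theorem archH2All : ArchH2All := fun _ _ M h2 =>
  ⟨fun a b => by
    rw [continuousH2_archimedean_eq_zero_of_isUnit_two h2 M a,
      continuousH2_archimedean_eq_zero_of_isUnit_two h2 M b]⟩

/-- **L8** of `C0Spec`. -/
theorem archH1All : ArchH1All := fun K _ A h2 =>
  ⟨fun a b => by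
    rw [H1_archimedean_eq_zero_of_isUnit_two (isUnit_iff_ne_zero.mpr h2) A a,
      H1_archimedean_eq_zero_of_isUnit_two (isUnit_iff_ne_zero.mpr h2) A b]⟩

end Archimedean

/-! ### Normal levels -/

/-- The global level datum has normal levels. -/
theorem hasNormalLevels_globalDatum (S : Finset Nat.Primes) :
    (globalDatum S).HasNormalLevels := fun _ hF => by
  obtain ⟨F', h1, h2, h3, -⟩ := exists_normal_level hF
  exact ⟨F', h1, h2, h3⟩

/-- Every local level datum has normal levels. -/
theorem hasNormalLevels_localDatum {H : Type} [Group H] (f : H →* GQ) :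
    (localDatum f).HasNormalLevels := fun F hF => by
  haveI : FiniteDimensional ℚ F := hF
  obtain ⟨F', h1, h2, h3, -⟩ := exists_normal_finiteDimensional F
  exact ⟨F', h1, h2, h3⟩

/-! ### Smoothness -/

/-- **L1** of `C0Spec`: the module of the frozen S55 is smooth for the global level datum. -/
theorem smoothOfHyp : SmoothOfHypStatement := fun p _ S M _ hsm hMur => by
  obtain ⟨L, hL, hN, hfix⟩ := exists_level_trivial S M hsm hMur
  refine ⟨L, hL, hN, fun s hs m => ?_⟩
  rw [(hfix s).mp hs]
  rfl

variable {p : ℕ} [Fact p.Prime]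

/-- The kernel field of the mod `p` cyclotomic character is a Galois level unramified outside
`S ∋ p`. -/
theorem exists_level_cycloChar (S : Finset Nat.Primes) (hpS : pPrime p ∈ S) :
    ∃ L : IntermediateField ℚ Qbar, L.IsUnramifiedOutside S ∧ (L.fixingSubgroup).Normal ∧
      ∀ s : GQ, s ∈ L.fixingSubgroup ↔ cycloChar p s = 1 := by
  obtain ⟨F₁, hF₁, h1⟩ := Fermat.Agent.S29.H81.cycloChar_finiteLevel p
  haveI := hF₁
  obtain ⟨L, hL, hfix, -⟩ := exists_level_fixingSubgroup_eq S (MonoidHom.ker (cycloChar p)) F₁
    (fun s hs => MonoidHom.mem_ker.mpr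
      (h1 s ((IntermediateField.mem_fixingSubgroup_iff _ _).mp hs)))
    (fun q hq A hA g hg => by
      have hqp : (q : ℕ) ≠ p := by
        intro h
        apply hq
        have e : q = pPrime p := Subtype.ext h
        rw [e]
        exact hpS
      exact MonoidHom.mem_ker.mpr
        (Fermat.Agent.S29.H81.cycloChar_of_mem_inertia q.2 hqp A hA hg))
  refine ⟨L, hL, ?_, fun s => ?_⟩
  · rw [hfix]
    exact MonoidHom.normal_ker _
  · rw [hfix, MonoidHom.mem_ker]

/-- **L2** of `C0Spec`: the Tate dual of a smooth module is smooth (`p ∈ S`). -/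
theorem smoothDual : SmoothDualStatement := fun p _ S hpS M hM => by
  obtain ⟨F, hF, hN, hFM⟩ := hM
  obtain ⟨L, hL, hLN, hLχ⟩ := exists_level_cycloChar (p := p) S hpS
  haveI := hN
  haveI := hLN
  refine ⟨F ⊔ L, IntermediateField.IsUnramifiedOutside.sup hF hL, ?_, fun s hs m => ?_⟩
  · rw [IntermediateField.fixingSubgroup_sup]
    exact Subgroup.normal_inf_normal _ _
  · have hs' : s ∈ (F ⊔ L).fixingSubgroup := hs
    have hsF : s ∈ F.fixingSubgroup := IntermediateField.fixingSubgroup_antitone le_sup_left hs'
    have hsL : s ∈ L.fixingSubgroup := IntermediateField.fixingSubgroup_antitone le_sup_right hs'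
    have h1 : M.ρ s = 1 := LinearMap.ext fun x => hFM s hsF x
    rw [dualTwist_ρ_eq_one M h1 ((hLχ s).mp hsL)]
    rfl

end Fermat.Agent.S55.H43
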