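import Fermat.Agent.S55.H43.RGlue

/-!
# S55 (Program C, Route R): the local criterion for the concrete package, formal part

For the concrete package `rPackage S pairing` the leaf `RPackage.LocalCriterion`

  `x ∈ sha₂ S M ↔ ∀ f ∈ loc0 S (D p M), pairing M x f = 0`      (`M` admissible)

is reduced to two statements about the Prelude objects:

* **(C)** `pairing M x (loc0Mk m) = ε * ∑_q inv_q ((m_q)_* loc_q x)`  (`ε ≠ 0`; formula (C) of C2);
* **(L)** `y ∈ H²(G_q, M)` with `inv_q (m_* y) = 0` for all `m ∈ H⁰(G_q, M')` is zero (local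
  injectivity, C4),

where `H0loc S N q = H⁰(G_q, N)`, `loc0Mk : ⊕_q H⁰(G_q, N) → H¹_c(N)` is `m ↦ [(0, m)]` (its range
is `loc0`), and `evH2 S M q m = m_* : H²(G_q, M) → H²(G_q, μ_p)` is the push-forward along the
`G_q`-equivariant functional `m`.  The archimedean places do not occur (`p ≠ 2`).
-/

set_option autoImplicit false

open CategoryTheory Module groupCohomology ExtCitation

noncomputable section

namespace Fermat.Agent.S55.H43

open Fermat.Agent.S55.H70 Fermat.Agent.S55.H12 Fermat.Agent.S55.H87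

variable {p : ℕ} [Fact p.Prime] (S : Finset Nat.Primes)

/-- The Tate twist `μ_p = 𝔽_p(χ_cyc)` as a `G_ℚ`-module. -/
abbrev muRep (p : ℕ) [Fact p.Prime] : Rep.{0, 0, 0} (ZMod p) GQ :=
  (Rep.trivial (ZMod p) GQ (ZMod p)).twist (cycloChar p)

section H0

variable (N : Rep.{0, 0, 0} (ZMod p) GQ)

/-- `H⁰(G_q, N)`: the vectors fixed by the local Galois group at `q`. -/
def H0loc (q : ↥S) : Submodule (ZMod p) N where
  carrier := {m | ∀ g : primeLocalGaloisGroup q.1, N.ρ (primeLocalToGlobal q.1 g) m = m}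
  add_mem' := by
    intro a b ha hb g
    rw [map_add, ha g, hb g]
  zero_mem' := fun g => map_zero _
  smul_mem' := by
    intro c a ha g
    rw [map_smul, ha g]

theorem mem_H0loc_iff (q : ↥S) (m : N) :
    m ∈ H0loc S N q ↔ ∀ g : primeLocalGaloisGroup q.1, N.ρ (primeLocalToGlobal q.1 g) m = m :=
  Iff.rfl

/-- `m ↦ (0, m)` as a compactly supported cocycle. -/
def loc0Z : (∀ q : ↥S, H0loc S N q) →ₗ[ZMod p] Z1c S N where
  toFun m := ⟨(0, fun q => (m q : N)), (cocycles₁ N).zero_mem, isLevelConstantS₁_const S (0 : N),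
    fun q g => by
      show (0 : N) = N.ρ _ (m q : N) - (m q : N)
      rw [(m q).2 g, sub_self]⟩
  map_add' _ _ := Subtype.ext (Prod.ext (add_zero _).symm rfl)
  map_smul' _ _ := Subtype.ext (Prod.ext (smul_zero _).symm rfl)

theorem loc0Z_coe (m : ∀ q : ↥S, H0loc S N q) :
    ((loc0Z S N m : Z1c S N) : (GQ → N) × (↥S → N)) = (0, fun q => (m q : N)) := rfl

/-- `⊕_q H⁰(G_q, N) → H¹_c(N)`, `m ↦ [(0, m)]`. -/
def loc0Mk : (∀ q : ↥S, H0loc S N q) →ₗ[ZMod p] Hc1 S N :=
  Hc1π S N ∘ₗ loc0Z S N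

theorem loc0Mk_apply (m : ∀ q : ↥S, H0loc S N q) :
    loc0Mk S N m = Hc1π S N (loc0Z S N m) := rfl

theorem loc0Mk_mem (m : ∀ q : ↥S, H0loc S N q) : loc0Mk S N m ∈ loc0 S N :=
  (mem_loc0_iff S N _).2 ⟨loc0Z S N m, rfl, rfl⟩

/-- `loc0` is exactly the image of `⊕_q H⁰(G_q, N)`. -/
theorem mem_loc0_iff_exists (x : Hc1 S N) :
    x ∈ loc0 S N ↔ ∃ m : ∀ q : ↥S, H0loc S N q, loc0Mk S N m = x := by
  constructor
  · intro hx
    obtain ⟨z, hz, rfl⟩ := (mem_loc0_iff S N x).1 hx
    have h3 := z.2.2.2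
    refine ⟨fun q => ⟨(z : (GQ → N) × (↥S → N)).2 q, fun g => ?_⟩, ?_⟩
    · have h := h3 q g
      rw [hz] at h
      exact (sub_eq_zero.mp h.symm)
    · rw [loc0Mk_apply]
      congr 1
      exact Subtype.ext (Prod.ext hz.symm rfl)
  · rintro ⟨m, rfl⟩
    exact loc0Mk_mem S N m

theorem range_loc0Mk : LinearMap.range (loc0Mk S N) = loc0 S N := by
  ext x
  rw [LinearMap.mem_range, mem_loc0_iff_exists]

end H0

section Ev

variable (M : Rep.{0, 0, 0} (ZMod p) GQ)

/-- A `G_q`-invariant element of `M' = Hom(M, μ_p)` is a `G_q`-equivariant functional. -/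
theorem H0loc_equivariant (q : ↥S) (m : H0loc S (D p M) q) (g : primeLocalGaloisGroup q.1)
    (a : M) :
    ((m : D p M) : Module.Dual (ZMod p) M) (M.ρ (primeLocalToGlobal q.1 g) a) =
      (cycloChar p (primeLocalToGlobal q.1 g) : ZMod p) *
        ((m : D p M) : Module.Dual (ZMod p) M) a := by
  have h := m.2 g
  have h' := congrArg (fun φ : D p M => (φ : Module.Dual (ZMod p) M)
    (M.ρ (primeLocalToGlobal q.1 g) a)) h
  simp only at h'
  rw [← h']
  show (cycloChar p (primeLocalToGlobal q.1 g) : ZMod p) •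
    ((m : D p M) : Module.Dual (ZMod p) M)
      (M.ρ (primeLocalToGlobal q.1 g)⁻¹ (M.ρ (primeLocalToGlobal q.1 g) a)) = _
  rw [smul_eq_mul]
  congr 2
  rw [← Module.End.mul_apply, ← map_mul, inv_mul_cancel, map_one, Module.End.one_apply]

/-- The functional `m`, as a linear map between the restricted modules. -/
def evLin (q : ↥S) (m : D p M) :
    ↥(Rep.res (primeLocalToGlobal q.1) M) →ₗ[ZMod p]
      ↥(Rep.res (primeLocalToGlobal q.1) (muRep p)) :=
  (m : Module.Dual (ZMod p) M)

theorem evLin_comm (q : ↥S) (m : H0loc S (D p M) q) (g : primeLocalGaloisGroup q.1)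
    (a : ↥(Rep.res (primeLocalToGlobal q.1) M)) :
    evLin S M q (m : D p M)
        ((Rep.res (primeLocalToGlobal q.1) M).ρ ((MonoidHom.id _) g) a) =
      (Rep.res (primeLocalToGlobal q.1) (muRep p)).ρ g (evLin S M q (m : D p M) a) := by
  have h := H0loc_equivariant S M q m g a
  show ((m : D p M) : Module.Dual (ZMod p) M) (M.ρ (primeLocalToGlobal q.1 g) a) =
    (cycloChar p (primeLocalToGlobal q.1 g) : ZMod p) •
      (((m : D p M) : Module.Dual (ZMod p) M) a)
  rw [h, smul_eq_mul]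

/-- `m_* : H²(G_q, M) → H²(G_q, μ_p)` for `m ∈ H⁰(G_q, M')`. -/
def evH2 (q : ↥S) (m : H0loc S (D p M) q) :
    continuousH2 (primeLocalToGlobal q.1) (Rep.res (primeLocalToGlobal q.1) M) →ₗ[ZMod p]
      continuousH2 (primeLocalToGlobal q.1) (Rep.res (primeLocalToGlobal q.1) (muRep p)) :=
  continuousH2Map (MonoidHom.id _) (fun _ => rfl) (evLin S M q (m : D p M))
    (evLin_comm S M q m)

/-- `evH2` on classes: the class of any level cocycle with values `m (c (g, h))`. -/
theorem evH2_π (q : ↥S) (m : H0loc S (D p M) q)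
    (c : ↥(levelCocycles₂ (primeLocalToGlobal q.1) (Rep.res (primeLocalToGlobal q.1) M)))
    (c' : ↥(levelCocycles₂ (primeLocalToGlobal q.1)
      (Rep.res (primeLocalToGlobal q.1) (muRep p))))
    (hc' : ∀ g h : primeLocalGaloisGroup q.1,
      (c' : _ × _ → ↥(Rep.res (primeLocalToGlobal q.1) (muRep p))) (g, h) =
        ((m : D p M) : Module.Dual (ZMod p) M)
          ((c : _ × _ → ↥(Rep.res (primeLocalToGlobal q.1) M)) (g, h))) :
    evH2 S M q m (continuousH2π _ _ c) = continuousH2π _ _ c' := by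
  show continuousH2π _ _ _ = _
  congr 1
  apply Subtype.ext
  funext gh
  obtain ⟨g, h⟩ := gh
  exact (hc' g h).symm

/-- `evH2 ∘ loc_q` on classes of global level cocycles. -/
theorem evH2_locRes₂S_π (q : ↥S) (m : H0loc S (D p M) q) (c : ↥(levelCocyclesS₂ S M))
    (c' : ↥(levelCocycles₂ (primeLocalToGlobal q.1)
      (Rep.res (primeLocalToGlobal q.1) (muRep p))))
    (hc' : ∀ g h : primeLocalGaloisGroup q.1,
      (c' : _ × _ → ↥(Rep.res (primeLocalToGlobal q.1) (muRep p))) (g, h) =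
        ((m : D p M) : Module.Dual (ZMod p) M)
          ((c : GQ × GQ → M) (primeLocalToGlobal q.1 g, primeLocalToGlobal q.1 h))) :
    evH2 S M q m (locRes₂S S M (primeLocalToGlobal q.1) (continuousH2Sπ S M c)) =
      continuousH2π _ _ c' := by
  show continuousH2π _ _ _ = _
  congr 1
  apply Subtype.ext
  funext gh
  obtain ⟨g, h⟩ := gh
  exact (hc' g h).symm

theorem evH2_zero_left (q : ↥S)
    (y : continuousH2 (primeLocalToGlobal q.1) (Rep.res (primeLocalToGlobal q.1) M)) :
    evH2 S M q 0 y = 0 := by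
  obtain ⟨c, rfl⟩ := Submodule.mkQ_surjective _ y
  show continuousH2π _ _ _ = 0
  have : (levelCocycles₂Map (MonoidHom.id _) (fun _ => rfl)
      (evLin S M q ((0 : H0loc S (D p M) q) : D p M))
      (evLin_comm S M q 0) c) = 0 := by
    apply Subtype.ext
    funext gh
    rfl
  rw [this, map_zero]

end Ev

/-! ### The local criterion -/

section LC

variable (pairing : ∀ M : Rep.{0, 0, 0} (ZMod p) GQ,
    continuousH2S S M →ₗ[ZMod p] Hc1 S (D p M) →ₗ[ZMod p] ZMod p)
variable (inv : ∀ q : ↥S,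
    continuousH2 (primeLocalToGlobal q.1) (Rep.res (primeLocalToGlobal q.1) (muRep p))
      →ₗ[ZMod p] ZMod p)

/-- **(C)** Formula for the pairing on `loc0`, up to a nonzero constant `ε` (a sign). -/
def FormulaC (ε : ZMod p) : Prop :=
  ∀ M : Rep.{0, 0, 0} (ZMod p) GQ, IsAdm p S M → ∀ (x : continuousH2S S M)
    (m : ∀ q : ↥S, H0loc S (D p M) q),
    pairing M x (loc0Mk S (D p M) m) =
      ε * ∑ q : ↥S, inv q (evH2 S M q (m q) (locRes₂S S M (primeLocalToGlobal q.1) x))

/-- **(L)** Local injectivity `H²(G_q, M) ↪ H⁰(G_q, M')^∨` at the finite places of `S`, on the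
Prelude's local `H²`. -/
def LocalInjP : Prop :=
  ∀ M : Rep.{0, 0, 0} (ZMod p) GQ, IsAdm p S M → ∀ (q : ↥S)
    (y : continuousH2 (primeLocalToGlobal q.1) (Rep.res (primeLocalToGlobal q.1) M)),
    (∀ m : H0loc S (D p M) q, inv q (evH2 S M q m y) = 0) → y = 0

/-- **The local criterion (LC)** for the concrete package, from (C) and (L). -/
theorem rPackage_localCriterion (hp2 : p ≠ 2) (ε : ZMod p) (hε : ε ≠ 0)
    (hC : FormulaC S pairing inv ε) (hL : LocalInjP S inv) :
    (rPackage S pairing).LocalCriterion := by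
  classical
  intro M hM x
  rw [mem_sha₂_iff_of_ne_two S hp2]
  constructor
  · intro h f hf
    obtain ⟨m, rfl⟩ := (mem_loc0_iff_exists S (D p M) f).1 hf
    show pairing M x (loc0Mk S (D p M) m) = 0
    rw [hC M hM x m]
    have : ∀ q : ↥S,
        inv q (evH2 S M q (m q) (locRes₂S S M (primeLocalToGlobal q.1) x)) = 0 := by
      intro q
      rw [h q, map_zero, map_zero]
    rw [Finset.sum_eq_zero (fun q _ => this q), mul_zero]
  · intro h q
    refine hL M hM q _ fun m => ?_
    have h1 := h (loc0Mk S (D p M) (Pi.single q m)) (loc0Mk_mem S (D p M) _)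
    have h2 : pairing M x (loc0Mk S (D p M) (Pi.single q m)) = 0 := h1
    rw [hC M hM x (Pi.single q m)] at h2
    have h3 := (mul_eq_zero.mp h2).resolve_left hε
    rw [Finset.sum_eq_single q] at h3
    · rwa [Pi.single_eq_same] at h3
    · intro q' _ hq'
      rw [Pi.single_eq_of_ne hq', evH2_zero_left, map_zero]
    · intro hq
      exact absurd (Finset.mem_univ q) hq

end LC

end Fermat.Agent.S55.H43
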