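import Fermat.Agent.S55.H43.Levels

/-!
# S55 (Program C): the level field of an admissible module

`levelFieldStatement` is the unfolded form of `Fermat.Agent.S55.H12.LevelFieldStatement p S`
(package C10): every module satisfying the hypotheses of the frozen S55 is trivial on the
absolute Galois group of a field `L` which is finite Galois over `ℚ`, unramified outside `S` and
contains the `p`-th roots of unity.
-/

set_option autoImplicit false

open CategoryTheory Module groupCohomology ExtCitation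

namespace Fermat.Agent.S55.H43

local instance isAlgebraicQbar_h43' : Algebra.IsAlgebraic ℚ (AlgebraicClosure ℚ) :=
  AlgebraicClosure.isAlgebraic ℚ
local instance isAlgClosureQbar_h43' : IsAlgClosure ℚ (AlgebraicClosure ℚ) :=
  ⟨inferInstance, inferInstance⟩
local instance isGaloisQbar_h43' : IsGalois ℚ (AlgebraicClosure ℚ) :=
  IsAlgClosure.isGalois ℚ (AlgebraicClosure ℚ)

local notation "Qbar" => AlgebraicClosure ℚ
local notation "Γ" => (AlgebraicClosure ℚ ≃ₐ[ℚ] AlgebraicClosure ℚ)

variable {p : ℕ} [Fact p.Prime]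

/-- An automorphism with trivial mod `p` cyclotomic character fixes the `p`-th roots of unity. -/
theorem apply_eq_self_of_cycloChar_eq_one {s : Γ} (hs : cycloChar p s = 1) {ζ : Qbar}
    (hζ : ζ ^ p = 1) : s ζ = ζ := by
  have h := Fermat.Agent.S29.H81.apply_eq_pow_cycloChar (p := p) s hζ
  haveI : Fact (1 < p) := ⟨(Fact.out : p.Prime).one_lt⟩
  rw [hs, Units.val_one, ZMod.val_one, pow_one] at h
  exact h

/-- A level whose fixing subgroup has trivial cyclotomic character contains the `p`-th roots of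
unity. -/
theorem mem_of_pow_eq_one_of_cycloChar {L : IntermediateField ℚ Qbar}
    (hχ : ∀ s ∈ L.fixingSubgroup, cycloChar p s = 1) {ζ : Qbar} (hζ : ζ ^ p = 1) : ζ ∈ L := by
  have h : ζ ∈ IntermediateField.fixedField L.fixingSubgroup := by
    rw [IntermediateField.mem_fixedField_iff]
    intro s hs
    exact apply_eq_self_of_cycloChar_eq_one (hχ s hs) hζ
  rwa [InfiniteGalois.fixedField_fixingSubgroup] at h

/-- **The level field of an admissible module**: a field `L`, finite Galois over `ℚ`, unramified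
outside `S`, containing the `p`-th roots of unity, such that the absolute Galois group of `L`
acts trivially on `M` and on `M.dualTwist (cycloChar p)` and has trivial cyclotomic
character. -/
theorem exists_levelField (S : Finset Nat.Primes) (hpS : pPrime p ∈ S)
    (M : Rep.{0, 0, 0} (ZMod p) Γ) [FiniteDimensional (ZMod p) M]
    (hsm : ∀ m : M, ∃ F : IntermediateField ℚ Qbar, FiniteDimensional ℚ F ∧
      ∀ s ∈ F.fixingSubgroup, M.ρ s m = m)
    (hMur : ∀ q : Nat.Primes, q ∉ S → ∀ A : ValuationSubring Qbar,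
      A.LiesOverPrime (q : ℕ) → ∀ g ∈ A.inertiaSubgroupIn ℚ, M.ρ g = 1) :
    ∃ L : IntermediateField ℚ Qbar,
      (L.IsUnramifiedOutside S ∧ IsGalois ℚ L ∧ ∀ ζ : Qbar, ζ ^ p = 1 → ζ ∈ L) ∧
      (∀ s ∈ L.fixingSubgroup, ∀ m : M, M.ρ s m = m) ∧
      (∀ s ∈ L.fixingSubgroup, cycloChar p s = 1) ∧
      ∀ s ∈ L.fixingSubgroup, (M.dualTwist (cycloChar p)).ρ s = 1 := by
  obtain ⟨L, hL, hN, hM, hχ, hD⟩ := exists_level_trivial_both S hpS M hsm hMur
  refine ⟨L, ⟨hL, (InfiniteGalois.normal_iff_isGalois L).mp hN,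
    fun ζ hζ => mem_of_pow_eq_one_of_cycloChar hχ hζ⟩, fun s hs m => ?_, hχ, hD⟩
  rw [hM s hs]
  rfl

/-- **`LevelFieldStatement p S`** (package C10), unfolded. -/
theorem levelFieldStatement (S : Finset Nat.Primes) (hpS : pPrime p ∈ S) :
    ∀ M : Rep.{0, 0, 0} (ZMod p) Γ,
      (FiniteDimensional (ZMod p) M ∧
        (∀ m : M, ∃ F : IntermediateField ℚ Qbar, FiniteDimensional ℚ F ∧
          ∀ s ∈ F.fixingSubgroup, M.ρ s m = m) ∧
        (∀ q : Nat.Primes, q ∉ S → ∀ A : ValuationSubring Qbar,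
          A.LiesOverPrime (q : ℕ) → ∀ g ∈ A.inertiaSubgroupIn ℚ, M.ρ g = 1)) →
      ∃ L : IntermediateField ℚ Qbar,
        (L.IsUnramifiedOutside S ∧ IsGalois ℚ L ∧ ∀ ζ : Qbar, ζ ^ p = 1 → ζ ∈ L) ∧
        ∀ s ∈ L.fixingSubgroup, ∀ m : M, M.ρ s m = m := by
  rintro M ⟨hfd, hsm, hMur⟩
  haveI := hfd
  obtain ⟨L, h1, h2, -⟩ := exists_levelField S hpS M hsm hMur
  exact ⟨L, h1, h2⟩

end Fermat.Agent.S55.H43
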