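import Fermat.Agent.S55.H43.InvHlc
import Fermat.Agent.S55.H88.LayerDefs

/-!
# S55 (Program C, Route R): (C-inv) in the consumer shape of `FieldFormBridge`

* `inv_evH2_epsO_hlc`: `inv_q ((ε_{q,O})_* (loc_q [c])) = inv₀ ((m_O)_* [loc_q z])` — the Prelude
  side (`inv q ∘ evH2 ∘ locRes₂S`) against the level-constant side (`inv₀ ∘ hlcMap ∘ lcRes`),
  without any reference to the field form;
* `invHlc_holds p S`: the statement `H54.InvHlcStatement p S` of helper54's bridge, unfolded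
  verbatim (`m := epsHom …` for the orbit of `g₀ G_L`, `inv₀ :=` the level-constant invariant of
  the family at `q`).
-/

set_option autoImplicit false

open CategoryTheory Module groupCohomology ExtCitation

noncomputable section

namespace Fermat.Agent.S55.H43

open Fermat.Agent.S55.H70 Fermat.Agent.S55.H12 Fermat.Agent.S55.H87 Fermat.Agent.S55.H62

attribute [local instance] Fermat.Agent.S55.H88.factOfPrimes

variable {p : ℕ} [Fact p.Prime] (S : Finset Nat.Primes)

local notation "Qbar" => AlgebraicClosure ℚ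

/-- `inv_q ((ε_{q,O})_* (loc_q [c])) = inv₀ ((m_O)_* [loc_q z])` for every level-constant cocycle
`z` of `G_ℚ` with the values of the level cocycle `c`. -/
theorem inv_evH2_epsO_hlc (inv : LocalInv p S) (L : IntermediateField ℚ Qbar)
    (hχ : ∀ s ∈ L.fixingSubgroup, cycloChar p s = 1) (q : ↥S) (O : Orb S L q)
    (inv₀ : H49.Hlc (H26.Dloc (q.1 : ℕ)) (H26.mu (H26.chiLoc p (q.1 : ℕ))) 2 →ₗ[ZMod p] ZMod p)
    (hπ : ∀ (c : levelCocycles₂ (primeLocalToGlobal q.1) (chiLoc p S q))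
        (z : H49.cyc (H49.lcComplex (H26.Dloc (q.1 : ℕ)) (H26.mu (H26.chiLoc p (q.1 : ℕ)))) 2),
        (∀ g : Fin 2 → primeLocalGaloisGroup q.1, H49.lcVal z g = c.1 (g 0, g 1)) →
          inv q (continuousH2π (primeLocalToGlobal q.1) (chiLoc p S q) c) =
            inv₀ ((H49.cls (H49.lcComplex (H26.Dloc (q.1 : ℕ))
              (H26.mu (H26.chiLoc p (q.1 : ℕ)))) 2).hom z))
    (c : ↥(levelCocyclesS₂ S (baseRep p L)))
    (z : H49.cyc (H49.lcComplex (H49.globalDatum S) (H26.permRep (ZMod p) L.fixingSubgroup)) 2)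
    (hz : ∀ g : Fin 2 → GQ, H49.lcVal z g = (c : GQ × GQ → baseRep p L) (g 0, g 1)) :
    inv q (evH2 S (baseRep p L) q (epsO' S L hχ q O)
        (locRes₂S S (baseRep p L) (primeLocalToGlobal q.1) (continuousH2Sπ S (baseRep p L) c))) =
      inv₀ (H26.hlcMap (H26.Dloc (q.1 : ℕ)) (epsHom S L hχ q O) 2
        ((H49.cls _ 2).hom (H49.cycMap (H49.lcRes
          (H49.locHom S (localGaloisToGlobal (q.1 : ℕ)))
          (H26.permRep (ZMod p) L.fixingSubgroup)) 2 z))) := by
  set m : H0loc S (D p (baseRep p L)) q := epsO' S L hχ q O with hm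
  let c' : ↥(levelCocycles₂ (primeLocalToGlobal q.1)
      (Rep.res (primeLocalToGlobal q.1) (muRep p))) :=
    levelCocycles₂Map (MonoidHom.id _) (fun _ => rfl) (evLin S (baseRep p L) q (m : D p _))
      (evLin_comm S (baseRep p L) q m)
      (levelCocycles₂Map (rH := MonoidHom.id _) (rG := primeLocalToGlobal q.1)
        (primeLocalToGlobal q.1) (fun _ => rfl)
        (LinearMap.id : baseRep p L →ₗ[ZMod p] Rep.res (primeLocalToGlobal q.1) (baseRep p L))
        (fun _ _ => rfl) (levelCocyclesS₂ToLevelCocycles₂ S (baseRep p L) c))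
  have hc' : ∀ g h : primeLocalGaloisGroup q.1,
      (c' : _ × _ → ↥(Rep.res (primeLocalToGlobal q.1) (muRep p))) (g, h) =
        ((m : D p (baseRep p L)) : Module.Dual (ZMod p) (baseRep p L))
          ((c : GQ × GQ → baseRep p L) (primeLocalToGlobal q.1 g, primeLocalToGlobal q.1 h)) :=
    fun g h => rfl
  rw [evH2_locRes₂S_π S (baseRep p L) q m c c' hc']
  have hcls : H26.hlcMap (H26.Dloc (q.1 : ℕ)) (epsHom S L hχ q O) 2
        ((H49.cls _ 2).hom (H49.cycMap (H49.lcRes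
          (H49.locHom S (localGaloisToGlobal (q.1 : ℕ)))
          (H26.permRep (ZMod p) L.fixingSubgroup)) 2 z)) =
      (H49.cls _ 2).hom (H49.cycMap (H49.lcMapCoeff (H26.Dloc (q.1 : ℕ))
        (epsHom S L hχ q O)) 2
        (H49.cycMap (H49.lcRes (H49.locHom S (localGaloisToGlobal (q.1 : ℕ)))
          (H26.permRep (ZMod p) L.fixingSubgroup)) 2 z)) :=
    H49.homologyMap_cls _ 2 _
  rw [hcls]
  refine hπ c' _ fun g => ?_
  rw [hc' (g 0) (g 1)]
  have h2 := hz (fun i => primeLocalToGlobal q.1 (g i))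
  rw [← h2]
  rfl

/-- `ε_{q,O} (δ_{g₀ G_L}) = χ(g₀)` for the orbit `O` of `g₀ G_L`. -/
theorem epsHom_single_self (L : IntermediateField ℚ Qbar)
    (hχ : ∀ s ∈ L.fixingSubgroup, cycloChar p s = 1) (q : ↥S) (g₀ : GQ) :
    (epsHom S L hχ q (orbMk q (g₀ : GQ ⧸ L.fixingSubgroup))).hom
      (MonoidAlgebra.single (g₀ : GQ ⧸ L.fixingSubgroup) (1 : ZMod p)) =
        ((cycloChar p g₀ : (ZMod p)ˣ) : ZMod p) := by
  classical
  rw [epsHom_single, if_pos rfl, chiBar_mk hχ]

/-- **(C-inv), consumer shape** (`H54.InvHlcStatement p S`, unfolded). -/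
theorem invHlc_holds (p : ℕ) [Fact p.Prime] (S : Finset Nat.Primes) :
    ∀ (ζ₀ : Qbar) (inv : LocalInv p S), H26.IsLocalInvFamily p S ζ₀ inv →
      ∀ (L : IntermediateField ℚ Qbar) (hL : IsLevelField p S L) (q : ↥S) (g₀ : GQ)
        (c : ↥(levelCocyclesS₂ S (baseRep p L)))
        (z : H49.cyc (H49.lcComplex (H49.globalDatum S) (baseRep p L)) 2),
        (∀ γ : Fin 2 → GQ, H49.lcVal z γ = (c : GQ × GQ → baseRep p L) (γ 0, γ 1)) →
        ∃ (inv₀ : H49.Hlc (H26.Dloc (q.1 : ℕ)) (H26.mu (H26.chiLoc p (q.1 : ℕ))) 2 →ₗ[ZMod p]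
            ZMod p)
          (m : Rep.res (localGaloisToGlobal (q.1 : ℕ))
            (H26.permRep (ZMod p) L.fixingSubgroup) ⟶ H26.mu (H26.chiLoc p (q.1 : ℕ))),
          H26.IsLocalInv p (q.1 : ℕ) (padicEmbedding (q.1 : ℕ) ζ₀) inv₀ ∧
          (m.hom (MonoidAlgebra.single ((g₀ : GQ) : GQ ⧸ L.fixingSubgroup) 1) : ZMod p) =
            ((cycloChar p g₀ : (ZMod p)ˣ) : ZMod p) ∧
          (∀ x : GQ, (∀ h : H26.GalQ (q.1 : ℕ), (x : GQ ⧸ L.fixingSubgroup) ≠
              ((localGaloisToGlobal (q.1 : ℕ) h * g₀ : GQ) : GQ ⧸ L.fixingSubgroup)) →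
            (m.hom (MonoidAlgebra.single (x : GQ ⧸ L.fixingSubgroup) 1) : ZMod p) = 0) ∧
          inv q (evH2 S (baseRep p L) q
              (epsO' S L (cycloChar_eq_one_of_isLevelField hL) q
                (orbMk q (g₀ : GQ ⧸ L.fixingSubgroup)))
              (locRes₂S S (baseRep p L) (primeLocalToGlobal q.1)
                (continuousH2Sπ S (baseRep p L) c))) =
            inv₀ (H26.hlcMap (H26.Dloc (q.1 : ℕ)) m 2
              ((H49.cls _ 2).hom (H49.cycMap (H49.lcRes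
                (H49.locHom S (localGaloisToGlobal (q.1 : ℕ)))
                (H26.permRep (ZMod p) L.fixingSubgroup)) 2 z))) := by
  intro ζ₀ inv hfam L hL q g₀ c z hz
  obtain ⟨inv₀, hinv₀, hπ⟩ := exists_lcInv_of_family hfam q
  have hχ := cycloChar_eq_one_of_isLevelField hL
  exact ⟨inv₀, epsHom S L hχ q (orbMk q (g₀ : GQ ⧸ L.fixingSubgroup)), hinv₀,
    epsHom_single_self S L hχ q g₀, fun x hx => epsHom_single_of_ne S L hχ q g₀ x hx,
    inv_evH2_epsO_hlc S inv L hχ q _ inv₀ hπ c z hz⟩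

end Fermat.Agent.S55.H43
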