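import Fermat.Agent.S55.H43.FieldFormMod
import Fermat.Agent.S55.H81.IsoOrb

/-!
# S55 (Program C, Route R): the orbits of the local groups on `G_ℚ / G_L` and the places of `L`

* `orbLift`, `orbEquiv`: a map on `G_ℚ / G_L` which is constant on the orbits of the local group
  at `q`, separates them and has image `{y | P y}` induces a bijection `Orb S L q ≃ {y // P y}`;
  `orbSigmaEquiv` is the `Σ q : ↥S`-version (the index type `VL` of `fieldFormMod`);
* `orbPlacesEquiv`: the instance for helper81's `H81.cosetPrime` — the orbits are the primes of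
  `𝓞 L` above `q` — given the surjectivity of `cosetPrime` onto `placesOver L {q}`;
* `sigmaPlacesEquiv`: `(Σ q : ↥S, primes above q) ≃ primes above S`;
* `vlPlacesEquiv`: the composite `(Σ q : ↥S, Orb S L q) ≃ {w // w ∈ placesOver L S}`.
-/

set_option autoImplicit false

open CategoryTheory Module groupCohomology ExtCitation NumberField IsDedekindDomain

noncomputable section

namespace Fermat.Agent.S55.H43

open Fermat.Agent.S55.H70 Fermat.Agent.S55.H12 Fermat.Agent.S55.H87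

variable {S : Finset Nat.Primes}

local notation "Qbar" => AlgebraicClosure ℚ

section Generic

variable {L : IntermediateField ℚ Qbar}

/-- The map induced on the orbits by a function which is constant on them. -/
def orbLift {Y : Type*} (q : ↥S) (f : GQ ⧸ L.fixingSubgroup → Y)
    (hinv : ∀ (g : primeLocalGaloisGroup q.1) (x : GQ ⧸ L.fixingSubgroup),
      f (primeLocalToGlobal q.1 g • x) = f x) : Orb S L q → Y :=
  Quotient.lift (s := MulAction.orbitRel (primeLocalToGlobal q.1).range (GQ ⧸ L.fixingSubgroup))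
    f (by
      intro a b hab
      obtain ⟨⟨_, g, rfl⟩, hg⟩ := MulAction.mem_orbit_iff.1 (MulAction.orbitRel_apply.1 hab)
      rw [← hg]
      exact hinv g b)

theorem orbLift_mk {Y : Type*} (q : ↥S) (f : GQ ⧸ L.fixingSubgroup → Y)
    (hinv : ∀ (g : primeLocalGaloisGroup q.1) (x : GQ ⧸ L.fixingSubgroup),
      f (primeLocalToGlobal q.1 g • x) = f x) (x : GQ ⧸ L.fixingSubgroup) :
    orbLift q f hinv (orbMk q x) = f x := rfl

/-- A map on `G_ℚ / G_L` which is constant on the orbits of the local group at `q`, separates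
them, and has image `{y | P y}` identifies the orbits with `{y // P y}`. -/
def orbEquiv {Y : Type*} (q : ↥S) (P : Y → Prop) (f : GQ ⧸ L.fixingSubgroup → Y)
    (hinv : ∀ (g : primeLocalGaloisGroup q.1) (x : GQ ⧸ L.fixingSubgroup),
      f (primeLocalToGlobal q.1 g • x) = f x)
    (hP : ∀ x, P (f x))
    (hinj : ∀ x y, f x = f y → ∃ g : primeLocalGaloisGroup q.1, primeLocalToGlobal q.1 g • x = y)
    (hsurj : ∀ y, P y → ∃ x, f x = y) : Orb S L q ≃ {y // P y} :=
  Equiv.ofBijective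
    (fun O => ⟨orbLift q f hinv O, by
      obtain ⟨x, rfl⟩ := orbMk_surjective q O
      exact hP x⟩)
    ⟨by
      intro O₁ O₂ h
      obtain ⟨x, rfl⟩ := orbMk_surjective q O₁
      obtain ⟨y, rfl⟩ := orbMk_surjective q O₂
      have h1 : f x = f y := congrArg Subtype.val h
      obtain ⟨g, hg⟩ := hinj x y h1
      exact ((orbMk_eq_iff q y x).2 ⟨g, hg⟩).symm,
    by
      rintro ⟨y, hy⟩
      obtain ⟨x, rfl⟩ := hsurj y hy
      exact ⟨orbMk q x, rfl⟩⟩

theorem orbEquiv_mk {Y : Type*} (q : ↥S) (P : Y → Prop) (f : GQ ⧸ L.fixingSubgroup → Y)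
    (hinv : ∀ (g : primeLocalGaloisGroup q.1) (x : GQ ⧸ L.fixingSubgroup),
      f (primeLocalToGlobal q.1 g • x) = f x)
    (hP : ∀ x, P (f x))
    (hinj : ∀ x y, f x = f y → ∃ g : primeLocalGaloisGroup q.1, primeLocalToGlobal q.1 g • x = y)
    (hsurj : ∀ y, P y → ∃ x, f x = y) (x : GQ ⧸ L.fixingSubgroup) :
    ((orbEquiv q P f hinv hP hinj hsurj (orbMk q x) : {y // P y}) : Y) = f x := rfl

/-- The `Σ q : ↥S`-version of `orbEquiv`. -/
def orbSigmaEquiv {Y : ↥S → Type*} (P : ∀ q : ↥S, Y q → Prop)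
    (f : ∀ q : ↥S, GQ ⧸ L.fixingSubgroup → Y q)
    (hinv : ∀ (q : ↥S) (g : primeLocalGaloisGroup q.1) (x : GQ ⧸ L.fixingSubgroup),
      f q (primeLocalToGlobal q.1 g • x) = f q x)
    (hP : ∀ q x, P q (f q x))
    (hinj : ∀ (q : ↥S) x y, f q x = f q y →
      ∃ g : primeLocalGaloisGroup q.1, primeLocalToGlobal q.1 g • x = y)
    (hsurj : ∀ (q : ↥S) y, P q y → ∃ x, f q x = y) :
    (Σ q : ↥S, Orb S L q) ≃ Σ q : ↥S, {y // P q y} :=
  Equiv.sigmaCongrRight fun q => orbEquiv q (P q) (f q) (hinv q) (hP q) (hinj q) (hsurj q)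

end Generic

/-! ### The places of `L` -/

section Places

variable (S) (L : IntermediateField ℚ Qbar) [NumberField ↥L]

theorem cosetPrime_smul (q : Nat.Primes) (g : primeLocalGaloisGroup q)
    (x : GQ ⧸ L.fixingSubgroup) :
    Fermat.Agent.S55.H81.cosetPrime q L (primeLocalToGlobal q g • x) =
      Fermat.Agent.S55.H81.cosetPrime q L x := by
  induction x using QuotientGroup.induction_on with
  | H γ => exact Fermat.Agent.S55.H81.orbPrime_local q L g γ

theorem cosetPrime_inj (q : Nat.Primes) (x y : GQ ⧸ L.fixingSubgroup)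
    (h : Fermat.Agent.S55.H81.cosetPrime q L x = Fermat.Agent.S55.H81.cosetPrime q L y) :
    ∃ g : primeLocalGaloisGroup q, primeLocalToGlobal q g • x = y := by
  induction x using QuotientGroup.induction_on with
  | H γ₁ =>
    induction y using QuotientGroup.induction_on with
    | H γ₂ =>
      obtain ⟨g, s, hs, e⟩ := Fermat.Agent.S55.H81.exists_local_of_orbPrime_eq q L h
      refine ⟨g, ?_⟩
      show ((primeLocalToGlobal q g * γ₁ : GQ) : GQ ⧸ L.fixingSubgroup) = (γ₂ : GQ ⧸ L.fixingSubgroup)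
      rw [e, QuotientGroup.eq]
      have e2 : (primeLocalToGlobal q g * γ₁)⁻¹ * (primeLocalToGlobal q g * γ₁ * s) = s := by group
      rw [e2]
      exact hs

/-- **The orbits of the local group at `q` on `G_ℚ / G_L` are the primes of `𝓞 L` above `q`**
(given that every such prime comes from an embedding `L → ℚ̄_q`). -/
def orbPlacesEquiv
    (hsurj : ∀ q : ↥S, ∀ w ∈ placesOver ↥L {q.1},
      ∃ x, Fermat.Agent.S55.H81.cosetPrime q.1 L x = w) :
    (Σ q : ↥S, Orb S L q) ≃ Σ q : ↥S, {w // w ∈ placesOver ↥L {q.1}} :=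
  orbSigmaEquiv (fun q w => w ∈ placesOver ↥L {q.1})
    (fun q => Fermat.Agent.S55.H81.cosetPrime q.1 L)
    (fun q g x => cosetPrime_smul L q.1 g x)
    (fun q x => Fermat.Agent.S55.H81.cosetPrime_mem q.1 L x)
    (fun q x y h => cosetPrime_inj L q.1 x y h)
    (fun q w hw => hsurj q w hw)

theorem orbPlacesEquiv_mk
    (hsurj : ∀ q : ↥S, ∀ w ∈ placesOver ↥L {q.1},
      ∃ x, Fermat.Agent.S55.H81.cosetPrime q.1 L x = w)
    (q : ↥S) (x : GQ ⧸ L.fixingSubgroup) :
    orbPlacesEquiv S L hsurj ⟨q, orbMk q x⟩ =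
      ⟨q, ⟨Fermat.Agent.S55.H81.cosetPrime q.1 L x,
        Fermat.Agent.S55.H81.cosetPrime_mem q.1 L x⟩⟩ := rfl

/-- A prime of `𝓞 L` lies above at most one rational prime. -/
theorem prime_unique_of_mem {q q' : Nat.Primes} (w : HeightOneSpectrum (𝓞 ↥L))
    (h : (((q : ℕ) : ℤ) : 𝓞 ↥L) ∈ w.asIdeal) (h' : (((q' : ℕ) : ℤ) : 𝓞 ↥L) ∈ w.asIdeal) :
    q = q' := by
  by_contra hne
  have hcop : IsCoprime ((q : ℕ) : ℤ) ((q' : ℕ) : ℤ) := by
    rw [Int.isCoprime_iff_gcd_eq_one, Int.gcd_natCast_natCast]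
    exact (Nat.coprime_primes q.2 q'.2).2 fun e => hne (Subtype.ext e)
  obtain ⟨a, b, hab⟩ := hcop
  have h1 : ((1 : ℤ) : 𝓞 ↥L) ∈ w.asIdeal := by
    rw [← hab]
    push_cast
    exact w.asIdeal.add_mem (w.asIdeal.mul_mem_left _ h) (w.asIdeal.mul_mem_left _ h')
  rw [Int.cast_one] at h1
  exact w.isPrime.ne_top ((Ideal.eq_top_iff_one _).2 h1)

/-- `(Σ q : ↥S, primes above q) ≃ primes above S`. -/
def sigmaPlacesEquiv :
    (Σ q : ↥S, {w // w ∈ placesOver ↥L {q.1}}) ≃ {w // w ∈ placesOver ↥L S} where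
  toFun x := ⟨x.2.1, by
    obtain ⟨q', hq', h⟩ := (mem_placesOver ↥L {x.1.1} x.2.1).1 x.2.2
    rw [Finset.mem_singleton] at hq'
    subst hq'
    exact (mem_placesOver ↥L S x.2.1).2 ⟨x.1.1, x.1.2, h⟩⟩
  invFun w :=
    ⟨⟨((mem_placesOver ↥L S w.1).1 w.2).choose,
        ((mem_placesOver ↥L S w.1).1 w.2).choose_spec.1⟩,
      ⟨w.1, (mem_placesOver ↥L _ w.1).2
        ⟨_, Finset.mem_singleton_self _, ((mem_placesOver ↥L S w.1).1 w.2).choose_spec.2⟩⟩⟩
  left_inv := by
    rintro ⟨q, w, hw⟩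
    obtain ⟨q', hq', h⟩ := (mem_placesOver ↥L {q.1} w).1 hw
    rw [Finset.mem_singleton] at hq'
    subst hq'
    have hmem : w ∈ placesOver ↥L S := (mem_placesOver ↥L S w).2 ⟨q.1, q.2, h⟩
    have e : ((mem_placesOver ↥L S w).1 hmem).choose = q.1 :=
      prime_unique_of_mem L w ((mem_placesOver ↥L S w).1 hmem).choose_spec.2 h
    have e' : (⟨((mem_placesOver ↥L S w).1 hmem).choose,
        ((mem_placesOver ↥L S w).1 hmem).choose_spec.1⟩ : ↥S) = q := Subtype.ext e
    refine Sigma.ext e' ?_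
    simp only
    rw [Subtype.heq_iff_coe_eq]
    intro y
    rw [e]
  right_inv := by
    rintro ⟨w, hw⟩
    rfl

theorem sigmaPlacesEquiv_coe (x : Σ q : ↥S, {w // w ∈ placesOver ↥L {q.1}}) :
    ((sigmaPlacesEquiv S L x : {w // w ∈ placesOver ↥L S}) : HeightOneSpectrum (𝓞 ↥L)) =
      x.2.1 := rfl

/-- **`VL` of the module-form field form is the set of primes of `𝓞 L` above `S`.** -/
def vlPlacesEquiv
    (hsurj : ∀ q : ↥S, ∀ w ∈ placesOver ↥L {q.1},
      ∃ x, Fermat.Agent.S55.H81.cosetPrime q.1 L x = w) :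
    (Σ q : ↥S, Orb S L q) ≃ {w // w ∈ placesOver ↥L S} :=
  (orbPlacesEquiv S L hsurj).trans (sigmaPlacesEquiv S L)

theorem vlPlacesEquiv_mk
    (hsurj : ∀ q : ↥S, ∀ w ∈ placesOver ↥L {q.1},
      ∃ x, Fermat.Agent.S55.H81.cosetPrime q.1 L x = w)
    (q : ↥S) (x : GQ ⧸ L.fixingSubgroup) :
    ((vlPlacesEquiv S L hsurj ⟨q, orbMk q x⟩ : {w // w ∈ placesOver ↥L S}) :
      HeightOneSpectrum (𝓞 ↥L)) = Fermat.Agent.S55.H81.cosetPrime q.1 L x := rfl

end Places

end Fermat.Agent.S55.H43
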