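import Fermat.Agent.S55.H43.FieldFormR

/-!
# S55 (Program C, Route R): unfolding lemmas for the module-form field form `fieldFormR`

All `rfl`-type: the fields `H2L`, `VL`, `sh`, `invL`, `e` of
`fieldFormR S hp2 hpS inv hH3 hREC L hL : H87.FieldForm (rPackage S (H62.rpairing p S inv)) L`.
-/

set_option autoImplicit false

open CategoryTheory Module groupCohomology ExtCitation

noncomputable section

namespace Fermat.Agent.S55.H43

open Fermat.Agent.S55.H70 Fermat.Agent.S55.H12 Fermat.Agent.S55.H87 Fermat.Agent.S55.H62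

variable {p : ℕ} [Fact p.Prime] (S : Finset Nat.Primes)

local notation "Qbar" => AlgebraicClosure ℚ

variable (hp2 : p ≠ 2) (hpS : pPrime p ∈ S) (inv : LocalInv p S)
  (hH3 : H3Statement p S) (hREC : RECStatement p S inv)
  (L : IntermediateField ℚ Qbar) (hL : IsLevelField p S L)

theorem fieldFormR_H2L :
    (fieldFormR S hp2 hpS inv hH3 hREC L hL).H2L = continuousH2S S (baseRep p L) := rfl

theorem fieldFormR_VL :
    (fieldFormR S hp2 hpS inv hH3 hREC L hL).VL = (Σ q : ↥S, Orb S L q) := rfl

theorem fieldFormR_sh (x : continuousH2S S (baseRep p L)) :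
    (fieldFormR S hp2 hpS inv hH3 hREC L hL).sh x = x := rfl

/-- The invariant of `fieldFormR` at the orbit `O` of the local group at `q`:
`- inv_q ((ε_{q,O})_* (loc_q x))`. -/
theorem fieldFormR_invL (w : Σ q : ↥S, Orb S L q) (x : continuousH2S S (baseRep p L)) :
    (fieldFormR S hp2 hpS inv hH3 hREC L hL).invL w x =
      - inv w.1 (evH2 S (baseRep p L) w.1
        (epsO' S L (cycloChar_eq_one_of_isLevelField hL) w.1 w.2)
        (locRes₂S S (baseRep p L) (primeLocalToGlobal w.1.1) x)) := by
  haveI : Finite (GQ ⧸ L.fixingSubgroup) := finite_quotient_level p S L hL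
  show invMod S inv L (cycloChar_eq_one_of_isLevelField hL) (-1) w x = _
  rw [invMod_apply, neg_one_mul]

/-- The same on the class of a level cocycle `c` and any local level cocycle `c'` with values
`ε_{q,O} (c (loc g, loc h))`. -/
theorem fieldFormR_invL_π (w : Σ q : ↥S, Orb S L q) (c : ↥(levelCocyclesS₂ S (baseRep p L)))
    (c' : ↥(levelCocycles₂ (primeLocalToGlobal w.1.1)
      (Rep.res (primeLocalToGlobal w.1.1) (muRep p))))
    (hc' : ∀ g h : primeLocalGaloisGroup w.1.1,
      (c' : _ × _ → ↥(Rep.res (primeLocalToGlobal w.1.1) (muRep p))) (g, h) =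
        (epsO (p := p) S L w.1 w.2 : Module.Dual (ZMod p) (baseRep p L))
          ((c : GQ × GQ → baseRep p L) (primeLocalToGlobal w.1.1 g, primeLocalToGlobal w.1.1 h))) :
    (fieldFormR S hp2 hpS inv hH3 hREC L hL).invL w (continuousH2Sπ S (baseRep p L) c) =
      - inv w.1 (continuousH2π _ _ c') := by
  rw [fieldFormR_invL, evH2_locRes₂S_π S (baseRep p L) w.1 _ c c' hc']

theorem fieldFormR_e (t : (Σ q : ↥S, Orb S L q) → ZMod p) :
    (fieldFormR S hp2 hpS inv hH3 hREC L hL).e t =
      @eMod p _ S L (finite_quotient_level p S L hL) (cycloChar_eq_one_of_isLevelField hL) t :=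
  rfl

end Fermat.Agent.S55.H43
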