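import Fermat.Agent.S55.H43.Levels

/-!
# S55 (Program C, Route R): functoriality and middle exactness of the Prelude's `continuousH2S`

For `f : M ⟶ N` a morphism of representations of the absolute Galois group of `ℚ`:

* `cocS₂Map S f : levelCocyclesS₂ S M →ₗ levelCocyclesS₂ S N`, `c ↦ f ∘ c`;
* `H2SMap S f : continuousH2S S M →ₗ continuousH2S S N`, functorial and additive in `f`;
* `isLevelConstantS₂_d₁₂`: the coboundary of a level-`S`-constant 1-cochain with values in a
  smooth module is level-`S`-constant;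
* `H2SMap_exact`: for a short exact sequence `0 → K → F → M → 0` with smooth middle term the
  sequence `H²(K) → H²(F) → H²(M)` is exact in the middle;
* `locRes₂S_H2SMap`: compatibility with localisation.
-/

set_option autoImplicit false

open CategoryTheory Module groupCohomology ExtCitation

noncomputable section

namespace Fermat.Agent.S55.H43

local notation "Γ" => (AlgebraicClosure ℚ ≃ₐ[ℚ] AlgebraicClosure ℚ)

variable {k : Type} [CommRing k] (S : Finset Nat.Primes)

variable {M N P : Rep.{0, 0, 0} k Γ}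

/-- Composition with a morphism of representations preserves 2-cocycles. -/
theorem comp_mem_cocycles₂ (f : M ⟶ N) {c : Γ × Γ → M} (hc : c ∈ cocycles₂ M) :
    (fun gh => f.hom (c gh)) ∈ cocycles₂ N := by
  rw [mem_cocycles₂_iff] at hc ⊢
  intro g h j
  show f.hom (c (g * h, j)) + f.hom (c (g, h)) = N.ρ g (f.hom (c (h, j))) + f.hom (c (g, h * j))
  rw [← map_add, hc, map_add, Rep.hom_comm_apply]

/-- Composition with a morphism of representations commutes with `d₁₂`. -/
theorem d₁₂_comp (f : M ⟶ N) (x : Γ → M) :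
    (d₁₂ N).hom (fun g => f.hom (x g)) = fun gh => f.hom ((d₁₂ M).hom x gh) := by
  funext ⟨g, h⟩
  rw [d₁₂_hom_apply, d₁₂_hom_apply, map_add, map_sub, Rep.hom_comm_apply]

/-- Functoriality of level-`S`-constant 2-cocycles. -/
def cocS₂Map (f : M ⟶ N) : ↥(levelCocyclesS₂ S M) →ₗ[k] ↥(levelCocyclesS₂ S N) :=
  LinearMap.restrict (f.hom.toLinearMap.compLeft (Γ × Γ))
    (fun _ hc => ⟨comp_mem_cocycles₂ f hc.1, hc.2.comp _⟩)

theorem cocS₂Map_coe (f : M ⟶ N) (c : ↥(levelCocyclesS₂ S M)) :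
    ((cocS₂Map S f c : ↥(levelCocyclesS₂ S N)) : Γ × Γ → N) =
      fun gh => f.hom ((c : Γ × Γ → M) gh) := rfl

/-- Functoriality of the Prelude's `continuousH2S` in the coefficients. -/
def H2SMap (f : M ⟶ N) : continuousH2S S M →ₗ[k] continuousH2S S N :=
  Submodule.mapQ _ _ (cocS₂Map S f) (by
    intro c hc
    rw [Submodule.mem_comap] at hc ⊢
    obtain ⟨x, hx, hd⟩ := (mem_levelCoboundariesS₂_iff S M _).1 hc
    refine (mem_levelCoboundariesS₂_iff S N _).2 ⟨fun g => f.hom (x g), hx.comp _, ?_⟩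
    rw [d₁₂_comp, hd]
    rfl)

theorem H2SMap_π (f : M ⟶ N) (c : ↥(levelCocyclesS₂ S M)) :
    H2SMap S f (continuousH2Sπ S M c) = continuousH2Sπ S N (cocS₂Map S f c) := rfl

theorem H2SMap_id (M : Rep.{0, 0, 0} k Γ) : H2SMap S (𝟙 M) = LinearMap.id := by
  refine LinearMap.ext fun x => ?_
  obtain ⟨c, rfl⟩ := Submodule.mkQ_surjective _ x
  rfl

theorem H2SMap_comp (f : M ⟶ N) (g : N ⟶ P) :
    H2SMap S (f ≫ g) = H2SMap S g ∘ₗ H2SMap S f := by
  refine LinearMap.ext fun x => ?_
  obtain ⟨c, rfl⟩ := Submodule.mkQ_surjective _ x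
  rfl

theorem H2SMap_add (f g : M ⟶ N) : H2SMap S (f + g) = H2SMap S f + H2SMap S g := by
  refine LinearMap.ext fun x => ?_
  obtain ⟨c, rfl⟩ := Submodule.mkQ_surjective _ x
  rfl

theorem H2SMap_zero : H2SMap S (0 : M ⟶ N) = 0 := by
  refine LinearMap.ext fun x => ?_
  obtain ⟨c, rfl⟩ := Submodule.mkQ_surjective _ x
  rfl

theorem H2SMap_smul (a : k) (f : M ⟶ N) : H2SMap S (a • f) = a • H2SMap S f := by
  refine LinearMap.ext fun x => ?_
  obtain ⟨c, rfl⟩ := Submodule.mkQ_surjective _ x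
  rfl

/-- Compatibility of `H2SMap` with localisation. -/
theorem locRes₂S_H2SMap {H : Type} [Group H] (loc : H →* Γ) (f : M ⟶ N)
    (x : continuousH2S S M) :
    locRes₂S S N loc (H2SMap S f x) =
      continuousH2MapHom (r := loc) ((Rep.resFunctor loc).map f) (locRes₂S S M loc x) := by
  obtain ⟨c, rfl⟩ := Submodule.mkQ_surjective _ x
  rfl

/-- The coboundary of a level-`S`-constant 1-cochain with values in a module which is trivial
on the fixing subgroup of a level unramified outside `S` is level-`S`-constant. -/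
theorem isLevelConstantS₂_d₁₂ {F : Rep.{0, 0, 0} k Γ}
    (hsm : ∃ L : IntermediateField ℚ (AlgebraicClosure ℚ), L.IsUnramifiedOutside S ∧
      ∀ s ∈ L.fixingSubgroup, F.ρ s = 1)
    {x : Γ → F} (hx : IsLevelConstantS₁ S x) : IsLevelConstantS₂ S ((d₁₂ F).hom x) := by
  obtain ⟨L, hL, hfix⟩ := hsm
  obtain ⟨F₁, hF₁, hc⟩ := hx
  obtain ⟨L', hL', hle, hnorm, -⟩ := exists_normal_level (hL.sup hF₁)
  have hLle : L'.fixingSubgroup ≤ L.fixingSubgroup :=
    IntermediateField.fixingSubgroup_antitone (le_sup_left.trans hle)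
  have hFle : L'.fixingSubgroup ≤ F₁.fixingSubgroup :=
    IntermediateField.fixingSubgroup_antitone (le_sup_right.trans hle)
  refine ⟨L', hL', fun a b s s' hs hs' => ?_⟩
  rw [d₁₂_hom_apply, d₁₂_hom_apply]
  have e1 : F.ρ (a * s) (x (b * s')) = F.ρ a (x b) := by
    rw [hc b s' (hFle hs'), map_mul, Module.End.mul_apply, hfix s (hLle hs)]
    rfl
  have e2 : x (a * s * (b * s')) = x (a * b) := by
    have e : a * s * (b * s') = a * b * (b⁻¹ * s * b * s') := by group
    rw [e]
    refine hc (a * b) _ (hFle ?_)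
    exact L'.fixingSubgroup.mul_mem (hnorm.conj_mem' s hs b) hs'
  have e3 : x (a * s) = x a := hc a s (hFle hs)
  rw [e1, e2, e3]

/-- **Middle exactness of `H²`**: for a short exact sequence `0 → K → F → M → 0` of
representations whose middle term is trivial on the fixing subgroup of a level unramified
outside `S`, the sequence `H²(K) → H²(F) → H²(M)` of the Prelude's `continuousH2S` is exact. -/
theorem H2SMap_exact {K F : Rep.{0, 0, 0} k Γ} (f : K ⟶ F) (g : F ⟶ M)
    (hf : Function.Injective f.hom) (hex : ∀ y : F, g.hom y = 0 → ∃ x : K, f.hom x = y)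
    (hg : Function.Surjective g.hom)
    (hsm : ∃ L : IntermediateField ℚ (AlgebraicClosure ℚ), L.IsUnramifiedOutside S ∧
      ∀ s ∈ L.fixingSubgroup, F.ρ s = 1)
    (y : continuousH2S S F) (hy : H2SMap S g y = 0) :
    ∃ x : continuousH2S S K, H2SMap S f x = y := by
  classical
  obtain ⟨c, rfl⟩ := Submodule.mkQ_surjective _ y
  have hy' : continuousH2Sπ S M (cocS₂Map S g c) = 0 := hy
  rw [continuousH2Sπ_eq_zero_iff, mem_levelCoboundariesS₂_iff] at hy'
  obtain ⟨u, hu, hd⟩ := hy'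
  -- lift `u` along `g`
  let sec : M → F := Function.surjInv hg
  have hsec : ∀ m, g.hom (sec m) = m := Function.surjInv_eq hg
  let ũ : Γ → F := fun a => sec (u a)
  have hũ : IsLevelConstantS₁ S ũ := hu.comp sec
  have hdũ : IsLevelConstantS₂ S ((d₁₂ F).hom ũ) := isLevelConstantS₂_d₁₂ S hsm hũ
  have hgũ : (fun a => g.hom (ũ a)) = u := funext fun a => hsec (u a)
  -- the corrected cocycle `c - d ũ`
  have hc'mem : (c : Γ × Γ → F) - (d₁₂ F).hom ũ ∈ levelCocyclesS₂ S F := by
    refine (levelCocyclesS₂ S F).sub_mem c.2 ⟨d₁₂_apply_mem_cocycles₂ ũ, hdũ⟩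
  have hzero : ∀ ab : Γ × Γ, g.hom ((c : Γ × Γ → F) ab - (d₁₂ F).hom ũ ab) = 0 := by
    intro ab
    have h1 : (d₁₂ M).hom (fun a => g.hom (ũ a)) ab = g.hom ((d₁₂ F).hom ũ ab) :=
      congrFun (d₁₂_comp g ũ) ab
    have h2 : (d₁₂ M).hom u ab = g.hom ((c : Γ × Γ → F) ab) := congrFun hd ab
    rw [map_sub, ← h1, hgũ, h2, sub_self]
  choose e he using fun ab => hex _ (hzero ab)
  have hemem : e ∈ levelCocyclesS₂ S K := by
    refine (mem_levelCocyclesS₂_iff S K e).2 ⟨(mem_cocycles₂_iff e).2 fun a b j => ?_, ?_⟩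
    · apply hf
      rw [map_add, map_add, Rep.hom_comm_apply, he, he, he, he]
      exact (mem_cocycles₂_iff _).1 hc'mem.1 a b j
    · obtain ⟨L, hL, hcL⟩ := ((mem_levelCocyclesS₂_iff S F _).1 hc'mem).2
      exact ⟨L, hL, fun a b s s' hs hs' => hf (by rw [he, he]; exact hcL a b s s' hs hs')⟩
  refine ⟨continuousH2Sπ S K ⟨e, hemem⟩, ?_⟩
  rw [H2SMap_π]
  have e1 : cocS₂Map S f ⟨e, hemem⟩ = c - ⟨(d₁₂ F).hom ũ, d₁₂_apply_mem_cocycles₂ ũ, hdũ⟩ :=
    Subtype.ext (funext fun ab => he ab)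
  rw [e1, map_sub, sub_eq_self, continuousH2Sπ_eq_zero_iff, mem_levelCoboundariesS₂_iff]
  exact ⟨ũ, hũ, rfl⟩

end Fermat.Agent.S55.H43
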