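import Fermat.Agent.S55.H43.Hc1
import Fermat.Agent.S55.H43.H2S
import Fermat.Agent.S55.H12.C10R
import Fermat.Agent.S55.H87.BaseChain

/-!
# S55 (Program C, Route R): the concrete package on `H43.Hc1`

Given a pairing `continuousH2S S M × Hc1 S (D p M) → 𝔽_p` (data, provided by C2) which is natural
in `M`, this file builds

* `rPackage S pairing : RPackage p S` (with `Hc1`, `loc0`, `toH1` of `H43/Hc1.lean`);
* `rPackage_bridge : (rPackage S pairing).Bridge` (`p` odd);
* `rFunctor S pairing hnat : RFunctor (rPackage S pairing)` (functoriality of `H²` and `H¹_c`);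
* `rFunctor_hc1Inj`, `rFunctor_hc1Exact`: the left exactness leaves of C10;
* `rPackage_loc0Fin : Loc0Fin (rPackage S pairing)`.
-/

set_option autoImplicit false

open CategoryTheory Module groupCohomology ExtCitation

noncomputable section

namespace Fermat.Agent.S55.H43

open Fermat.Agent.S55.H70 Fermat.Agent.S55.H12 Fermat.Agent.S55.H87

variable {p : ℕ} [Fact p.Prime] (S : Finset Nat.Primes)

/-- `2 ≠ 0` in `ZMod p` for `p` odd. -/
theorem two_ne_zero_zmod (hp2 : p ≠ 2) : (2 : ZMod p) ≠ 0 := by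
  intro h
  have hp : p.Prime := Fact.out
  have h' : ((2 : ℕ) : ZMod p) = 0 := by exact_mod_cast h
  rw [ZMod.natCast_eq_zero_iff] at h'
  exact hp2 ((Nat.prime_dvd_prime_iff_eq hp Nat.prime_two).mp h')

/-- An admissible module is trivial on the fixing subgroup of a level unramified outside `S`. -/
theorem exists_level_of_isAdm {N : Rep.{0, 0, 0} (ZMod p) GQ} (hN : IsAdm p S N) :
    ∃ L : IntermediateField ℚ (AlgebraicClosure ℚ), L.IsUnramifiedOutside S ∧
      ∀ s ∈ L.fixingSubgroup, N.ρ s = 1 := by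
  obtain ⟨hfd, hsm, hur⟩ := hN
  haveI := hfd
  obtain ⟨L, hL, -, hfix⟩ := exists_level_trivial S N hsm hur
  exact ⟨L, hL, fun s hs => (hfix s).mp hs⟩

/-- The image `loc0` of the local `H⁰`'s is finite-dimensional. -/
theorem finiteDimensional_loc0 {k : Type} [Field k] (N : Rep.{0, 0, 0} k GQ)
    [FiniteDimensional k N] : FiniteDimensional k (loc0 S N) := by
  let W : Submodule k (Z1c S N) :=
    LinearMap.ker ((LinearMap.fst k (GQ → N) (↥S → N)) ∘ₗ (Z1c S N).subtype)
  let φ : W →ₗ[k] (↥S → N) := (LinearMap.snd k (GQ → N) (↥S → N)) ∘ₗ (Z1c S N).subtype ∘ₗ W.subtype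
  have hφ : Function.Injective φ := by
    intro a b hab
    apply Subtype.ext
    apply Subtype.ext
    have ha : (a.1 : (GQ → N) × (↥S → N)).1 = 0 := a.2
    have hb : (b.1 : (GQ → N) × (↥S → N)).1 = 0 := b.2
    exact Prod.ext (ha.trans hb.symm) hab
  haveI : FiniteDimensional k W := FiniteDimensional.of_injective φ hφ
  exact Module.Finite.map W (Hc1π S N)

/-- **The Route R package** on the concrete `H¹_c`, for a given pairing. -/
def rPackage (pairing : ∀ M : Rep.{0, 0, 0} (ZMod p) GQ,
    continuousH2S S M →ₗ[ZMod p] Hc1 S (D p M) →ₗ[ZMod p] ZMod p) : RPackage p S where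
  Hc1 N := ModuleCat.of (ZMod p) (Hc1 S N)
  loc0 N := loc0 S N
  toH1 N := toH1 S N
  pairing := pairing

variable (pairing : ∀ M : Rep.{0, 0, 0} (ZMod p) GQ,
    continuousH2S S M →ₗ[ZMod p] Hc1 S (D p M) →ₗ[ZMod p] ZMod p)

/-- **(BR)** The bridge leaf of the top chain, for the concrete package. -/
theorem rPackage_bridge (hp2 : p ≠ 2) : (rPackage S pairing).Bridge := fun N _ =>
  ⟨ker_toH1 S N, sha₁_eq_range_toH1 S N (two_ne_zero_zmod hp2)⟩

/-- **(Loc0Fin)** of the base-case skeleton, for the concrete package. -/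
theorem rPackage_loc0Fin : Loc0Fin (rPackage S pairing) := fun N hN => by
  haveI := hN.1
  exact finiteDimensional_loc0 S N

/-- Functoriality of `H²` and `H¹_c` for the concrete package, from the naturality of the
pairing. -/
def rFunctor
    (hnat : ∀ {X Y : Rep.{0, 0, 0} (ZMod p) GQ} (f : X ⟶ Y) (x : continuousH2S S X)
      (y : Hc1 S (D p Y)),
      pairing Y (H2SMap S f x) y = pairing X x (Hc1Map S (dualHom p f) y)) :
    RFunctor (rPackage S pairing) where
  H2map f := H2SMap S f
  Hc1map f := Hc1Map S f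
  H2map_id X := H2SMap_id S X
  H2map_comp f g := H2SMap_comp S f g
  H2map_add f g := H2SMap_add S f g
  Hc1map_id X := Hc1Map_id S X
  Hc1map_comp f g := Hc1Map_comp S f g
  Hc1map_add f g := Hc1Map_add S f g
  pair_natural f x y := hnat f x y

variable (hnat : ∀ {X Y : Rep.{0, 0, 0} (ZMod p) GQ} (f : X ⟶ Y) (x : continuousH2S S X)
      (y : Hc1 S (D p Y)),
      pairing Y (H2SMap S f x) y = pairing X x (Hc1Map S (dualHom p f) y))

/-- **(LE1)** for the concrete package. -/
theorem rFunctor_hc1Inj (hpS : pPrime p ∈ S) : (rFunctor S pairing hnat).Hc1Inj :=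
  fun f _ hf => Hc1Map_injective S ⟨pPrime p, hpS⟩ f hf

/-- **(LE2)** for the concrete package. -/
theorem rFunctor_hc1Exact : (rFunctor S pairing hnat).Hc1Exact := fun ι π hses hB y hy => by
  obtain ⟨L, hL, hfix⟩ := exists_level_of_isAdm S hB
  refine Hc1Map_exact S ι π hses.inj hses.exact hses.surj (fun m => ⟨L, hL, fun s hs => ?_⟩) y hy
  rw [hfix s hs]
  rfl

end Fermat.Agent.S55.H43
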