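import Fermat.Agent.S55.H43.GoUp
import Fermat.Agent.S55.H43.LevelField
import Fermat.Agent.S55.H87.BaseAdm
import Fermat.Agent.S55.H87.DualAdm

/-!
# S55 (Program C, Route R): the dévissage with ADMISSIBLE-ONLY naturality of the pairing

`H12.RFunctor.pair_natural` asks for naturality of the pairing for all coefficient modules; a
pairing which is only constructed (and only natural) on admissible modules does not provide it.
`RFunctorAdm` is the same interface with `pair_natural` restricted to admissible `X`, `Y`;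
`RFunctorAdm.stepEpi` / `RFunctorAdm.stepMono` are the dévissage steps of `H70.ChainR` (all
modules in the dévissage are admissible).

For the concrete package `rPackage S pairing` (`Hc1.lean`, `RGlue.lean`):

* `rFunctorAdm`, `rPackage_stepEpi`, `rPackage_stepMono`, `rPackage_goUp_adm`;
* `s55_of_pairing` : the conclusion of S55 from a pairing with admissible naturality, the local
  criterion, (CD), (EX), (HASSE) and (COUNT).
-/

set_option autoImplicit false

open CategoryTheory Module groupCohomology ExtCitation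

noncomputable section

namespace Fermat.Agent.S55.H43

open Fermat.Agent.S55.H70 Fermat.Agent.S55.H12 Fermat.Agent.S55.H87

variable {p : ℕ} [Fact p.Prime] {S : Finset Nat.Primes}

/-- Functoriality of `H²(G_S, -)` and of `H¹_c(G_S, -)` in the coefficient module, and
naturality of the pairing of an `RPackage` for morphisms of ADMISSIBLE modules. -/
structure RFunctorAdm (pkg : RPackage p S) where
  H2map : ∀ {X Y : Rep.{0, 0, 0} (ZMod p) GQ}, (X ⟶ Y) →
    (continuousH2S S X →ₗ[ZMod p] continuousH2S S Y)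
  Hc1map : ∀ {X Y : Rep.{0, 0, 0} (ZMod p) GQ}, (X ⟶ Y) → (pkg.Hc1 X →ₗ[ZMod p] pkg.Hc1 Y)
  H2map_id : ∀ X : Rep.{0, 0, 0} (ZMod p) GQ, H2map (𝟙 X) = LinearMap.id
  H2map_comp : ∀ {X Y Z : Rep.{0, 0, 0} (ZMod p) GQ} (f : X ⟶ Y) (g : Y ⟶ Z),
    H2map (f ≫ g) = H2map g ∘ₗ H2map f
  H2map_add : ∀ {X Y : Rep.{0, 0, 0} (ZMod p) GQ} (f g : X ⟶ Y),
    H2map (f + g) = H2map f + H2map g
  Hc1map_id : ∀ X : Rep.{0, 0, 0} (ZMod p) GQ, Hc1map (𝟙 X) = LinearMap.id
  Hc1map_comp : ∀ {X Y Z : Rep.{0, 0, 0} (ZMod p) GQ} (f : X ⟶ Y) (g : Y ⟶ Z),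
    Hc1map (f ≫ g) = Hc1map g ∘ₗ Hc1map f
  Hc1map_add : ∀ {X Y : Rep.{0, 0, 0} (ZMod p) GQ} (f g : X ⟶ Y),
    Hc1map (f + g) = Hc1map f + Hc1map g
  pair_natural : ∀ {X Y : Rep.{0, 0, 0} (ZMod p) GQ} (f : X ⟶ Y), IsAdm p S X → IsAdm p S Y →
    ∀ (x : continuousH2S S X) (y : pkg.Hc1 (D p Y)),
      pkg.pairing Y (H2map f x) y = pkg.pairing X x (Hc1map (dualHom p f) y)

namespace RFunctorAdm

variable {pkg : RPackage p S} (fn : RFunctorAdm pkg)

/-- (LE1) `H¹_c` preserves injections into admissible modules. -/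
def Hc1Inj : Prop :=
  ∀ {X Y : Rep.{0, 0, 0} (ZMod p) GQ} (f : X ⟶ Y), IsAdm p S Y → Function.Injective f.hom →
    Function.Injective (fn.Hc1map f)

/-- (LE2) `H¹_c` is exact in the middle on short exact sequences with admissible middle term. -/
def Hc1Exact : Prop :=
  ∀ {A B C : Rep.{0, 0, 0} (ZMod p) GQ} (ι : A ⟶ B) (π : B ⟶ C), IsSES p ι π → IsAdm p S B →
    ∀ y : pkg.Hc1 B, fn.Hc1map π y = 0 → ∃ x : pkg.Hc1 A, fn.Hc1map ι x = y

/-- (CD) `H²(G_S, -)` preserves surjections of admissible modules. -/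
def H2Surj : Prop :=
  ∀ {F M : Rep.{0, 0, 0} (ZMod p) GQ} (π : F ⟶ M), IsAdm p S F → IsAdm p S M →
    Function.Surjective π.hom → Function.Surjective (fn.H2map π)

theorem H2map_zero {X Y : Rep.{0, 0, 0} (ZMod p) GQ} : fn.H2map (0 : X ⟶ Y) = 0 := by
  have h := fn.H2map_add (0 : X ⟶ Y) 0
  rw [add_zero] at h
  exact left_eq_add.mp h

theorem Hc1map_zero {X Y : Rep.{0, 0, 0} (ZMod p) GQ} : fn.Hc1map (0 : X ⟶ Y) = 0 := by
  have h := fn.Hc1map_add (0 : X ⟶ Y) 0
  rw [add_zero] at h
  exact left_eq_add.mp h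

theorem H2map_sum {X Y : Rep.{0, 0, 0} (ZMod p) GQ} {ι : Type} (s : Finset ι)
    (f : ι → (X ⟶ Y)) : fn.H2map (∑ i ∈ s, f i) = ∑ i ∈ s, fn.H2map (f i) := by
  classical
  induction s using Finset.induction with
  | empty => simp [H2map_zero]
  | insert a s ha h => rw [Finset.sum_insert ha, Finset.sum_insert ha, fn.H2map_add, h]

theorem Hc1map_sum {X Y : Rep.{0, 0, 0} (ZMod p) GQ} {ι : Type} (s : Finset ι)
    (f : ι → (X ⟶ Y)) : fn.Hc1map (∑ t ∈ s, f t) = ∑ t ∈ s, fn.Hc1map (f t) := by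
  classical
  induction s using Finset.induction with
  | empty => simp [Hc1map_zero]
  | insert a s ha h => rw [Finset.sum_insert ha, Finset.sum_insert ha, fn.Hc1map_add, h]

include fn

/-- Additivity of "`α` surjective" over a finite direct sum. -/
theorem surjective_of_total {ι : Type} [Fintype ι] {F : Rep.{0, 0, 0} (ZMod p) GQ}
    {X : ι → Rep.{0, 0, 0} (ZMod p) GQ} (inc : ∀ s, X s ⟶ F) (prj : ∀ s, F ⟶ X s)
    (htot : ∑ s, prj s ≫ inc s = 𝟙 F) (hX : ∀ s, IsAdm p S (X s)) (hF : IsAdm p S F)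
    (h : ∀ s, Function.Surjective (pkg.pairing (X s))) :
    Function.Surjective (pkg.pairing F) := by
  refine surjective_of_sum (As := fun s => continuousH2S S (X s))
    (Bs := fun s => pkg.Hc1 (D p (X s))) (fun s => fn.H2map (inc s))
    (fun s => fn.Hc1map (dualHom p (prj s))) (fun s => fn.Hc1map (dualHom p (inc s)))
    (pkg.pairing F) (fun s => pkg.pairing (X s)) (fun b => ?_)
    (fun s a b => fn.pair_natural (inc s) (hX s) hF a b) h
  have e : ∑ s, fn.Hc1map (dualHom p (prj s)) ∘ₗ fn.Hc1map (dualHom p (inc s)) =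
      LinearMap.id := by
    simp_rw [← fn.Hc1map_comp, ← dualHom_comp]
    rw [← fn.Hc1map_sum, ← dualHom_sum, htot, dualHom_id, fn.Hc1map_id]
  have := congrArg (fun f : pkg.Hc1 (D p F) →ₗ[ZMod p] pkg.Hc1 (D p F) => f b) e
  simpa using this

/-- Additivity of "`α` injective" over a finite direct sum. -/
theorem injective_of_total {ι : Type} [Fintype ι] {F : Rep.{0, 0, 0} (ZMod p) GQ}
    {X : ι → Rep.{0, 0, 0} (ZMod p) GQ} (inc : ∀ s, X s ⟶ F) (prj : ∀ s, F ⟶ X s)
    (htot : ∑ s, prj s ≫ inc s = 𝟙 F) (hX : ∀ s, IsAdm p S (X s)) (hF : IsAdm p S F)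
    (h : ∀ s, Function.Injective (pkg.pairing (X s))) :
    Function.Injective (pkg.pairing F) := by
  refine injective_of_sum (As := fun s => continuousH2S S (X s))
    (Bs := fun s => pkg.Hc1 (D p (X s))) (fun s => fn.H2map (inc s)) (fun s => fn.H2map (prj s))
    (fun s => fn.Hc1map (dualHom p (prj s)))
    (pkg.pairing F) (fun s => pkg.pairing (X s)) (fun a => ?_)
    (fun s a b => (fn.pair_natural (prj s) hF (hX s) a b).symm) h
  have e : ∑ s, fn.H2map (inc s) ∘ₗ fn.H2map (prj s) = LinearMap.id := by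
    simp_rw [← fn.H2map_comp]
    rw [← fn.H2map_sum, htot, fn.H2map_id]
  have := congrArg (fun f : continuousH2S S F →ₗ[ZMod p] continuousH2S S F => f a) e
  simpa using this

/-- Surjectivity of `α` passes to quotients (no right exactness needed). -/
theorem surjective_of_quotient (hDA : DualAdmStatement p S) (h1 : fn.Hc1Inj)
    {F M : Rep.{0, 0, 0} (ZMod p) GQ} (π : F ⟶ M) (hF : IsAdm p S F) (hM : IsAdm p S M)
    (hπ : Function.Surjective π.hom) (hs : Function.Surjective (pkg.pairing F)) :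
    Function.Surjective (pkg.pairing M) := by
  intro φ
  have hinj : Function.Injective (fn.Hc1map (dualHom p π)) := by
    refine h1 (dualHom p π) (hDA F hF) ?_
    intro a b hab
    apply LinearMap.ext
    intro m
    obtain ⟨x, rfl⟩ := hπ m
    exact congrArg (fun χ : D p F => (χ : Module.Dual (ZMod p) F) x) hab
  obtain ⟨r, hr⟩ := LinearMap.exists_leftInverse_of_injective (fn.Hc1map (dualHom p π))
    (LinearMap.ker_eq_bot.mpr hinj)
  obtain ⟨x, hx⟩ := hs (φ ∘ₗ r)
  refine ⟨fn.H2map π x, ?_⟩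
  ext y
  rw [fn.pair_natural π hF hM, hx, LinearMap.comp_apply]
  have := congrArg (fun f : pkg.Hc1 (D p M) →ₗ[ZMod p] pkg.Hc1 (D p M) => f y) hr
  simp only [LinearMap.coe_comp, Function.comp_apply, LinearMap.id_coe, id_eq] at this
  rw [this]

/-- Injectivity of `α` along a short exact sequence `0 → K → F → M → 0`. -/
theorem injective_of_ses (hDA : DualAdmStatement p S) (h2 : fn.Hc1Exact) (hcd : fn.H2Surj)
    {K F M : Rep.{0, 0, 0} (ZMod p) GQ} (ι : K ⟶ F) (π : F ⟶ M) (hses : IsSES p ι π)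
    (hK : IsAdm p S K) (hF : IsAdm p S F) (hM : IsAdm p S M)
    (hiF : Function.Injective (pkg.pairing F))
    (hsK : Function.Surjective (pkg.pairing K)) : Function.Injective (pkg.pairing M) := by
  rw [injective_iff_map_eq_zero]
  intro x hx
  obtain ⟨xF, rfl⟩ := hcd π hF hM hses.surj x
  have hk : ∀ b, fn.Hc1map (dualHom p ι) b = 0 → pkg.pairing F xF b = 0 := by
    intro b hb
    obtain ⟨y, rfl⟩ := h2 (dualHom p π) (dualHom p ι) hses.dual (hDA F hF) b hb
    rw [← fn.pair_natural π hF hM, hx]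
    rfl
  obtain ⟨χ, hχ⟩ := exists_factor_of_ker_le (fn.Hc1map (dualHom p ι)) (pkg.pairing F xF) hk
  obtain ⟨xK, hxK⟩ := hsK χ
  have e : fn.H2map ι xK = xF := by
    apply hiF
    ext b
    rw [fn.pair_natural ι hK hF, hxK, hχ]
  rw [← e, ← LinearMap.comp_apply, ← fn.H2map_comp]
  have hz : ι ≫ π = 0 := by
    apply Rep.hom_ext
    ext a
    exact hses.zero a
  rw [hz, H2map_zero, LinearMap.zero_apply]

/-- **C10, Route R**: the surjectivity step. -/
theorem stepEpi (hL : LevelFieldStatement p S) (hDA : DualAdmStatement p S) (h1 : fn.Hc1Inj) :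
    pkg.StepEpi := by
  intro M hM
  obtain ⟨L, hLf, n, F, inc, prj, π, htot, hF, hπ⟩ := exists_presentation hL M hM
  refine ⟨L, hLf, fun h => ?_⟩
  exact fn.surjective_of_quotient hDA h1 π hF hM hπ
    (fn.surjective_of_total inc prj htot (fun _ => baseAdm L hLf) hF fun _ => h)

/-- **C10, Route R**: the injectivity step. -/
theorem stepMono (hL : LevelFieldStatement p S) (hDA : DualAdmStatement p S)
    (h2 : fn.Hc1Exact) (hcd : fn.H2Surj) : pkg.StepMono := by
  intro M hM
  obtain ⟨L, hLf, n, F, inc, prj, π, htot, hF, hπ⟩ := exists_presentation hL M hM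
  have hses : IsSES p (kerHom p π) π := isSES_kerHom π hπ
  have hK : IsAdm p S (kerRep p π) := isAdm_of_injective p S (kerHom p π) hses.inj hF
  refine ⟨L, hLf, kerRep p π, hK, fun hi hs => ?_⟩
  exact fn.injective_of_ses hDA h2 hcd (kerHom p π) π hses hK hF hM
    (fn.injective_of_total inc prj htot (fun _ => baseAdm L hLf) hF fun _ => hi) hs

end RFunctorAdm

/-! ### The concrete package -/

section Concrete

variable (S)
variable (pairing : ∀ M : Rep.{0, 0, 0} (ZMod p) GQ,
    continuousH2S S M →ₗ[ZMod p] Hc1 S (D p M) →ₗ[ZMod p] ZMod p)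

/-- Naturality of a pairing on admissible modules. -/
def PairingNatAdm : Prop :=
  ∀ {X Y : Rep.{0, 0, 0} (ZMod p) GQ} (f : X ⟶ Y), IsAdm p S X → IsAdm p S Y →
    ∀ (x : continuousH2S S X) (y : Hc1 S (D p Y)),
      pairing Y (H2SMap S f x) y = pairing X x (Hc1Map S (dualHom p f) y)

/-- (CD) for the Prelude's `H²(G_S, -)`: surjections of admissible modules induce surjections. -/
def H2SurjAdm (p : ℕ) [Fact p.Prime] (S : Finset Nat.Primes) : Prop :=
  ∀ {F M : Rep.{0, 0, 0} (ZMod p) GQ} (π : F ⟶ M), IsAdm p S F → IsAdm p S M →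
    Function.Surjective π.hom → Function.Surjective (H2SMap S π)

variable {pairing}

/-- The admissible functoriality package of the concrete `rPackage`. -/
def rFunctorAdm (hnat : PairingNatAdm S pairing) : RFunctorAdm (rPackage S pairing) where
  H2map f := H2SMap S f
  Hc1map f := Hc1Map S f
  H2map_id X := H2SMap_id S X
  H2map_comp f g := H2SMap_comp S f g
  H2map_add f g := H2SMap_add S f g
  Hc1map_id X := Hc1Map_id S X
  Hc1map_comp f g := Hc1Map_comp S f g
  Hc1map_add f g := Hc1Map_add S f g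
  pair_natural f hX hY x y := hnat f hX hY x y

theorem rFunctorAdm_hc1Inj (hnat : PairingNatAdm S pairing) (hpS : pPrime p ∈ S) :
    (rFunctorAdm S hnat).Hc1Inj :=
  fun f _ hf => Hc1Map_injective S ⟨pPrime p, hpS⟩ f hf

theorem rFunctorAdm_hc1Exact (hnat : PairingNatAdm S pairing) :
    (rFunctorAdm S hnat).Hc1Exact := fun ι π hses hB y hy => by
  obtain ⟨L, hL, hfix⟩ := exists_level_of_isAdm S hB
  refine Hc1Map_exact S ι π hses.inj hses.exact hses.surj (fun m => ⟨L, hL, fun s hs => ?_⟩) y hy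
  rw [hfix s hs]
  rfl

/-- `H12.LevelFieldStatement`, proved. -/
theorem levelFieldStatement_h12 (hpS : pPrime p ∈ S) : LevelFieldStatement p S :=
  levelFieldStatement S hpS

/-- `H70.DualAdmStatement`, proved. -/
theorem dualAdmStatement_h70 (hpS : pPrime p ∈ S) : DualAdmStatement p S :=
  dualAdm S hpS

/-- **StepEpi** for the concrete package. -/
theorem rPackage_stepEpi (hnat : PairingNatAdm S pairing) (hpS : pPrime p ∈ S) :
    (rPackage S pairing).StepEpi :=
  (rFunctorAdm S hnat).stepEpi (levelFieldStatement_h12 S hpS) (dualAdmStatement_h70 S hpS)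
    (rFunctorAdm_hc1Inj S hnat hpS)

/-- **StepMono** for the concrete package, from (CD). -/
theorem rPackage_stepMono (hnat : PairingNatAdm S pairing) (hpS : pPrime p ∈ S)
    (hcd : H2SurjAdm p S) : (rPackage S pairing).StepMono :=
  (rFunctorAdm S hnat).stepMono (levelFieldStatement_h12 S hpS) (dualAdmStatement_h70 S hpS)
    (rFunctorAdm_hc1Exact S hnat) (fun π hF hM hπ => hcd π hF hM hπ)

/-- **(GO-UP)** for the concrete package, from admissible naturality. -/
theorem rPackage_goUp_adm (hnat : PairingNatAdm S pairing) (hpS : pPrime p ∈ S) :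
    GoUp (rPackage S pairing) := by
  intro L hL y
  obtain ⟨L', hL', hle, hmem⟩ := goUp_core S L hL y
  refine ⟨L', hL', H2SMap S (projHom p L L' hle), Hc1Map S (dualHom p (projHom p L L' hle)),
    ?_, fun x' y' => hnat _ (baseAdm L' hL') (baseAdm L hL) x' y', hmem⟩
  exact Hc1Map_injective S ⟨pPrime p, hpS⟩ _ (dualHom_projHom_injective p L L' hle)

/-- **The base case** for the concrete package, from (LC), (EX), (HASSE), (COUNT). -/
theorem rPackage_baseCase (hnat : PairingNatAdm S pairing) (hp2 : p ≠ 2) (hpS : pPrime p ∈ S)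
    (hlc : (rPackage S pairing).LocalCriterion) (hex : ExStatement (rPackage S pairing))
    (c : IntermediateField ℚ (AlgebraicClosure ℚ) → ℕ)
    (hH : HasseStatement p S c) (hC : CountStatement p S c) :
    (rPackage S pairing).BaseCase :=
  baseCase_of_leaves (rPackage S pairing) (dualAdmStatement_h70 S hpS)
    (rPackage_bridge S pairing hp2) hlc baseAdm (rPackage_loc0Fin S pairing) hex
    (rPackage_goUp_adm S hnat hpS) c hH hC

/-- **S55 from the concrete leaves**: a pairing `H²(G_S, M) × H¹_c(G_S, M') → 𝔽_p` natural on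
admissible modules, the local criterion, (CD), (EX), (HASSE) and (COUNT). -/
theorem s55_of_pairing (hp2 : p ≠ 2) (hpS : pPrime p ∈ S)
    (pairing : ∀ M : Rep.{0, 0, 0} (ZMod p) GQ,
      continuousH2S S M →ₗ[ZMod p] Hc1 S (D p M) →ₗ[ZMod p] ZMod p)
    (hnat : PairingNatAdm S pairing)
    (hlc : (rPackage S pairing).LocalCriterion)
    (hcd : H2SurjAdm p S)
    (hex : ExStatement (rPackage S pairing))
    (c : IntermediateField ℚ (AlgebraicClosure ℚ) → ℕ)
    (hH : HasseStatement p S c) (hC : CountStatement p S c)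
    (M : Rep (ZMod p) (AlgebraicClosure ℚ ≃ₐ[ℚ] AlgebraicClosure ℚ))
    [FiniteDimensional (ZMod p) M]
    (hsm : ∀ m : M, ∃ F : IntermediateField ℚ (AlgebraicClosure ℚ), FiniteDimensional ℚ F ∧
      ∀ s ∈ F.fixingSubgroup, M.ρ s m = m)
    (hMur : ∀ q : Nat.Primes, q ∉ S → ∀ A : ValuationSubring (AlgebraicClosure ℚ),
      A.LiesOverPrime (q : ℕ) → ∀ g ∈ A.inertiaSubgroupIn ℚ, M.ρ g = 1) :
    ∃ B : sha₁ S (M.dualTwist (cycloChar p)) →ₗ[ZMod p] sha₂ S M →ₗ[ZMod p] ZMod p,
      (∀ y, (∀ x, B y x = 0) → y = 0) ∧ (∀ x, (∀ y, B y x = 0) → x = 0) :=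
  s55_of_leaves_R p S (rPackage S pairing) (dualAdmStatement_h70 S hpS)
    (rPackage_bridge S pairing hp2) hlc (rPackage_stepEpi S hnat hpS)
    (rPackage_stepMono S hnat hpS hcd)
    (rPackage_baseCase S hnat hp2 hpS hlc hex c hH hC) M hsm hMur

end Concrete

end Fermat.Agent.S55.H43
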