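import Fermat.Agent.S55.H43.RGlue

/-!
# S55 (Program C, Route R): the GO-UP leaf of the base case

For level fields `L ≤ L'` the projection `projHom : F_{L'} ↠ F_L` (`F_L = 𝔽_p[G_ℚ / G_L]`) induces
`Hc1Map S (dualHom p projHom) : H¹_c(F_L') → H¹_c(F_{L'}')`, which is injective.  Every class
`y ∈ H¹_c(F_L')` lands in `loc0` for a suitable `L'` (`goUp_core`): if `L'` is a Galois level
containing `L` and a level of the cocycle `n` of `y`, the pushed-forward cocycle is the
coboundary of the explicit functional `[γ] ↦ -n(γ)([γ])`.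

`rPackage_goUp : GoUp (rPackage S pairing)` for every natural pairing.
-/

set_option autoImplicit false

open CategoryTheory Module groupCohomology ExtCitation

noncomputable section

namespace Fermat.Agent.S55.H43

open Fermat.Agent.S55.H70 Fermat.Agent.S55.H12 Fermat.Agent.S55.H87

variable {p : ℕ} [Fact p.Prime] (S : Finset Nat.Primes)

local notation "Qbar" => AlgebraicClosure ℚ

/-- Two linear functionals on a monoid algebra agreeing on the basis are equal. -/
theorem monoidAlgebra_dual_ext {k X : Type} [Field k]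
    (ψ₁ ψ₂ : MonoidAlgebra k X →ₗ[k] k)
    (h : ∀ x, ψ₁ (MonoidAlgebra.single x 1) = ψ₂ (MonoidAlgebra.single x 1)) : ψ₁ = ψ₂ := by
  apply MonoidAlgebra.lhom_ext'
  intro c
  ext
  simpa using h c

section Proj

variable (p)
variable (L L' : IntermediateField ℚ Qbar) (hle : L ≤ L')

include hle in
theorem baseVec_fixed (s : GQ) (hs : s ∈ L'.fixingSubgroup) :
    (baseRep p L).ρ s (MonoidAlgebra.single ((1 : GQ) : GQ ⧸ L.fixingSubgroup) (1 : ZMod p)) =
      MonoidAlgebra.single ((1 : GQ) : GQ ⧸ L.fixingSubgroup) (1 : ZMod p) := by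
  show Representation.ofMulAction (ZMod p) GQ (GQ ⧸ L.fixingSubgroup) s
    (MonoidAlgebra.single _ _) = _
  rw [Representation.ofMulAction_single]
  congr 1
  show ((s * 1 : GQ) : GQ ⧸ L.fixingSubgroup) = ((1 : GQ) : GQ ⧸ L.fixingSubgroup)
  rw [QuotientGroup.eq, mul_one, mul_one]
  exact inv_mem (IntermediateField.fixingSubgroup_antitone hle hs)

/-- The projection `F_{L'} ⟶ F_L` for `L ≤ L'`. -/
def projHom : baseRep p L' ⟶ baseRep p L :=
  orbitHom p (baseRep p L) L'.fixingSubgroup
    (MonoidAlgebra.single ((1 : GQ) : GQ ⧸ L.fixingSubgroup) (1 : ZMod p))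
    (baseVec_fixed p L L' hle)

theorem projHom_single (g : GQ) (r : ZMod p) :
    (projHom p L L' hle).hom (MonoidAlgebra.single ((g : GQ) : GQ ⧸ L'.fixingSubgroup) r) =
      MonoidAlgebra.single ((g : GQ) : GQ ⧸ L.fixingSubgroup) r := by
  show liftLin (orbitFun p (baseRep p L) L'.fixingSubgroup _ (baseVec_fixed p L L' hle))
    (MonoidAlgebra.single ((g : GQ) : GQ ⧸ L'.fixingSubgroup) r) = _
  rw [liftLin_single, orbitFun_mk]
  show r • Representation.ofMulAction (ZMod p) GQ (GQ ⧸ L.fixingSubgroup) g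
    (MonoidAlgebra.single _ _) = _
  rw [Representation.ofMulAction_single, MonoidAlgebra.smul_single, smul_eq_mul, mul_one]
  congr 1

theorem projHom_surjective : Function.Surjective (projHom p L L' hle).hom := by
  intro v
  induction v using MonoidAlgebra.induction_linear with
  | zero => exact ⟨0, map_zero _⟩
  | add x y hx hy =>
    obtain ⟨a, rfl⟩ := hx
    obtain ⟨b, rfl⟩ := hy
    exact ⟨a + b, map_add _ _ _⟩
  | single c r =>
    induction c using QuotientGroup.induction_on with
    | H g => exact ⟨_, projHom_single p L L' hle g r⟩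

theorem dualHom_projHom_injective :
    Function.Injective (dualHom p (projHom p L L' hle)).hom := by
  intro φ ψ h
  have hsurj := projHom_surjective p L L' hle
  have h' : ∀ x, ((dualHom p (projHom p L L' hle)).hom φ : Module.Dual (ZMod p) (baseRep p L')) x =
      ((dualHom p (projHom p L L' hle)).hom ψ : Module.Dual (ZMod p) (baseRep p L')) x :=
    fun x => by rw [h]
  have e : (φ : Module.Dual (ZMod p) (baseRep p L)) = ψ := by
    refine LinearMap.ext fun v => ?_
    obtain ⟨x, rfl⟩ := hsurj v
    exact h' x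
  exact e

end Proj

/-! ### The explicit coboundary -/

section Core

variable (L L' : IntermediateField ℚ Qbar) (hle : L ≤ L')
variable (n : GQ → D p (baseRep p L))
  (hconst : ∀ γ σ : GQ, σ ∈ L'.fixingSubgroup → n (γ * σ) = n γ)

/-- The function `[γ] ↦ -n(γ)([γ])` on `G_ℚ / G_{L'}`. -/
def goUpFun : GQ ⧸ L'.fixingSubgroup → ZMod p :=
  fun c => Quotient.liftOn' c
    (fun γ => -(n γ : Module.Dual (ZMod p) (baseRep p L))
      (MonoidAlgebra.single ((γ : GQ) : GQ ⧸ L.fixingSubgroup) (1 : ZMod p)))
    (by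
      intro a b hab
      rw [QuotientGroup.leftRel_apply] at hab
      have e : b = a * (a⁻¹ * b) := by group
      have h1 : n b = n a := by
        rw [e]
        exact hconst a _ hab
      have h2 : ((b : GQ) : GQ ⧸ L.fixingSubgroup) = a := by
        rw [QuotientGroup.eq]
        have e2 : b⁻¹ * a = (a⁻¹ * b)⁻¹ := by group
        rw [e2]
        exact inv_mem (IntermediateField.fixingSubgroup_antitone hle hab)
      show -(n a : Module.Dual (ZMod p) (baseRep p L)) _ = -(n b : Module.Dual (ZMod p) (baseRep p L)) _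
      rw [h1, h2])

theorem goUpFun_mk (γ : GQ) :
    goUpFun L L' hle n hconst ((γ : GQ) : GQ ⧸ L'.fixingSubgroup) =
      -(n γ : Module.Dual (ZMod p) (baseRep p L))
        (MonoidAlgebra.single ((γ : GQ) : GQ ⧸ L.fixingSubgroup) (1 : ZMod p)) := rfl

/-- The functional `b` with `d b = (dualHom projHom) ∘ n`. -/
def goUpElt : D p (baseRep p L') :=
  (liftLin (goUpFun L L' hle n hconst) : Module.Dual (ZMod p) (baseRep p L'))

theorem goUpElt_single (γ : GQ) :
    (goUpElt L L' hle n hconst : Module.Dual (ZMod p) (baseRep p L'))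
        (MonoidAlgebra.single ((γ : GQ) : GQ ⧸ L'.fixingSubgroup) (1 : ZMod p)) =
      -(n γ : Module.Dual (ZMod p) (baseRep p L))
        (MonoidAlgebra.single ((γ : GQ) : GQ ⧸ L.fixingSubgroup) (1 : ZMod p)) := by
  show liftLin (goUpFun L L' hle n hconst) (MonoidAlgebra.single _ _) = _
  rw [liftLin_single, one_smul, goUpFun_mk]

/-- **The coboundary identity**: if `n` is a 1-cocycle which is constant modulo `G_{L'}`, its
push-forward to `F_{L'}'` is the coboundary of `goUpElt`. -/
theorem d₀₁_goUpElt (hn : n ∈ cocycles₁ (D p (baseRep p L))) (g : GQ) :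
    (d₀₁ (D p (baseRep p L'))).hom (goUpElt L L' hle n hconst) g =
      (dualHom p (projHom p L L' hle)).hom (n g) := by
  rw [d₀₁_hom_apply]
  have key : ∀ x : GQ ⧸ L'.fixingSubgroup,
      (((D p (baseRep p L')).ρ g (goUpElt L L' hle n hconst) - goUpElt L L' hle n hconst :
          D p (baseRep p L')) : Module.Dual (ZMod p) (baseRep p L'))
        (MonoidAlgebra.single x 1) =
      ((dualHom p (projHom p L L' hle)).hom (n g) : Module.Dual (ZMod p) (baseRep p L'))
        (MonoidAlgebra.single x 1) := by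
    intro x
    induction x using QuotientGroup.induction_on with
    | H γ =>
      rw [dualHom_apply, projHom_single]
      -- left-hand side
      have hl : (((D p (baseRep p L')).ρ g (goUpElt L L' hle n hconst) -
            goUpElt L L' hle n hconst : D p (baseRep p L')) :
            Module.Dual (ZMod p) (baseRep p L'))
          (MonoidAlgebra.single ((γ : GQ) : GQ ⧸ L'.fixingSubgroup) 1) =
          (cycloChar p g : ZMod p) *
            (goUpElt L L' hle n hconst : Module.Dual (ZMod p) (baseRep p L'))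
              (MonoidAlgebra.single (((g⁻¹ * γ : GQ)) : GQ ⧸ L'.fixingSubgroup) 1) -
          (goUpElt L L' hle n hconst : Module.Dual (ZMod p) (baseRep p L'))
              (MonoidAlgebra.single ((γ : GQ) : GQ ⧸ L'.fixingSubgroup) 1) := by
        show (cycloChar p g : ZMod p) •
            (goUpElt L L' hle n hconst : Module.Dual (ZMod p) (baseRep p L'))
              ((baseRep p L').ρ g⁻¹ (MonoidAlgebra.single ((γ : GQ) : GQ ⧸ L'.fixingSubgroup) 1)) -
          (goUpElt L L' hle n hconst : Module.Dual (ZMod p) (baseRep p L'))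
              (MonoidAlgebra.single ((γ : GQ) : GQ ⧸ L'.fixingSubgroup) 1) = _
        have e1 : (baseRep p L').ρ g⁻¹
            (MonoidAlgebra.single ((γ : GQ) : GQ ⧸ L'.fixingSubgroup) (1 : ZMod p)) =
            MonoidAlgebra.single (((g⁻¹ * γ : GQ)) : GQ ⧸ L'.fixingSubgroup) 1 := by
          show Representation.ofMulAction (ZMod p) GQ (GQ ⧸ L'.fixingSubgroup) g⁻¹
            (MonoidAlgebra.single _ _) = _
          rw [Representation.ofMulAction_single]
          rfl
        rw [e1, smul_eq_mul]
      rw [hl, goUpElt_single, goUpElt_single]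
      -- the cocycle identity at `(g, g⁻¹ γ)`
      have hcoc := (mem_cocycles₁_iff n).1 hn g (g⁻¹ * γ)
      rw [mul_inv_cancel_left] at hcoc
      have hcoc' : (n γ : Module.Dual (ZMod p) (baseRep p L))
            (MonoidAlgebra.single ((γ : GQ) : GQ ⧸ L.fixingSubgroup) 1) =
          (cycloChar p g : ZMod p) * (n (g⁻¹ * γ) : Module.Dual (ZMod p) (baseRep p L))
            (MonoidAlgebra.single (((g⁻¹ * γ : GQ)) : GQ ⧸ L.fixingSubgroup) 1) +
          (n g : Module.Dual (ZMod p) (baseRep p L))
            (MonoidAlgebra.single ((γ : GQ) : GQ ⧸ L.fixingSubgroup) 1) := by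
        rw [hcoc]
        show (cycloChar p g : ZMod p) • (n (g⁻¹ * γ) : Module.Dual (ZMod p) (baseRep p L))
            ((baseRep p L).ρ g⁻¹ (MonoidAlgebra.single ((γ : GQ) : GQ ⧸ L.fixingSubgroup) 1)) +
          (n g : Module.Dual (ZMod p) (baseRep p L))
            (MonoidAlgebra.single ((γ : GQ) : GQ ⧸ L.fixingSubgroup) 1) = _
        have e1 : (baseRep p L).ρ g⁻¹
            (MonoidAlgebra.single ((γ : GQ) : GQ ⧸ L.fixingSubgroup) (1 : ZMod p)) =
            MonoidAlgebra.single (((g⁻¹ * γ : GQ)) : GQ ⧸ L.fixingSubgroup) 1 := by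
          show Representation.ofMulAction (ZMod p) GQ (GQ ⧸ L.fixingSubgroup) g⁻¹
            (MonoidAlgebra.single _ _) = _
          rw [Representation.ofMulAction_single]
          rfl
        rw [e1, smul_eq_mul]
      rw [hcoc']
      ring
  exact monoidAlgebra_dual_ext _ _ key

end Core

/-! ### GO-UP -/

/-- **GO-UP, cohomological core**: every class of `H¹_c(F_L')` lands in `loc0` over a larger
level field. -/
theorem goUp_core (L : IntermediateField ℚ Qbar) (hL : IsLevelField p S L)
    (y : Hc1 S (D p (baseRep p L))) :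
    ∃ L' : IntermediateField ℚ Qbar, IsLevelField p S L' ∧ ∃ hle : L ≤ L',
      Hc1Map S (dualHom p (projHom p L L' hle)) y ∈ loc0 S (D p (baseRep p L')) := by
  obtain ⟨z, rfl⟩ := Hc1π_surjective S _ y
  obtain ⟨F₁, hF₁, hc⟩ := z.2.2.1
  obtain ⟨L', hL', hle', -, hgal⟩ := exists_normal_level (hL.1.sup hF₁)
  have hLL' : L ≤ L' := le_sup_left.trans hle'
  have hF₁L' : F₁ ≤ L' := le_sup_right.trans hle'
  refine ⟨L', ⟨hL', hgal, fun ζ hζ => hLL' (hL.2.2 ζ hζ)⟩, hLL', ?_⟩
  rw [← ker_toH1, LinearMap.mem_ker, Hc1Map_π, toH1_π]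
  refine (H1π_eq_zero_iff _).2 ?_
  have hconst : ∀ γ σ : GQ, σ ∈ L'.fixingSubgroup →
      (z : (GQ → D p (baseRep p L)) × (↥S → D p (baseRep p L))).1 (γ * σ) =
        (z : (GQ → D p (baseRep p L)) × (↥S → D p (baseRep p L))).1 γ :=
    fun γ σ hσ => hc γ σ (IntermediateField.fixingSubgroup_antitone hF₁L' hσ)
  refine ⟨goUpElt L L' hLL' _ hconst, ?_⟩
  funext g
  exact d₀₁_goUpElt L L' hLL' _ hconst z.2.1 g

variable (pairing : ∀ M : Rep.{0, 0, 0} (ZMod p) GQ,
    continuousH2S S M →ₗ[ZMod p] Hc1 S (D p M) →ₗ[ZMod p] ZMod p)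

/-- **(GO-UP)** of the base-case skeleton, for the concrete package with a natural pairing. -/
theorem rPackage_goUp
    (hnat : ∀ {X Y : Rep.{0, 0, 0} (ZMod p) GQ} (f : X ⟶ Y) (x : continuousH2S S X)
      (y : Hc1 S (D p Y)),
      pairing Y (H2SMap S f x) y = pairing X x (Hc1Map S (dualHom p f) y))
    (hpS : pPrime p ∈ S) : GoUp (rPackage S pairing) := by
  intro L hL y
  obtain ⟨L', hL', hle, hmem⟩ := goUp_core S L hL y
  refine ⟨L', hL', H2SMap S (projHom p L L' hle), Hc1Map S (dualHom p (projHom p L L' hle)),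
    ?_, fun x' y' => hnat _ x' y', hmem⟩
  exact Hc1Map_injective S ⟨pPrime p, hpS⟩ _ (dualHom_projHom_injective p L L' hle)

end Fermat.Agent.S55.H43
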