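import Fermat.Agent.S55.H43.LocalCrit
import Fermat.Agent.S55.H43.GoUp
import Fermat.Agent.S55.H87.FieldForm
import Fermat.Agent.S55.H87.BaseAdm
import Fermat.Agent.S29.H81.CycloFrob

/-!
# S55 (Program C, Route R): the field form of the base module, in MODULE form

For a level field `L` and `F_L = 𝔽_p[G_ℚ / G_L]` the structure `H87.FieldForm pkg L` is
constructed for the concrete package `pkg = rPackage S pairing` of any pairing satisfying formula
(C) (`FormulaC S pairing inv ε`), without any cohomology of `G_L`: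

* `H2L := continuousH2S S F_L`, `sh := id`;
* `VL := Σ q : ↥S, Orb S L q`, `Orb S L q` the orbits of the local Galois group at `q` on
  `G_ℚ / G_L` (= the places of `L` above `q`);
* `epsO q O ∈ H⁰(G_q, F_L')`: the functional `δ_{γ G_L} ↦ χ(γ)` on the orbit `O`, `0` elsewhere;
  these form a basis of `H⁰(G_q, F_L')` (Mackey; `sum_coef_smul_epsO`);
* `invL ⟨q, O⟩ x := ε * inv_q ((epsO q O)_* (loc_q x))`;
* `e t := [(0, (∑_O t ⟨q, O⟩ • epsO q O)_q)]`.

All five axioms of `FieldForm` are proved (`fieldFormMod`).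
-/

set_option autoImplicit false

open CategoryTheory Module groupCohomology ExtCitation

noncomputable section

namespace Fermat.Agent.S55.H43

open Fermat.Agent.S55.H70 Fermat.Agent.S55.H12 Fermat.Agent.S55.H87

variable {p : ℕ} [Fact p.Prime] (S : Finset Nat.Primes)

local notation "Qbar" => AlgebraicClosure ℚ

/-- The mod `p` cyclotomic character is trivial on the absolute Galois group of a level field. -/
theorem cycloChar_eq_one_of_isLevelField {S : Finset Nat.Primes}
    {L : IntermediateField ℚ Qbar} (hL : IsLevelField p S L) :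
    ∀ s ∈ L.fixingSubgroup, cycloChar p s = 1 := by
  intro s hs
  obtain ⟨ζ, hζ⟩ := Fermat.Agent.S29.H81.exists_isPrimitiveRoot_qbar p
  refine Fermat.Agent.S29.H81.cycloChar_eq_one_of_apply hζ ?_
  exact (IntermediateField.mem_fixingSubgroup_iff L s).mp hs ζ (hL.2.2 ζ hζ.pow_eq_one)

/-! ### `evH2` is linear in the functional -/

section EvLin

variable (M : Rep.{0, 0, 0} (ZMod p) GQ) (q : ↥S)

theorem evH2_add (m₁ m₂ : H0loc S (D p M) q)
    (y : continuousH2 (primeLocalToGlobal q.1) (Rep.res (primeLocalToGlobal q.1) M)) :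
    evH2 S M q (m₁ + m₂) y = evH2 S M q m₁ y + evH2 S M q m₂ y := by
  obtain ⟨c, rfl⟩ := Submodule.mkQ_surjective _ y
  show continuousH2π _ _ _ = continuousH2π _ _ _ + continuousH2π _ _ _
  rw [← map_add]
  congr 1

theorem evH2_smul (a : ZMod p) (m : H0loc S (D p M) q)
    (y : continuousH2 (primeLocalToGlobal q.1) (Rep.res (primeLocalToGlobal q.1) M)) :
    evH2 S M q (a • m) y = a • evH2 S M q m y := by
  obtain ⟨c, rfl⟩ := Submodule.mkQ_surjective _ y
  show continuousH2π _ _ _ = a • continuousH2π _ _ _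
  rw [← map_smul]
  congr 1

/-- `m ↦ m_* y`, linear in `m ∈ H⁰(G_q, M')`. -/
def evH2Lin (y : continuousH2 (primeLocalToGlobal q.1) (Rep.res (primeLocalToGlobal q.1) M)) :
    H0loc S (D p M) q →ₗ[ZMod p]
      continuousH2 (primeLocalToGlobal q.1) (Rep.res (primeLocalToGlobal q.1) (muRep p)) where
  toFun m := evH2 S M q m y
  map_add' m₁ m₂ := evH2_add S M q m₁ m₂ y
  map_smul' a m := evH2_smul S M q a m y

theorem evH2Lin_apply
    (y : continuousH2 (primeLocalToGlobal q.1) (Rep.res (primeLocalToGlobal q.1) M))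
    (m : H0loc S (D p M) q) : evH2Lin S M q y m = evH2 S M q m y := rfl

end EvLin

/-! ### Orbits of the local groups on `G_ℚ / G_L` -/

section Orbits

variable (L : IntermediateField ℚ Qbar)

/-- The orbits of the local Galois group at `q` on `G_ℚ / G_L`. -/
def Orb (q : ↥S) : Type :=
  MulAction.orbitRel.Quotient (primeLocalToGlobal q.1).range (GQ ⧸ L.fixingSubgroup)

variable {S L}

/-- The orbit of a coset. -/
def orbMk (q : ↥S) (x : GQ ⧸ L.fixingSubgroup) : Orb S L q :=
  Quotient.mk'' x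

theorem orbMk_surjective (q : ↥S) : Function.Surjective (orbMk (S := S) (L := L) q) :=
  Quotient.mk''_surjective

theorem orbMk_eq_iff (q : ↥S) (x y : GQ ⧸ L.fixingSubgroup) :
    orbMk q x = orbMk q y ↔ ∃ g : primeLocalGaloisGroup q.1, primeLocalToGlobal q.1 g • y = x := by
  show (Quotient.mk'' x : MulAction.orbitRel.Quotient (primeLocalToGlobal q.1).range
    (GQ ⧸ L.fixingSubgroup)) = Quotient.mk'' y ↔ _
  rw [Quotient.eq'']
  show x ∈ MulAction.orbit (primeLocalToGlobal q.1).range y ↔ _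
  rw [MulAction.mem_orbit_iff]
  constructor
  · rintro ⟨⟨_, g, rfl⟩, hg⟩
    exact ⟨g, hg⟩
  · rintro ⟨g, hg⟩
    exact ⟨⟨primeLocalToGlobal q.1 g, g, rfl⟩, hg⟩

theorem orbMk_smul (q : ↥S) (g : primeLocalGaloisGroup q.1) (x : GQ ⧸ L.fixingSubgroup) :
    orbMk q (primeLocalToGlobal q.1 g • x) = orbMk q x :=
  (orbMk_eq_iff q _ _).2 ⟨g, rfl⟩

instance orb_finite [Finite (GQ ⧸ L.fixingSubgroup)] (q : ↥S) : Finite (Orb S L q) :=
  Finite.of_surjective _ (orbMk_surjective q)

instance orb_fintype [Finite (GQ ⧸ L.fixingSubgroup)] (q : ↥S) : Fintype (Orb S L q) :=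
  Fintype.ofFinite _

/-- A representative of an orbit. -/
def orbRep (q : ↥S) (O : Orb S L q) : GQ ⧸ L.fixingSubgroup :=
  (orbMk_surjective q O).choose

theorem orbMk_orbRep (q : ↥S) (O : Orb S L q) : orbMk q (orbRep q O) = O :=
  (orbMk_surjective q O).choose_spec

end Orbits

/-! ### The cyclotomic character on `G_ℚ / G_L` and the functionals `ε_{q,O}` -/

section Eps

variable {S}
variable (L : IntermediateField ℚ Qbar)

/-- `χ` on `G_ℚ / G_L` (through a choice of representatives; independent of it for level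
fields). -/
def chiBar (x : GQ ⧸ L.fixingSubgroup) : ZMod p :=
  ((cycloChar p x.out : (ZMod p)ˣ) : ZMod p)

variable {L}

theorem chiBar_ne_zero (x : GQ ⧸ L.fixingSubgroup) : chiBar (p := p) L x ≠ 0 :=
  Units.ne_zero _

variable (hχ : ∀ s ∈ L.fixingSubgroup, cycloChar p s = 1)

include hχ in
theorem chiBar_mk (γ : GQ) :
    chiBar (p := p) L (γ : GQ ⧸ L.fixingSubgroup) = ((cycloChar p γ : (ZMod p)ˣ) : ZMod p) := by
  obtain ⟨h, hh⟩ := QuotientGroup.mk_out_eq_mul L.fixingSubgroup γ
  unfold chiBar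
  rw [hh, map_mul, hχ h h.2, mul_one]

include hχ in
theorem chiBar_smul (g : GQ) (x : GQ ⧸ L.fixingSubgroup) :
    chiBar (p := p) L (g • x) = ((cycloChar p g : (ZMod p)ˣ) : ZMod p) * chiBar L x := by
  induction x using QuotientGroup.induction_on with
  | H γ =>
    have e : g • (γ : GQ ⧸ L.fixingSubgroup) = ((g * γ : GQ) : GQ ⧸ L.fixingSubgroup) := rfl
    rw [e, chiBar_mk hχ, chiBar_mk hχ, map_mul, Units.val_mul]

/-- The action of `G_ℚ` on the basis of `F_L`. -/
theorem baseRep_ρ_single (g : GQ) (x : GQ ⧸ L.fixingSubgroup) (r : ZMod p) :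
    (baseRep p L).ρ g (MonoidAlgebra.single x r) = MonoidAlgebra.single (g • x) r := by
  show Representation.ofMulAction (ZMod p) GQ (GQ ⧸ L.fixingSubgroup) g
    (MonoidAlgebra.single _ _) = _
  rw [Representation.ofMulAction_single]

/-- The action of `G_ℚ` on `F_L'`, evaluated on the basis. -/
theorem dual_ρ_single (g : GQ) (φ : D p (baseRep p L)) (x : GQ ⧸ L.fixingSubgroup) :
    (((D p (baseRep p L)).ρ g φ : D p (baseRep p L)) : Module.Dual (ZMod p) (baseRep p L))
        (MonoidAlgebra.single x 1) =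
      ((cycloChar p g : (ZMod p)ˣ) : ZMod p) *
        (φ : Module.Dual (ZMod p) (baseRep p L)) (MonoidAlgebra.single (g⁻¹ • x) 1) := by
  show ((cycloChar p g : (ZMod p)ˣ) : ZMod p) •
    (φ : Module.Dual (ZMod p) (baseRep p L))
      ((baseRep p L).ρ g⁻¹ (MonoidAlgebra.single x 1)) = _
  rw [baseRep_ρ_single, smul_eq_mul]

variable (L) in
/-- The global functional `δ_{γ G_L} ↦ χ(γ)`. -/
def epsG : D p (baseRep p L) :=
  (liftLin (chiBar (p := p) L) : Module.Dual (ZMod p) (baseRep p L))

theorem epsG_single (x : GQ ⧸ L.fixingSubgroup) :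
    (epsG (p := p) L : Module.Dual (ZMod p) (baseRep p L)) (MonoidAlgebra.single x 1) =
      chiBar L x := by
  show liftLin (chiBar (p := p) L) (MonoidAlgebra.single x 1) = _
  rw [liftLin_single, one_smul]

include hχ in
/-- `epsG` is `G_ℚ`-invariant. -/
theorem epsG_invariant (g : GQ) : (D p (baseRep p L)).ρ g (epsG L) = epsG L := by
  refine monoidAlgebra_dual_ext _ _ fun x => ?_
  rw [dual_ρ_single, epsG_single, epsG_single, chiBar_smul hχ, ← mul_assoc, ← Units.val_mul,
    ← map_mul, mul_inv_cancel, map_one, Units.val_one, one_mul]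

open Classical in
variable (S L) in
/-- The functional `δ_{γ G_L} ↦ χ(γ)` on the orbit `O` of the local group at `q`, `0` outside. -/
def epsO (q : ↥S) (O : Orb S L q) : D p (baseRep p L) :=
  (liftLin (fun x : GQ ⧸ L.fixingSubgroup => if orbMk q x = O then chiBar (p := p) L x else 0) :
    Module.Dual (ZMod p) (baseRep p L))

open Classical in
theorem epsO_single (q : ↥S) (O : Orb S L q) (x : GQ ⧸ L.fixingSubgroup) :
    (epsO (p := p) S L q O : Module.Dual (ZMod p) (baseRep p L)) (MonoidAlgebra.single x 1) =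
      if orbMk q x = O then chiBar L x else 0 := by
  show liftLin _ (MonoidAlgebra.single x 1) = _
  rw [liftLin_single, one_smul]

include hχ in
/-- `epsO q O` is invariant under the local group at `q`. -/
theorem epsO_mem_H0loc (q : ↥S) (O : Orb S L q) :
    epsO (p := p) S L q O ∈ H0loc S (D p (baseRep p L)) q := by
  classical
  intro g
  refine monoidAlgebra_dual_ext _ _ fun x => ?_
  rw [dual_ρ_single, epsO_single, epsO_single]
  have e1 : orbMk q ((primeLocalToGlobal q.1 g)⁻¹ • x) = orbMk q x := by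
    rw [← map_inv]
    exact orbMk_smul q g⁻¹ x
  rw [e1]
  by_cases h : orbMk q x = O
  · rw [if_pos h, if_pos h, chiBar_smul hχ, ← mul_assoc, ← Units.val_mul, ← map_mul,
      mul_inv_cancel, map_one, Units.val_one, one_mul]
  · rw [if_neg h, if_neg h, mul_zero]

variable (S L) in
/-- `epsO q O` as an element of `H⁰(G_q, F_L')`. -/
def epsO' (q : ↥S) (O : Orb S L q) : H0loc S (D p (baseRep p L)) q :=
  ⟨epsO S L q O, epsO_mem_H0loc hχ q O⟩

theorem epsO'_coe (q : ↥S) (O : Orb S L q) :
    ((epsO' S L hχ q O : H0loc S (D p (baseRep p L)) q) : D p (baseRep p L)) = epsO S L q O :=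
  rfl

/-- The sum of the `epsO q O` over the orbits is the global functional. -/
theorem sum_epsO [Finite (GQ ⧸ L.fixingSubgroup)] (q : ↥S) :
    ∑ O : Orb S L q, epsO (p := p) S L q O = epsG L := by
  classical
  refine monoidAlgebra_dual_ext _ _ fun x => ?_
  have e : ((∑ O : Orb S L q, epsO (p := p) S L q O : D p (baseRep p L)) :
      Module.Dual (ZMod p) (baseRep p L)) (MonoidAlgebra.single x 1) =
      ∑ O : Orb S L q, (epsO (p := p) S L q O : Module.Dual (ZMod p) (baseRep p L))
        (MonoidAlgebra.single x 1) := by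
    show ((∑ O : Orb S L q, (epsO (p := p) S L q O : Module.Dual (ZMod p) (baseRep p L))) :
      Module.Dual (ZMod p) (baseRep p L)) (MonoidAlgebra.single x 1) = _
    rw [LinearMap.sum_apply]
  rw [e, epsG_single, Finset.sum_congr rfl (fun O _ => epsO_single q O x), Finset.sum_ite_eq,
    if_pos (Finset.mem_univ _)]

/-- The coefficient of `m ∈ H⁰(G_q, F_L')` at the orbit `O`. -/
def coefO (q : ↥S) (m : D p (baseRep p L)) (O : Orb S L q) : ZMod p :=
  (chiBar (p := p) L (orbRep q O))⁻¹ *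
    (m : Module.Dual (ZMod p) (baseRep p L)) (MonoidAlgebra.single (orbRep q O) 1)

include hχ in
/-- **Mackey for `H⁰`**: the `epsO q O` span `H⁰(G_q, F_L')`. -/
theorem sum_coef_smul_epsO [Finite (GQ ⧸ L.fixingSubgroup)] (q : ↥S)
    (m : H0loc S (D p (baseRep p L)) q) :
    ∑ O : Orb S L q, coefO q (m : D p (baseRep p L)) O • epsO (p := p) S L q O =
      (m : D p (baseRep p L)) := by
  classical
  refine monoidAlgebra_dual_ext _ _ fun x => ?_
  have e : ((∑ O : Orb S L q, coefO q (m : D p (baseRep p L)) O • epsO (p := p) S L q O :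
      D p (baseRep p L)) : Module.Dual (ZMod p) (baseRep p L)) (MonoidAlgebra.single x 1) =
      ∑ O : Orb S L q, coefO q (m : D p (baseRep p L)) O *
        (epsO (p := p) S L q O : Module.Dual (ZMod p) (baseRep p L))
          (MonoidAlgebra.single x 1) := by
    show ((∑ O : Orb S L q, coefO q (m : D p (baseRep p L)) O •
        (epsO (p := p) S L q O : Module.Dual (ZMod p) (baseRep p L))) :
      Module.Dual (ZMod p) (baseRep p L)) (MonoidAlgebra.single x 1) = _
    rw [LinearMap.sum_apply]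
    rfl
  have e' : ∀ O : Orb S L q, coefO q (m : D p (baseRep p L)) O *
        (epsO (p := p) S L q O : Module.Dual (ZMod p) (baseRep p L))
          (MonoidAlgebra.single x 1) =
      if orbMk q x = O then coefO q (m : D p (baseRep p L)) O * chiBar L x else 0 := by
    intro O
    rw [epsO_single, mul_ite, mul_zero]
  rw [e, Finset.sum_congr rfl (fun O _ => e' O), Finset.sum_ite_eq, if_pos (Finset.mem_univ _)]
  -- `x` is in the orbit of the chosen representative
  rw [coefO]
  obtain ⟨g, hg⟩ := (orbMk_eq_iff q x (orbRep q (orbMk q x))).1 (orbMk_orbRep q (orbMk q x)).symm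
  generalize orbRep q (orbMk q x) = r at hg ⊢
  subst hg
  have h1 : ((m : D p (baseRep p L)) : Module.Dual (ZMod p) (baseRep p L))
      (MonoidAlgebra.single (primeLocalToGlobal q.1 g • r) 1) =
      ((cycloChar p (primeLocalToGlobal q.1 g) : (ZMod p)ˣ) : ZMod p) *
        ((m : D p (baseRep p L)) : Module.Dual (ZMod p) (baseRep p L))
          (MonoidAlgebra.single r 1) := by
    rw [← baseRep_ρ_single]
    exact H0loc_equivariant S (baseRep p L) q m g _
  rw [h1, chiBar_smul hχ]
  have hne := chiBar_ne_zero (p := p) (L := L) r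
  field_simp

end Eps

/-! ### The parametrisation `e` of `loc0 (F_L')` -/

section E

variable (L : IntermediateField ℚ Qbar) [Finite (GQ ⧸ L.fixingSubgroup)]
variable (hχ : ∀ s ∈ L.fixingSubgroup, cycloChar p s = 1)

/-- `t ↦ ∑_O t ⟨q, O⟩ • epsO q O ∈ H⁰(G_q, F_L')`. -/
def eLoc (q : ↥S) : ((Σ q : ↥S, Orb S L q) → ZMod p) →ₗ[ZMod p] H0loc S (D p (baseRep p L)) q :=
  ∑ O : Orb S L q,
    (LinearMap.proj (R := ZMod p) (φ := fun _ : (Σ q : ↥S, Orb S L q) => ZMod p)
      (⟨q, O⟩ : Σ q : ↥S, Orb S L q)).smulRight (epsO' S L hχ q O)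

theorem eLoc_apply (q : ↥S) (t : (Σ q : ↥S, Orb S L q) → ZMod p) :
    eLoc S L hχ q t = ∑ O : Orb S L q, t ⟨q, O⟩ • epsO' S L hχ q O := by
  unfold eLoc
  rw [LinearMap.sum_apply]
  rfl

theorem eLoc_coe (q : ↥S) (t : (Σ q : ↥S, Orb S L q) → ZMod p) :
    ((eLoc S L hχ q t : H0loc S (D p (baseRep p L)) q) : D p (baseRep p L)) =
      ∑ O : Orb S L q, t ⟨q, O⟩ • epsO (p := p) S L q O := by
  rw [eLoc_apply, Submodule.coe_sum]
  rfl

/-- `e : 𝔽_p^VL → H¹_c(F_L')`, `t ↦ [(0, (∑_O t ⟨q, O⟩ • epsO q O)_q)]`. -/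
def eMod : ((Σ q : ↥S, Orb S L q) → ZMod p) →ₗ[ZMod p] Hc1 S (D p (baseRep p L)) :=
  loc0Mk S (D p (baseRep p L)) ∘ₗ LinearMap.pi (eLoc S L hχ)

theorem eMod_apply (t : (Σ q : ↥S, Orb S L q) → ZMod p) :
    eMod S L hχ t = loc0Mk S (D p (baseRep p L)) (fun q => eLoc S L hχ q t) := rfl

/-- Every class of `loc0 (F_L')` is in the image of `e`. -/
theorem exists_eMod_eq (y : Hc1 S (D p (baseRep p L))) (hy : y ∈ loc0 S (D p (baseRep p L))) :
    ∃ t, eMod S L hχ t = y := by
  obtain ⟨m, rfl⟩ := (mem_loc0_iff_exists S _ y).1 hy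
  refine ⟨fun w => coefO w.1 ((m w.1 : H0loc S (D p (baseRep p L)) w.1) : D p (baseRep p L)) w.2,
    ?_⟩
  rw [eMod_apply]
  congr 1
  funext q
  apply Subtype.ext
  rw [eLoc_coe]
  exact sum_coef_smul_epsO hχ q (m q)

/-- `e` kills the constants. -/
theorem eMod_const (a : ZMod p) : eMod S L hχ (fun _ => a) = 0 := by
  rw [eMod_apply, loc0Mk_apply]
  refine (Hc1π_eq_zero_iff S _ _).2 ⟨a • epsG L, ?_⟩
  rw [loc0Z_coe]
  refine Prod.ext ?_ ?_
  · funext g
    show (0 : D p (baseRep p L)) = (d₀₁ (D p (baseRep p L))).hom (a • epsG L) g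
    rw [d₀₁_hom_apply, map_smul, epsG_invariant hχ, sub_self]
  · funext q
    show ((eLoc S L hχ q (fun _ => a) : H0loc S (D p (baseRep p L)) q) : D p (baseRep p L)) =
      a • epsG L
    rw [eLoc_coe, ← Finset.smul_sum, sum_epsO]

end E

/-! ### The field form -/

section FF

variable (pairing : ∀ M : Rep.{0, 0, 0} (ZMod p) GQ,
    continuousH2S S M →ₗ[ZMod p] Hc1 S (D p M) →ₗ[ZMod p] ZMod p)
variable (inv : ∀ q : ↥S,
    continuousH2 (primeLocalToGlobal q.1) (Rep.res (primeLocalToGlobal q.1) (muRep p))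
      →ₗ[ZMod p] ZMod p)
variable (L : IntermediateField ℚ Qbar) [Finite (GQ ⧸ L.fixingSubgroup)]
variable (hχ : ∀ s ∈ L.fixingSubgroup, cycloChar p s = 1)

/-- The invariant of `x ∈ H²(G_S, F_L)` at the orbit `O` of the local group at `q`:
`ε * inv_q ((epsO q O)_* (loc_q x))`. -/
def invMod (ε : ZMod p) (w : Σ q : ↥S, Orb S L q) :
    continuousH2S S (baseRep p L) →ₗ[ZMod p] ZMod p :=
  ε • (inv w.1 ∘ₗ evH2 S (baseRep p L) w.1 (epsO' S L hχ w.1 w.2) ∘ₗ
    locRes₂S S (baseRep p L) (primeLocalToGlobal w.1.1))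

theorem invMod_apply (ε : ZMod p) (w : Σ q : ↥S, Orb S L q)
    (x : continuousH2S S (baseRep p L)) :
    invMod S inv L hχ ε w x =
      ε * inv w.1 (evH2 S (baseRep p L) w.1 (epsO' S L hχ w.1 w.2)
        (locRes₂S S (baseRep p L) (primeLocalToGlobal w.1.1) x)) := rfl

/-- The invariants vanish on `sha₂` (`p` odd). -/
theorem invMod_eq_zero_of_mem_sha₂ (hp2 : p ≠ 2) (ε : ZMod p) (x : continuousH2S S (baseRep p L))
    (hx : x ∈ sha₂ S (baseRep p L)) (w : Σ q : ↥S, Orb S L q) : invMod S inv L hχ ε w x = 0 := by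
  rw [invMod_apply, (mem_sha₂_iff_of_ne_two S hp2 _ x).1 hx w.1, map_zero, map_zero, mul_zero]

/-- **The pairing on the image of `e`**, from formula (C). -/
theorem pairing_eMod (ε : ZMod p) (hC : FormulaC S pairing inv ε)
    (hF : IsAdm p S (baseRep p L)) (x : continuousH2S S (baseRep p L))
    (t : (Σ q : ↥S, Orb S L q) → ZMod p) :
    pairing (baseRep p L) x (eMod S L hχ t) = ∑ w, t w * invMod S inv L hχ ε w x := by
  rw [eMod_apply, hC (baseRep p L) hF x (fun q => eLoc S L hχ q t), Fintype.sum_sigma,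
    Finset.mul_sum]
  refine Finset.sum_congr rfl fun q _ => ?_
  rw [← evH2Lin_apply, eLoc_apply, map_sum, map_sum, Finset.mul_sum]
  refine Finset.sum_congr rfl fun O _ => ?_
  rw [map_smul, map_smul, evH2Lin_apply, invMod_apply, smul_eq_mul]
  ring

end FF

/-- **The field form of `F_L` in module form**, for the concrete package of a pairing satisfying
formula (C). -/
def fieldFormMod (hp2 : p ≠ 2)
    (pairing : ∀ M : Rep.{0, 0, 0} (ZMod p) GQ,
      continuousH2S S M →ₗ[ZMod p] Hc1 S (D p M) →ₗ[ZMod p] ZMod p)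
    (inv : ∀ q : ↥S,
      continuousH2 (primeLocalToGlobal q.1) (Rep.res (primeLocalToGlobal q.1) (muRep p))
        →ₗ[ZMod p] ZMod p)
    (ε : ZMod p) (hC : FormulaC S pairing inv ε)
    (L : IntermediateField ℚ Qbar) (hL : IsLevelField p S L) :
    FieldForm (rPackage S pairing) L :=
  haveI : Finite (GQ ⧸ L.fixingSubgroup) := finite_quotient_level p S L hL
  { H2L := continuousH2S S (baseRep p L)
    instH2L := inferInstance
    VL := Σ q : ↥S, Orb S L q
    instVL := inferInstance
    invL := fun w =>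
      (invMod S inv L (cycloChar_eq_one_of_isLevelField hL) ε w).toAddMonoidHom
    sh := AddMonoidHom.id _
    e := eMod S L (cycloChar_eq_one_of_isLevelField hL)
    sh_bijective := Function.bijective_id
    inv_sh_of_mem_sha₂ := fun x hx w =>
      invMod_eq_zero_of_mem_sha₂ S inv L (cycloChar_eq_one_of_isLevelField hL) hp2 ε x hx w
    exists_e_eq := fun y hy => exists_eMod_eq S L (cycloChar_eq_one_of_isLevelField hL) y hy
    e_const := fun a => eMod_const S L (cycloChar_eq_one_of_isLevelField hL) a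
    pairing_e := fun x t =>
      pairing_eMod S pairing inv L (cycloChar_eq_one_of_isLevelField hL) ε hC
        (baseAdm L hL) x t }

end Fermat.Agent.S55.H43
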