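import Fermat.Agent.S55.H43.FieldFormMod
import Fermat.Agent.S55.H62.RFormulaC

/-!
# S55 (Program C, Route R): the module-form field form for the package of `H62.rpairing`

* `mem_sha₂_of_invMod_eq_zero`: with local injectivity (L), a class of `H²(G_S, F_L)` all of
  whose module-form invariants vanish lies in `sha₂` (the converse is
  `invMod_eq_zero_of_mem_sha₂`);
* `fieldFormR`: `H87.FieldForm (rPackage S (H62.rpairing p S inv)) L` for every level field `L`
  (`fieldFormMod` with formula (C) of `H62.rpairing_formulaC`, `ε = -1`);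
* `exStatement_of_fieldFormR`, `hasseStatement_of_fieldFormR`: the leaves (EX) and (HASSE) of the
  base case from `Existence` / `Hasse` of these field forms.
-/

set_option autoImplicit false

open CategoryTheory Module groupCohomology ExtCitation

noncomputable section

namespace Fermat.Agent.S55.H43

open Fermat.Agent.S55.H70 Fermat.Agent.S55.H12 Fermat.Agent.S55.H87

variable {p : ℕ} [Fact p.Prime] (S : Finset Nat.Primes)

local notation "Qbar" => AlgebraicClosure ℚ

section Sha

variable (inv : ∀ q : ↥S,
    continuousH2 (primeLocalToGlobal q.1) (Rep.res (primeLocalToGlobal q.1) (muRep p))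
      →ₗ[ZMod p] ZMod p)
variable (L : IntermediateField ℚ Qbar) [Finite (GQ ⧸ L.fixingSubgroup)]
variable (hχ : ∀ s ∈ L.fixingSubgroup, cycloChar p s = 1)

/-- With local injectivity, the classes all of whose module-form invariants vanish are exactly
the classes of `sha₂` (this is the nontrivial inclusion). -/
theorem mem_sha₂_of_invMod_eq_zero (hp2 : p ≠ 2) (ε : ZMod p) (hε : ε ≠ 0)
    (hLinj : LocalInjP S inv) (hF : IsAdm p S (baseRep p L))
    (x : continuousH2S S (baseRep p L))
    (h : ∀ w : Σ q : ↥S, Orb S L q, invMod S inv L hχ ε w x = 0) :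
    x ∈ sha₂ S (baseRep p L) := by
  rw [mem_sha₂_iff_of_ne_two S hp2]
  intro q
  refine hLinj (baseRep p L) hF q _ fun m => ?_
  have hm : m = ∑ O : Orb S L q, coefO q (m : D p (baseRep p L)) O • epsO' S L hχ q O := by
    apply Subtype.ext
    rw [Submodule.coe_sum]
    exact (sum_coef_smul_epsO hχ q m).symm
  rw [← evH2Lin_apply, hm, map_sum, map_sum]
  refine Finset.sum_eq_zero fun O _ => ?_
  rw [map_smul, map_smul, evH2Lin_apply]
  have h0 := h ⟨q, O⟩
  rw [invMod_apply] at h0
  rw [(mul_eq_zero.mp h0).resolve_left hε, smul_zero]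

end Sha

open Fermat.Agent.S55.H62 in
/-- **The field form of `F_L`** for the package of the Route R pairing `rpairing p S inv`. -/
def fieldFormR (hp2 : p ≠ 2) (hpS : pPrime p ∈ S) (inv : LocalInv p S)
    (hH3 : H3Statement p S) (hREC : RECStatement p S inv)
    (L : IntermediateField ℚ Qbar) (hL : IsLevelField p S L) :
    FieldForm (rPackage S (rpairing p S inv)) L :=
  fieldFormMod S hp2 (rpairing p S inv) inv (-1) (rpairing_formulaC hpS hH3 hREC) L hL

open Fermat.Agent.S55.H62 in
/-- **(EX)** for the package of `rpairing p S inv`, from `Existence` of the module-form field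
forms. -/
theorem exStatement_of_fieldFormR (hp2 : p ≠ 2) (hpS : pPrime p ∈ S) (inv : LocalInv p S)
    (hH3 : H3Statement p S) (hREC : RECStatement p S inv)
    (h : ∀ (L : IntermediateField ℚ Qbar) (hL : IsLevelField p S L),
      (fieldFormR S hp2 hpS inv hH3 hREC L hL).Existence) :
    ExStatement (rPackage S (rpairing p S inv)) :=
  exStatement_of_fieldForm _ fun L hL => ⟨fieldFormR S hp2 hpS inv hH3 hREC L hL, h L hL⟩

open Fermat.Agent.S55.H62 in
/-- **(HASSE)** from `Hasse` of the module-form field forms. -/
theorem hasseStatement_of_fieldFormR (hp2 : p ≠ 2) (hpS : pPrime p ∈ S) (inv : LocalInv p S)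
    (hH3 : H3Statement p S) (hREC : RECStatement p S inv)
    (c : IntermediateField ℚ Qbar → ℕ)
    (h : ∀ (L : IntermediateField ℚ Qbar) (hL : IsLevelField p S L),
      (fieldFormR S hp2 hpS inv hH3 hREC L hL).Hasse (c L)) :
    HasseStatement p S c :=
  hasseStatement_of_fieldForm (rPackage S (rpairing p S inv)) c
    fun L hL => ⟨fieldFormR S hp2 hpS inv hH3 hREC L hL, h L hL⟩

end Fermat.Agent.S55.H43
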