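import Fermat.Agent.S55.H43.C0Leaves

/-!
# S55 (Program C, Route R): compactly supported `H¹` on the frozen Prelude objects

For a representation `N` of the absolute Galois group of `ℚ` and a finite set of primes `S`:

* `Z1c S N`: pairs `(n, (m_q)_{q ∈ S})` with `n` a 1-cocycle which is level-`S`-constant
  (`IsLevelConstantS₁ S n`) and `n = d (m_q)` on the local Galois group at every `q ∈ S`;
* `Hc1 S N := Z1c S N ⧸ B1c S N`, where `B1c` consists of the pairs `(d m₀, (m₀)_q)`;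
* `loc0 S N`: the classes of the pairs `(0, (m_q))`;
* `toH1 S N : Hc1 S N →ₗ H1 N`, `(n, m) ↦ [n]`;
* `Hc1Map S f`: functoriality in `N`.

Main results:

* `ker_toH1 : ker (toH1 S N) = loc0 S N`;
* `sha₁_eq_range_toH1 : sha₁ S N = range (toH1 S N)` when `2 ≠ 0` in the coefficient field;
* `Hc1Map_injective`: `Hc1Map S f` is injective for injective `f` (`S` nonempty);
* `Hc1Map_exact`: exactness in the middle for a short exact sequence with smooth middle term.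
-/

set_option autoImplicit false

open CategoryTheory Module groupCohomology ExtCitation

noncomputable section

namespace Fermat.Agent.S55.H43

local notation "Γ" => (AlgebraicClosure ℚ ≃ₐ[ℚ] AlgebraicClosure ℚ)

variable {k : Type} [Field k] (S : Finset Nat.Primes)

section Defs

variable (N : Rep.{0, 0, 0} k Γ)

/-- Compactly supported 1-cocycles: a level-`S`-constant 1-cocycle `n` together with, for every
`q ∈ S`, a vector `m q` with `n = d (m q)` on the local Galois group at `q`. -/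
def Z1c : Submodule k ((Γ → N) × (↥S → N)) where
  carrier := {z | z.1 ∈ cocycles₁ N ∧ IsLevelConstantS₁ S z.1 ∧
    ∀ (q : ↥S) (g : primeLocalGaloisGroup q.1),
      z.1 (primeLocalToGlobal q.1 g) = N.ρ (primeLocalToGlobal q.1 g) (z.2 q) - z.2 q}
  add_mem' := by
    rintro a b ⟨ha1, ha2, ha3⟩ ⟨hb1, hb2, hb3⟩
    refine ⟨(cocycles₁ N).add_mem ha1 hb1, ha2.add hb2, fun q g => ?_⟩
    show a.1 _ + b.1 _ = N.ρ _ (a.2 q + b.2 q) - (a.2 q + b.2 q)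
    rw [ha3, hb3, map_add]
    abel
  zero_mem' := ⟨(cocycles₁ N).zero_mem, isLevelConstantS₁_const S 0, fun q g => by
    show (0 : N) = N.ρ _ 0 - 0
    rw [map_zero, sub_zero]⟩
  smul_mem' := by
    rintro c a ⟨ha1, ha2, ha3⟩
    refine ⟨(cocycles₁ N).smul_mem c ha1, ha2.comp (fun x => c • x), fun q g => ?_⟩
    show c • a.1 _ = N.ρ _ (c • a.2 q) - c • a.2 q
    rw [ha3, map_smul, smul_sub]

theorem mem_Z1c_iff (z : (Γ → N) × (↥S → N)) :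
    z ∈ Z1c S N ↔ z.1 ∈ cocycles₁ N ∧ IsLevelConstantS₁ S z.1 ∧
      ∀ (q : ↥S) (g : primeLocalGaloisGroup q.1),
        z.1 (primeLocalToGlobal q.1 g) = N.ρ (primeLocalToGlobal q.1 g) (z.2 q) - z.2 q :=
  Iff.rfl

/-- The map `m₀ ↦ (d m₀, (m₀)_q)`. -/
def dc : N →ₗ[k] (Γ → N) × (↥S → N) :=
  LinearMap.prod (d₀₁ N).hom (LinearMap.pi fun _ => LinearMap.id)

theorem dc_apply (m₀ : N) : dc S N m₀ = ((d₀₁ N).hom m₀, fun _ => m₀) := rfl

/-- Compactly supported 1-coboundaries: the pairs `(d m₀, (m₀)_q)` (which lie in `Z1c`). -/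
def B1c : Submodule k (Z1c S N) :=
  (LinearMap.range (dc S N)).comap (Z1c S N).subtype

theorem mem_B1c_iff (z : Z1c S N) :
    z ∈ B1c S N ↔ ∃ m₀ : N, (z : (Γ → N) × (↥S → N)) = ((d₀₁ N).hom m₀, fun _ => m₀) := by
  constructor
  · rintro ⟨m₀, h⟩
    exact ⟨m₀, h.symm⟩
  · rintro ⟨m₀, h⟩
    exact ⟨m₀, h.symm⟩

/-- **Compactly supported `H¹`** of `N` (with respect to the finite places of `S`). -/
abbrev Hc1 : Type := Z1c S N ⧸ B1c S N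

/-- The class of a compactly supported 1-cocycle. -/
def Hc1π : Z1c S N →ₗ[k] Hc1 S N := (B1c S N).mkQ

theorem Hc1π_surjective : Function.Surjective (Hc1π S N) := Submodule.mkQ_surjective _

theorem Hc1π_eq_zero_iff (z : Z1c S N) :
    Hc1π S N z = 0 ↔ ∃ m₀ : N, (z : (Γ → N) × (↥S → N)) = ((d₀₁ N).hom m₀, fun _ => m₀) := by
  rw [Hc1π, Submodule.mkQ_apply, Submodule.Quotient.mk_eq_zero, mem_B1c_iff]

/-- The first component of a compactly supported cocycle, as a cocycle. -/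
def Z1cToCocycles : Z1c S N →ₗ[k] cocycles₁ N :=
  LinearMap.codRestrict (cocycles₁ N) ((LinearMap.fst k _ _) ∘ₗ (Z1c S N).subtype)
    (fun z => z.2.1)

theorem Z1cToCocycles_coe (z : Z1c S N) :
    ((Z1cToCocycles S N z : cocycles₁ N) : Γ → N) = (z : (Γ → N) × (↥S → N)).1 := rfl

/-- The map `H¹_c(N) → H¹(N)`, `(n, m) ↦ [n]`. -/
def toH1 : Hc1 S N →ₗ[k] H1 N :=
  (B1c S N).liftQ ((H1π N).hom ∘ₗ Z1cToCocycles S N) (by
    intro z hz
    obtain ⟨m₀, h⟩ := (mem_B1c_iff S N z).mp hz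
    rw [LinearMap.mem_ker, LinearMap.comp_apply]
    refine (H1π_eq_zero_iff _).2 ⟨m₀, ?_⟩
    exact (congrArg Prod.fst h).symm)

theorem toH1_π (z : Z1c S N) :
    toH1 S N (Hc1π S N z) = (H1π N).hom (Z1cToCocycles S N z) := rfl

/-- The classes of the pairs `(0, (m_q))`: the image of `⊕_q H⁰(G_q, N)`. -/
def loc0 : Submodule k (Hc1 S N) :=
  (LinearMap.ker ((LinearMap.fst k (Γ → N) (↥S → N)) ∘ₗ (Z1c S N).subtype)).map (Hc1π S N)

theorem mem_loc0_iff (x : Hc1 S N) :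
    x ∈ loc0 S N ↔ ∃ z : Z1c S N, (z : (Γ → N) × (↥S → N)).1 = 0 ∧ Hc1π S N z = x := by
  simp only [loc0, Submodule.mem_map, LinearMap.mem_ker]
  rfl

/-- `(d m₀, (m₀)_q)` is a compactly supported cocycle as soon as `d m₀` is level-constant. -/
theorem dc_mem_Z1c (m₀ : N) (h : IsLevelConstantS₁ S ((d₀₁ N).hom m₀)) : dc S N m₀ ∈ Z1c S N :=
  ⟨d₀₁_apply_mem_cocycles₁ m₀, h, fun _ _ => rfl⟩

/-- **(BR1)** The kernel of `H¹_c(N) → H¹(N)` is `loc0`. -/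
theorem ker_toH1 : LinearMap.ker (toH1 S N) = loc0 S N := by
  ext x
  obtain ⟨z, rfl⟩ := Hc1π_surjective S N x
  rw [LinearMap.mem_ker, mem_loc0_iff]
  constructor
  · intro h
    rw [toH1_π] at h
    obtain ⟨m₀, hm₀⟩ := (H1π_eq_zero_iff _).1 h
    have hm₀' : (d₀₁ N).hom m₀ = (z : (Γ → N) × (↥S → N)).1 := hm₀
    have hd : dc S N m₀ ∈ Z1c S N := by
      refine dc_mem_Z1c S N m₀ ?_
      rw [hm₀']
      exact z.2.2.1
    refine ⟨z - ⟨dc S N m₀, hd⟩, ?_, ?_⟩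
    · show (z : (Γ → N) × (↥S → N)).1 - (d₀₁ N).hom m₀ = 0
      rw [hm₀', sub_self]
    · rw [map_sub, sub_eq_self]
      exact (Hc1π_eq_zero_iff S N _).2 ⟨m₀, rfl⟩
  · rintro ⟨z', hz', h⟩
    rw [← h, toH1_π]
    refine (H1π_eq_zero_iff _).2 ?_
    show (z' : (Γ → N) × (↥S → N)).1 ∈ coboundaries₁ N
    rw [hz']
    exact (coboundaries₁ N).zero_mem

/-- **(BR2)** If `2 ≠ 0` in `k`, the Tate–Shafarevich group `sha₁ S N` is the image of
`H¹_c(N) → H¹(N)`. -/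
theorem sha₁_eq_range_toH1 (h2 : (2 : k) ≠ 0) :
    sha₁ S N = LinearMap.range (toH1 S N) := by
  ext x
  rw [mem_sha₁_iff, LinearMap.mem_range]
  constructor
  · rintro ⟨c, hc, rfl, h⟩
    choose m hm using fun q : ↥S => h (Sum.inr q)
    exact ⟨Hc1π S N ⟨((c : Γ → N), m), c.2, hc, fun q g => hm q g⟩, rfl⟩
  · rintro ⟨y, rfl⟩
    obtain ⟨z, rfl⟩ := Hc1π_surjective S N y
    refine ⟨Z1cToCocycles S N z, z.2.2.1, (toH1_π S N z).symm, fun v => ?_⟩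
    rcases v with u | q
    · exact (locRes_H1π_eq_zero_iff S N _ (Sum.inl u)).1
        (H1_archimedean_eq_zero_of_isUnit_two (isUnit_iff_ne_zero.mpr h2) N _)
    · exact ⟨(z : (Γ → N) × (↥S → N)).2 q, fun g => z.2.2.2 q g⟩

end Defs

/-! ### Functoriality -/

section Functoriality

variable {N₁ N₂ N₃ : Rep.{0, 0, 0} k Γ}

/-- Functoriality of compactly supported cocycles. -/
def Z1cMap (f : N₁ ⟶ N₂) : Z1c S N₁ →ₗ[k] Z1c S N₂ :=
  LinearMap.restrict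
    (LinearMap.prodMap (f.hom.toLinearMap.compLeft Γ) (f.hom.toLinearMap.compLeft ↥S)) (by
      rintro z ⟨h1, h2, h3⟩
      refine ⟨?_, h2.comp _, fun q g => ?_⟩
      · rw [mem_cocycles₁_iff] at h1 ⊢
        intro g h
        show f.hom (z.1 (g * h)) = N₂.ρ g (f.hom (z.1 h)) + f.hom (z.1 g)
        rw [h1, map_add, Rep.hom_comm_apply]
      · show f.hom (z.1 _) = N₂.ρ _ (f.hom (z.2 q)) - f.hom (z.2 q)
        rw [h3, map_sub, Rep.hom_comm_apply])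

theorem Z1cMap_coe (f : N₁ ⟶ N₂) (z : Z1c S N₁) :
    (Z1cMap S f z : (Γ → N₂) × (↥S → N₂)) =
      (fun g => f.hom ((z : (Γ → N₁) × (↥S → N₁)).1 g),
        fun q => f.hom ((z : (Γ → N₁) × (↥S → N₁)).2 q)) := rfl

/-- Functoriality of `H¹_c`. -/
def Hc1Map (f : N₁ ⟶ N₂) : Hc1 S N₁ →ₗ[k] Hc1 S N₂ :=
  (B1c S N₁).mapQ (B1c S N₂) (Z1cMap S f) (by
    intro z hz
    obtain ⟨m₀, h⟩ := (mem_B1c_iff S N₁ z).mp hz
    rw [Submodule.mem_comap, mem_B1c_iff]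
    refine ⟨f.hom m₀, ?_⟩
    rw [Z1cMap_coe, h]
    refine Prod.ext (funext fun g => ?_) rfl
    show f.hom (N₁.ρ g m₀ - m₀) = N₂.ρ g (f.hom m₀) - f.hom m₀
    rw [map_sub, Rep.hom_comm_apply])

theorem Hc1Map_π (f : N₁ ⟶ N₂) (z : Z1c S N₁) :
    Hc1Map S f (Hc1π S N₁ z) = Hc1π S N₂ (Z1cMap S f z) := rfl

theorem Hc1Map_id (N : Rep.{0, 0, 0} k Γ) : Hc1Map S (𝟙 N) = LinearMap.id := by
  refine LinearMap.ext fun x => ?_
  obtain ⟨z, rfl⟩ := Hc1π_surjective S N x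
  rfl

theorem Hc1Map_comp (f : N₁ ⟶ N₂) (g : N₂ ⟶ N₃) :
    Hc1Map S (f ≫ g) = Hc1Map S g ∘ₗ Hc1Map S f := by
  refine LinearMap.ext fun x => ?_
  obtain ⟨z, rfl⟩ := Hc1π_surjective S N₁ x
  rfl

theorem Hc1Map_add (f g : N₁ ⟶ N₂) : Hc1Map S (f + g) = Hc1Map S f + Hc1Map S g := by
  refine LinearMap.ext fun x => ?_
  obtain ⟨z, rfl⟩ := Hc1π_surjective S N₁ x
  rfl

theorem Hc1Map_zero : Hc1Map S (0 : N₁ ⟶ N₂) = 0 := by
  refine LinearMap.ext fun x => ?_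
  obtain ⟨z, rfl⟩ := Hc1π_surjective S N₁ x
  rfl

theorem Hc1Map_smul (c : k) (f : N₁ ⟶ N₂) : Hc1Map S (c • f) = c • Hc1Map S f := by
  refine LinearMap.ext fun x => ?_
  obtain ⟨z, rfl⟩ := Hc1π_surjective S N₁ x
  rfl

/-- `Hc1Map` preserves `loc0`. -/
theorem Hc1Map_mem_loc0 (f : N₁ ⟶ N₂) {x : Hc1 S N₁} (hx : x ∈ loc0 S N₁) :
    Hc1Map S f x ∈ loc0 S N₂ := by
  obtain ⟨z, hz, rfl⟩ := (mem_loc0_iff S N₁ x).1 hx
  refine (mem_loc0_iff S N₂ _).2 ⟨Z1cMap S f z, ?_, rfl⟩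
  rw [Z1cMap_coe]
  show (fun g => f.hom ((z : (Γ → N₁) × (↥S → N₁)).1 g)) = 0
  rw [hz]
  funext g
  exact map_zero _

/-- **(LE1)** For `S` nonempty, `H¹_c` preserves injections. -/
theorem Hc1Map_injective (hS : S.Nonempty) (f : N₁ ⟶ N₂) (hf : Function.Injective f.hom) :
    Function.Injective (Hc1Map S f) := by
  rw [injective_iff_map_eq_zero]
  intro x hx
  obtain ⟨z, rfl⟩ := Hc1π_surjective S N₁ x
  rw [Hc1Map_π, Hc1π_eq_zero_iff] at hx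
  obtain ⟨m₀, h⟩ := hx
  rw [Z1cMap_coe] at h
  obtain ⟨q₀, hq₀⟩ := hS
  have h2 : f.hom ((z : (Γ → N₁) × (↥S → N₁)).2 ⟨q₀, hq₀⟩) = m₀ :=
    congrFun (congrArg Prod.snd h) ⟨q₀, hq₀⟩
  rw [Hc1π_eq_zero_iff]
  refine ⟨(z : (Γ → N₁) × (↥S → N₁)).2 ⟨q₀, hq₀⟩, Prod.ext (funext fun g => ?_)
    (funext fun q => ?_)⟩
  · apply hf
    have h1 : f.hom ((z : (Γ → N₁) × (↥S → N₁)).1 g) = N₂.ρ g m₀ - m₀ :=
      congrFun (congrArg Prod.fst h) g
    show f.hom ((z : (Γ → N₁) × (↥S → N₁)).1 g) =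
      f.hom (N₁.ρ g ((z : (Γ → N₁) × (↥S → N₁)).2 ⟨q₀, hq₀⟩) -
        (z : (Γ → N₁) × (↥S → N₁)).2 ⟨q₀, hq₀⟩)
    rw [map_sub, Rep.hom_comm_apply, h2]
    exact h1
  · apply hf
    have h3 : f.hom ((z : (Γ → N₁) × (↥S → N₁)).2 q) = m₀ := congrFun (congrArg Prod.snd h) q
    exact h3.trans h2.symm

/-- **(LE2)** Exactness of `H¹_c` in the middle, for a short exact sequence
`0 → N₁ → N₂ → N₃ → 0` whose middle term is smooth for the levels unramified outside `S`. -/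
theorem Hc1Map_exact (f : N₁ ⟶ N₂) (g : N₂ ⟶ N₃) (hf : Function.Injective f.hom)
    (hex : ∀ y : N₂, g.hom y = 0 → ∃ x : N₁, f.hom x = y) (hg : Function.Surjective g.hom)
    (hsm : ∀ m : N₂, ∃ F : IntermediateField ℚ (AlgebraicClosure ℚ), F.IsUnramifiedOutside S ∧
      ∀ s ∈ F.fixingSubgroup, N₂.ρ s m = m)
    (y : Hc1 S N₂) (hy : Hc1Map S g y = 0) : ∃ x : Hc1 S N₁, Hc1Map S f x = y := by
  obtain ⟨z, rfl⟩ := Hc1π_surjective S N₂ y
  rw [Hc1Map_π, Hc1π_eq_zero_iff] at hy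
  obtain ⟨m₀, h⟩ := hy
  rw [Z1cMap_coe] at h
  obtain ⟨m₁, rfl⟩ := hg m₀
  have hd : dc S N₂ m₁ ∈ Z1c S N₂ := by
    refine dc_mem_Z1c S N₂ m₁ ?_
    obtain ⟨F, hF, hfix⟩ := hsm m₁
    refine ⟨F, hF, fun a s hs => ?_⟩
    show N₂.ρ (a * s) m₁ - m₁ = N₂.ρ a m₁ - m₁
    rw [map_mul, Module.End.mul_apply, hfix s hs]
  have hw1 : ∀ γ : Γ, g.hom ((z : (Γ → N₂) × (↥S → N₂)).1 γ - (N₂.ρ γ m₁ - m₁)) = 0 := by
    intro γ
    have h1 : g.hom ((z : (Γ → N₂) × (↥S → N₂)).1 γ) = N₃.ρ γ (g.hom m₁) - g.hom m₁ :=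
      congrFun (congrArg Prod.fst h) γ
    rw [map_sub, map_sub, Rep.hom_comm_apply, h1, sub_self]
  have hw2 : ∀ q : ↥S, g.hom ((z : (Γ → N₂) × (↥S → N₂)).2 q - m₁) = 0 := by
    intro q
    have h3 : g.hom ((z : (Γ → N₂) × (↥S → N₂)).2 q) = g.hom m₁ :=
      congrFun (congrArg Prod.snd h) q
    rw [map_sub, h3, sub_self]
  choose n hn using fun γ => hex _ (hw1 γ)
  choose m hm using fun q => hex _ (hw2 q)
  have hwZ : (z - ⟨dc S N₂ m₁, hd⟩ : Z1c S N₂).1 ∈ Z1c S N₂ := (z - ⟨dc S N₂ m₁, hd⟩).2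
  have hw : ((fun γ => (z : (Γ → N₂) × (↥S → N₂)).1 γ - (N₂.ρ γ m₁ - m₁)),
      (fun q => (z : (Γ → N₂) × (↥S → N₂)).2 q - m₁)) ∈ Z1c S N₂ := hwZ
  obtain ⟨hwa, hwb, hwc⟩ := hw
  have hnm : (n, m) ∈ Z1c S N₁ := by
    refine ⟨?_, ?_, fun q γ => ?_⟩
    · rw [mem_cocycles₁_iff]
      intro a b
      apply hf
      rw [map_add, Rep.hom_comm_apply, hn, hn, hn]
      exact (mem_cocycles₁_iff _).1 hwa a b
    · obtain ⟨F, hF, hc⟩ := hwb
      exact ⟨F, hF, fun a s hs => hf (by rw [hn, hn]; exact hc a s hs)⟩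
    · apply hf
      rw [map_sub, Rep.hom_comm_apply, hn, hm]
      exact hwc q γ
  refine ⟨Hc1π S N₁ ⟨(n, m), hnm⟩, ?_⟩
  rw [Hc1Map_π]
  have e : Z1cMap S f ⟨(n, m), hnm⟩ = z - ⟨dc S N₂ m₁, hd⟩ :=
    Subtype.ext (Prod.ext (funext hn) (funext hm))
  rw [e, map_sub, sub_eq_self]
  exact (Hc1π_eq_zero_iff S N₂ _).2 ⟨m₁, rfl⟩

end Functoriality

end Fermat.Agent.S55.H43
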