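import Fermat.Agent.S55.H43.FieldFormApi
import Fermat.Agent.S55.H62.RInvFamily
import Fermat.Agent.S55.H87.ShapiroTwo

/-!
# S55 (Program C, Route R): the invariants of the module-form field form on level-constant classes

Sub-leaf (C-inv) of `FieldFormBridge`.  For a level field `L`, `q ∈ S` and an orbit `O` of the
local group at `q` on `G_ℚ / G_L`:

* `epsHom S L hχ q O : Res_{G_q} 𝔽_p[G_ℚ/G_L] ⟶ 𝔽_p(χ)` — the functional `ε_{q,O}`
  (`δ_{γ G_L} ↦ χ(γ)` on `O`, `0` off `O`) as a morphism of representations of the local group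
  (`H26.permRep`, `H26.mu`, `H26.chiLoc` vocabulary);
* `fieldFormR_invL_hlc`: for a family of local invariants (`H26.IsLocalInvFamily`, unpacked by
  `H62.exists_lcInv_of_family` into `inv₀` on `Hlc (Dloc q) 𝔽_p(χ) 2`) and a level-constant
  cocycle `z` of `G_ℚ` with the values of the level cocycle `c`,

    `invL ⟨q, O⟩ [c] = - inv₀ ((ε_{q,O})_* [loc_q z])`,

  where `loc_q z = cycMap (lcRes (locHom S (localGaloisToGlobal q)) _) 2 z` and
  `(ε_{q,O})_* = H26.hlcMap (Dloc q) (epsHom …) 2` — the left-hand side of helper66's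
  `loc_orbit` (LOC-2 + LOC-D);
* `epsHom_single_of_ne`, `epsHom_single_mul_inv`: `ε_{q,O}` is supported on the orbit of `g₀ G_L`
  and `ε_{q,O} (δ_{g₀ G_L}) * χ(g₀)⁻¹ = 1` for every `g₀` with `g₀ G_L ∈ O` (the hypotheses and the
  scalar of `loc_orbit`).
-/

set_option autoImplicit false

open CategoryTheory Module groupCohomology ExtCitation

noncomputable section

namespace Fermat.Agent.S55.H43

open Fermat.Agent.S55.H70 Fermat.Agent.S55.H12 Fermat.Agent.S55.H87 Fermat.Agent.S55.H62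

variable {p : ℕ} [Fact p.Prime] (S : Finset Nat.Primes)

local notation "Qbar" => AlgebraicClosure ℚ

section Eps

variable (L : IntermediateField ℚ Qbar) (hχ : ∀ s ∈ L.fixingSubgroup, cycloChar p s = 1)

/-- `ε_{q,O}` as a morphism of representations of the local group at `q`:
`Res 𝔽_p[G_ℚ/G_L] ⟶ 𝔽_p(χ)`. -/
def epsHom (q : ↥S) (O : Orb S L q) :
    Rep.res (primeLocalToGlobal q.1) (H26.permRep (ZMod p) L.fixingSubgroup) ⟶
      Rep.res (primeLocalToGlobal q.1) (muRep p) :=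
  ConcreteCategory.ofHom (C := Rep.{0} (ZMod p) (primeLocalGaloisGroup q.1))
    (X := Rep.res (primeLocalToGlobal q.1) (H26.permRep (ZMod p) L.fixingSubgroup))
    (Y := Rep.res (primeLocalToGlobal q.1) (muRep p))
    ⟨evLin S (baseRep p L) q (epsO S L q O), fun g => LinearMap.ext fun a =>
      evLin_comm S (baseRep p L) q (epsO' S L hχ q O) g a⟩

theorem epsHom_hom (q : ↥S) (O : Orb S L q)
    (a : MonoidAlgebra (ZMod p) (GQ ⧸ L.fixingSubgroup)) :
    (epsHom S L hχ q O).hom a =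
      (epsO (p := p) S L q O : Module.Dual (ZMod p) (baseRep p L)) a := rfl

open Classical in
theorem epsHom_single (q : ↥S) (O : Orb S L q) (x : GQ ⧸ L.fixingSubgroup) :
    (epsHom S L hχ q O).hom (MonoidAlgebra.single x (1 : ZMod p)) =
      if orbMk q x = O then chiBar L x else 0 := by
  rw [epsHom_hom]
  exact epsO_single q O x

/-- `ε_{q,O}` vanishes at the cosets outside the orbit of `g₀ G_L` (`g₀ G_L ∈ O`). -/
theorem epsHom_single_of_ne (q : ↥S) (g₀ : GQ) (x : GQ)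
    (hx : ∀ h : primeLocalGaloisGroup q.1, (x : GQ ⧸ L.fixingSubgroup) ≠
      ((primeLocalToGlobal q.1 h * g₀ : GQ) : GQ ⧸ L.fixingSubgroup)) :
    (epsHom S L hχ q (orbMk q (g₀ : GQ ⧸ L.fixingSubgroup))).hom
      (MonoidAlgebra.single (x : GQ ⧸ L.fixingSubgroup) (1 : ZMod p)) = 0 := by
  classical
  rw [epsHom_single, if_neg]
  intro h
  obtain ⟨σ, hσ⟩ := (orbMk_eq_iff q _ _).1 h
  exact hx σ hσ.symm

/-- The scalar of `loc_orbit` is `1`: `ε_{q,O} (δ_{g₀ G_L}) * χ(g₀)⁻¹ = 1` for `g₀ G_L ∈ O`. -/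
theorem epsHom_single_mul_inv (q : ↥S) (g₀ : GQ) :
    (epsHom S L hχ q (orbMk q (g₀ : GQ ⧸ L.fixingSubgroup))).hom
      (MonoidAlgebra.single (g₀ : GQ ⧸ L.fixingSubgroup) (1 : ZMod p)) *
        ((cycloChar p g₀ : (ZMod p)ˣ) : ZMod p)⁻¹ = 1 := by
  classical
  rw [epsHom_single, if_pos rfl, chiBar_mk hχ]
  exact mul_inv_cancel₀ (Units.ne_zero _)

end Eps

section Inv

variable (hp2 : p ≠ 2) (hpS : pPrime p ∈ S) (inv : LocalInv p S)
  (hH3 : H3Statement p S) (hREC : RECStatement p S inv)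
  (L : IntermediateField ℚ Qbar) (hL : IsLevelField p S L)

/-- **(C-inv)**: the invariant of `fieldFormR` at the orbit `O` of the local group at `q`, on the
class of a level cocycle `c`, is `- inv₀ ((ε_{q,O})_* [loc_q z])` for every level-constant cocycle
`z` of `G_ℚ` with the values of `c` (`inv₀`, `hπ` from `H62.exists_lcInv_of_family hfam q`). -/
theorem fieldFormR_invL_hlc (q : ↥S) (O : Orb S L q)
    (inv₀ : haveI : Fact ((q.1 : ℕ)).Prime := ⟨q.1.2⟩
      H49.Hlc (H26.Dloc (q.1 : ℕ)) (H26.mu (H26.chiLoc p (q.1 : ℕ))) 2 →ₗ[ZMod p] ZMod p)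
    (hπ : haveI : Fact ((q.1 : ℕ)).Prime := ⟨q.1.2⟩
      ∀ (c : levelCocycles₂ (primeLocalToGlobal q.1) (chiLoc p S q))
        (z : H49.cyc (H49.lcComplex (H26.Dloc (q.1 : ℕ)) (H26.mu (H26.chiLoc p (q.1 : ℕ)))) 2),
        (∀ g : Fin 2 → primeLocalGaloisGroup q.1, H49.lcVal z g = c.1 (g 0, g 1)) →
          inv q (continuousH2π (primeLocalToGlobal q.1) (chiLoc p S q) c) =
            inv₀ ((H49.cls (H49.lcComplex (H26.Dloc (q.1 : ℕ))
              (H26.mu (H26.chiLoc p (q.1 : ℕ)))) 2).hom z))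
    (c : ↥(levelCocyclesS₂ S (baseRep p L)))
    (z : H49.cyc (H49.lcComplex (H49.globalDatum S) (H26.permRep (ZMod p) L.fixingSubgroup)) 2)
    (hz : ∀ g : Fin 2 → GQ, H49.lcVal z g = (c : GQ × GQ → baseRep p L) (g 0, g 1)) :
    haveI : Fact ((q.1 : ℕ)).Prime := ⟨q.1.2⟩
    (fieldFormR S hp2 hpS inv hH3 hREC L hL).invL ⟨q, O⟩ (continuousH2Sπ S (baseRep p L) c) =
      - inv₀ (H26.hlcMap (H26.Dloc (q.1 : ℕ))
        (epsHom S L (cycloChar_eq_one_of_isLevelField hL) q O) 2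
        ((H49.cls _ 2).hom (H49.cycMap (H49.lcRes
          (H49.locHom S (localGaloisToGlobal (q.1 : ℕ)))
          (H26.permRep (ZMod p) L.fixingSubgroup)) 2 z))) := by
  haveI : Fact ((q.1 : ℕ)).Prime := ⟨q.1.2⟩
  set m : H0loc S (D p (baseRep p L)) q := epsO' S L (cycloChar_eq_one_of_isLevelField hL) q O
    with hm
  -- the Prelude local level cocycle `(g, h) ↦ ε_{q,O} (c (loc g, loc h))`
  let c' : ↥(levelCocycles₂ (primeLocalToGlobal q.1)
      (Rep.res (primeLocalToGlobal q.1) (muRep p))) :=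
    levelCocycles₂Map (MonoidHom.id _) (fun _ => rfl) (evLin S (baseRep p L) q (m : D p _))
      (evLin_comm S (baseRep p L) q m)
      (levelCocycles₂Map (rH := MonoidHom.id _) (rG := primeLocalToGlobal q.1)
        (primeLocalToGlobal q.1) (fun _ => rfl)
        (LinearMap.id : baseRep p L →ₗ[ZMod p] Rep.res (primeLocalToGlobal q.1) (baseRep p L))
        (fun _ _ => rfl) (levelCocyclesS₂ToLevelCocycles₂ S (baseRep p L) c))
  have hc' : ∀ g h : primeLocalGaloisGroup q.1,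
      (c' : _ × _ → ↥(Rep.res (primeLocalToGlobal q.1) (muRep p))) (g, h) =
        (epsO (p := p) S L q O : Module.Dual (ZMod p) (baseRep p L))
          ((c : GQ × GQ → baseRep p L) (primeLocalToGlobal q.1 g, primeLocalToGlobal q.1 h)) :=
    fun g h => rfl
  rw [fieldFormR_invL_π S hp2 hpS inv hH3 hREC L hL ⟨q, O⟩ c c' hc']
  congr 1
  -- the level-constant cocycle with the same values
  have hcls : H26.hlcMap (H26.Dloc (q.1 : ℕ))
        (epsHom S L (cycloChar_eq_one_of_isLevelField hL) q O) 2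
        ((H49.cls _ 2).hom (H49.cycMap (H49.lcRes
          (H49.locHom S (localGaloisToGlobal (q.1 : ℕ)))
          (H26.permRep (ZMod p) L.fixingSubgroup)) 2 z)) =
      (H49.cls _ 2).hom (H49.cycMap (H49.lcMapCoeff (H26.Dloc (q.1 : ℕ))
        (epsHom S L (cycloChar_eq_one_of_isLevelField hL) q O)) 2
        (H49.cycMap (H49.lcRes (H49.locHom S (localGaloisToGlobal (q.1 : ℕ)))
          (H26.permRep (ZMod p) L.fixingSubgroup)) 2 z)) :=
    H49.homologyMap_cls _ 2 _
  rw [hcls]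
  refine hπ c' _ fun g => ?_
  rw [hc' (g 0) (g 1)]
  have h2 := hz (fun i => primeLocalToGlobal q.1 (g i))
  rw [← h2]
  rfl

/-- The same for a family of local invariants attached to one global root of unity `ζ₀`
(`H26.IsLocalInvFamily`): the invariant `inv₀` on `Hlc (Dloc q) 𝔽_p(χ) 2` with
`H26.IsLocalInv p q (ι_q ζ₀) inv₀` computes all `invL ⟨q, O⟩`. -/
theorem exists_lcInv_fieldFormR_invL {ζ₀ : Qbar} (hfam : H26.IsLocalInvFamily p S ζ₀ inv)
    (q : ↥S) :
    haveI : Fact ((q.1 : ℕ)).Prime := ⟨q.1.2⟩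
    ∃ inv₀ : H49.Hlc (H26.Dloc (q.1 : ℕ)) (H26.mu (H26.chiLoc p (q.1 : ℕ))) 2 →ₗ[ZMod p] ZMod p,
      H26.IsLocalInv p (q.1 : ℕ) (padicEmbedding (q.1 : ℕ) ζ₀) inv₀ ∧
      (∀ (O : Orb S L q) (c : ↥(levelCocyclesS₂ S (baseRep p L)))
        (z : H49.cyc (H49.lcComplex (H49.globalDatum S)
          (H26.permRep (ZMod p) L.fixingSubgroup)) 2),
        (∀ g : Fin 2 → GQ, H49.lcVal z g = (c : GQ × GQ → baseRep p L) (g 0, g 1)) →
        (fieldFormR S hp2 hpS inv hH3 hREC L hL).invL ⟨q, O⟩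
            (continuousH2Sπ S (baseRep p L) c) =
          - inv₀ (H26.hlcMap (H26.Dloc (q.1 : ℕ))
            (epsHom S L (cycloChar_eq_one_of_isLevelField hL) q O) 2
            ((H49.cls _ 2).hom (H49.cycMap (H49.lcRes
              (H49.locHom S (localGaloisToGlobal (q.1 : ℕ)))
              (H26.permRep (ZMod p) L.fixingSubgroup)) 2 z)))) ∧
      ∀ (O : Orb S L q) (x : continuousH2S S (baseRep p L)),
        (fieldFormR S hp2 hpS inv hH3 hREC L hL).invL ⟨q, O⟩ x =
          - inv₀ (H26.hlcMap (H26.Dloc (q.1 : ℕ))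
            (epsHom S L (cycloChar_eq_one_of_isLevelField hL) q O) 2
            ((HomologicalComplex.homologyMap (H49.lcRes
              (H49.locHom S (localGaloisToGlobal (q.1 : ℕ)))
              (H26.permRep (ZMod p) L.fixingSubgroup)) 2).hom (bridgeTwo L hL x))) := by
  haveI : Fact ((q.1 : ℕ)).Prime := ⟨q.1.2⟩
  obtain ⟨inv₀, hinv₀, hπ⟩ := exists_lcInv_of_family hfam q
  refine ⟨inv₀, hinv₀, fun O c z hz =>
    fieldFormR_invL_hlc S hp2 hpS inv hH3 hREC L hL q O inv₀ hπ c z hz, fun O x => ?_⟩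
  obtain ⟨c, rfl⟩ := Submodule.mkQ_surjective _ x
  obtain ⟨hex, hcls⟩ := bridgeTwo_spec L hL
  obtain ⟨z, hz⟩ := hex c
  have h1 : bridgeTwo L hL (continuousH2Sπ S (baseRep p L) c) =
      (H49.cls (H49.lcComplex (H49.globalDatum S) (baseRep p L)) 2).hom z := hcls c z hz
  have h2 : (HomologicalComplex.homologyMap (H49.lcRes
        (H49.locHom S (localGaloisToGlobal (q.1 : ℕ)))
        (H26.permRep (ZMod p) L.fixingSubgroup)) 2).hom
        ((H49.cls (H49.lcComplex (H49.globalDatum S) (baseRep p L)) 2).hom z) =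
      (H49.cls _ 2).hom (H49.cycMap (H49.lcRes
        (H49.locHom S (localGaloisToGlobal (q.1 : ℕ)))
        (H26.permRep (ZMod p) L.fixingSubgroup)) 2 z) :=
    H49.homologyMap_cls _ 2 z
  have h3 := fieldFormR_invL_hlc S hp2 hpS inv hH3 hREC L hL q O inv₀ hπ c z hz
  show (fieldFormR S hp2 hpS inv hH3 hREC L hL).invL ⟨q, O⟩
    (continuousH2Sπ S (baseRep p L) c) = _
  rw [h3, h1, h2]
  rfl

end Inv

end Fermat.Agent.S55.H43
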