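import Fermat.Agent.S55.H43.InvHlcP
import Fermat.Agent.S55.H54.BridgeSpec

/-!
# S55 (Program C, Route R): the leaf `H54.InvHlcStatement` (C-inv) of `FieldFormBridge`

`invHlcStatement p S : H54.InvHlcStatement p S`, unconditional (from `H43.invHlc_holds`).
-/

set_option autoImplicit false

noncomputable section

namespace Fermat.Agent.S55.H43

/-- **Leaf (C-inv) of helper54's `FieldFormBridge`**, verbatim and unconditional. -/
theorem invHlcStatement (p : ℕ) [Fact p.Prime] (S : Finset Nat.Primes) :
    Fermat.Agent.S55.H54.InvHlcStatement p S :=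
  invHlc_holds p S

end Fermat.Agent.S55.H43
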